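import Fermat.Agent.ES.RC.ModFunField
import Fermat.Agent.S28.CPrimeLaurent
import Fermat.Agent.S28.ModEq
import Fermat.Agent.S28.PrimeLevel
import Fermat.Agent.S28.InductionLaurent
import Fermat.Agent.S28.Transfer

/-!
# ESpkg-G1, piece (RC)(i), second part: the modular unit lies in `ℂ(j(q^d) : d ∣ N)`

* `rc_uS_mem_prime` : for a prime `p`, `u_p = Δ(q^p)/Δ(q) ∈ ℂ(j, j(q^p))` (derivative trick:
  `(θ j)^6 = A(j) Δ` and `θ(j_p) = -Φ_Y/Φ_X · θ j`).
-/

set_option autoImplicit false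

noncomputable section

namespace Fermat.Agent.ES.RC

open Polynomial ModularCurve
open Fermat.Agent.S28

/-! ### `θ` of an algebraic relation -/

/-- `θ` applied to `Φ(x, j)`: it is `Φ_X(x, j) · θ x + B · θ j` with `B` in any intermediate field
containing `x` and `j`. -/
theorem rc_theta_eval₂ {k : Type*} [Field k] (E : IntermediateField k (LaurentSeries k))
    {x j : LaurentSeries k} (hx : x ∈ E) (hj : j ∈ E) (Φ : (k[X])[X]) :
    ∃ B ∈ E, Deriv.thetaFun (Φ.eval₂ (aeval (R := k) j).toRingHom x) =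
      (derivative Φ).eval₂ (aeval (R := k) j).toRingHom x * Deriv.thetaFun x +
        B * Deriv.thetaFun j := by
  induction Φ using Polynomial.induction_on' with
  | add P Q hP hQ =>
    obtain ⟨B1, hB1, h1⟩ := hP
    obtain ⟨B2, hB2, h2⟩ := hQ
    refine ⟨B1 + B2, E.add_mem hB1 hB2, ?_⟩
    rw [eval₂_add, Deriv.thetaFun_add, h1, h2, derivative_add, eval₂_add]
    ring
  | monomial n a =>
    refine ⟨x ^ n * aeval j (derivative a), E.mul_mem (pow_mem hx n)
      (Deriv.aeval_mem_of_mem E hj _), ?_⟩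
    rw [eval₂_monomial, Deriv.thetaFun_mul, Deriv.thetaFun_pow, derivative_monomial,
      eval₂_monomial]
    simp only [AlgHom.toRingHom_eq_coe, RingHom.coe_coe, map_mul, map_natCast]
    rw [Deriv.thetaFun_aeval]
    ring

/-! ### Prime level -/

theorem rc_thetaFun_jqModC_ne_zero : Deriv.thetaFun (jqModC ℂ) ≠ 0 := by
  intro h
  have h1 := congrArg (fun x : LaurentSeries ℂ => x.coeff (-1)) h
  simp only [Deriv.thetaFun_coeff, HahnSeries.coeff_zero] at h1
  rw [coeff_jqModC_neg_one] at h1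
  norm_num at h1

/-- The derivative trick at prime level: `u_p = Δ(q^p)/Δ(q) ∈ ℂ(j, j(q^p))`. -/
theorem rc_uS_mem_prime (p : ℕ) [NeZero p] (hp : p.Prime) :
    uS ℂ p ∈ IntermediateField.adjoin ℂ {jqModC ℂ, qExpand ℂ p (jqModC ℂ)} := by
  set j := jqModC ℂ with hj
  set jp := qExpand ℂ p j with hjp
  set E := IntermediateField.adjoin ℂ {j, jp} with hE
  have hjE : j ∈ E := IntermediateField.subset_adjoin _ _ (by simp)
  have hjpE : jp ∈ E := IntermediateField.subset_adjoin _ _ (by simp)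
  obtain ⟨Φ, hΦm, hΦd, h1, h2⟩ := modEq_exists p hp
  set Q : Polynomial (LaurentSeries ℂ) := Φ.map (aeval (R := ℂ) j).toRingHom with hQ
  have hQm : Q.Monic := hΦm.map _
  have hQd : Q.natDegree = p + 1 := by rw [hQ, hΦm.natDegree_map, hΦd]
  have hQc : Q.eval jp = 0 := by rw [hQ, Polynomial.eval_map]; exact h1
  have hQσ : Q.eval₂ (qExpand ℂ p) j = 0 := by
    rw [hQ, Polynomial.eval₂_map, ← aeval_qExpand_ringHom]
    exact h2
  have hcop : IsCoprime (j.order) (p : ℤ) := by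
    rw [hj, order_jqModC]; exact isCoprime_neg_one_natCast p
  have hfac := eq_X_sub_C_mul_charpolyσ (jqModC_ne_zero ℂ) hcop hp.two_le hQm hQd hQσ hQc
  have hder : (derivative Q).eval jp = (charpolyσ p j).eval jp := by
    rw [hfac, derivative_mul]
    simp [hj]
  have hne : (derivative Φ).eval₂ (aeval (R := ℂ) j).toRingHom jp ≠ 0 := by
    rw [← Polynomial.eval_map, ← derivative_map, ← hQ, hder]
    exact charpolyσ_eval_ne_zero (jqModC_ne_zero ℂ) hcop hp.two_le jp
  obtain ⟨B, hB, hθ⟩ := rc_theta_eval₂ E hjpE hjE Φ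
  rw [h1, Deriv.thetaFun_zero] at hθ
  set D := (derivative Φ).eval₂ (aeval (R := ℂ) j).toRingHom jp with hD
  have hDE : D ∈ E := by
    rw [hD, Polynomial.eval₂_eq_sum_range]
    refine sum_mem fun i _ => E.mul_mem ?_ (pow_mem hjpE i)
    exact Deriv.aeval_mem_of_mem E hjE _
  -- `θ(j_p) = r · θ j`
  set r := -B / D with hr
  have hrE : r ∈ E := E.div_mem (E.neg_mem hB) hDE
  have hθ' : Deriv.thetaFun jp = r * Deriv.thetaFun j := by
    rw [hr, div_mul_eq_mul_div, eq_div_iff hne]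
    linear_combination -hθ
  obtain ⟨A, hA⟩ := CPrime.cprime_complex
  have hΔ : deltaS ℂ ≠ 0 := deltaS_ne_zero ℂ
  have hAj : aeval j A ≠ 0 := by
    intro h
    rw [h, zero_mul] at hA
    exact rc_thetaFun_jqModC_ne_zero (pow_eq_zero_iff (by norm_num) |>.mp hA)
  have hAjp : aeval jp A ≠ 0 := by
    rw [hjp, ← Deriv.qExpand_aeval]
    exact fun h => hAj (qExpand_injective p (by rw [h, map_zero]))
  have hpC : (HahnSeries.C (p : ℂ) : LaurentSeries ℂ) ≠ 0 :=
    HahnSeries.C_ne_zero (Nat.cast_ne_zero.mpr hp.ne_zero)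
  have hθσ : Deriv.thetaFun jp = HahnSeries.C (p : ℂ) * qExpand ℂ p (Deriv.thetaFun j) :=
    Deriv.thetaFun_qExpand p j
  have h6 : (HahnSeries.C (p : ℂ)) ^ 6 * (aeval jp A * qExpand ℂ p (deltaS ℂ))
      = r ^ 6 * (aeval j A * deltaS ℂ) := by
    rw [hjp, ← Deriv.qExpand_aeval, ← map_mul, ← hA, map_pow, ← mul_pow, ← hθσ, hθ', mul_pow]
  have h7 : (HahnSeries.C (p : ℂ)) ^ 6 * aeval jp A * uS ℂ p = r ^ 6 * aeval j A := by
    apply mul_right_cancel₀ hΔ
    rw [qExpand_deltaS_eq] at h6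
    linear_combination h6
  have hmemC : ∀ b : ℂ, (HahnSeries.C b : LaurentSeries ℂ) ∈ E := by
    intro b
    rw [← Deriv.algebraMap_eq_C]
    exact IntermediateField.algebraMap_mem _ b
  have : uS ℂ p = r ^ 6 * aeval j A / ((HahnSeries.C (p : ℂ)) ^ 6 * aeval jp A) := by
    rw [eq_div_iff (mul_ne_zero (pow_ne_zero _ hpC) hAjp)]
    linear_combination h7
  rw [this]
  exact E.div_mem (E.mul_mem (pow_mem hrE 6) (Deriv.aeval_mem_of_mem E hjE A))
    (E.mul_mem (pow_mem (hmemC _) 6) (Deriv.aeval_mem_of_mem E hjpE A))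

/-! ### General level -/

/-- `u_{Mℓ} = σ_ℓ(u_M) · u_ℓ`. -/
theorem rc_uS_mul (R : Type*) [CommRing R] (M ℓ : ℕ) [NeZero M] [NeZero ℓ] :
    uS R (M * ℓ) = qExpand R ℓ (uS R M) * uS R ℓ := by
  rw [uS_eq, uS_eq R M, uS_eq R ℓ, map_mul, qExpand_qExpand]
  have h1 : qExpand R ℓ (deltaInvS R) * qExpand R ℓ (deltaS R) = 1 := by
    rw [← map_mul, mul_comm, deltaS_mul_deltaInvS, map_one]
  have h2 : qExpand R (M * ℓ) (deltaS R) = qExpand R (ℓ * M) (deltaS R) :=
    qExpand_congr (mul_comm _ _) _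
  rw [h2]
  linear_combination -(qExpand R (ℓ * M) (deltaS R) * deltaInvS R) * h1

theorem rc_uS_one (R : Type*) [CommRing R] : uS R 1 = 1 := by
  rw [uS_eq, qExpand_one_apply, deltaS_mul_deltaInvS]

/-- The modular unit `u_N = Δ(q^N)/Δ(q)` lies in `ℂ(j(q^d) : d ∣ N)`. -/
theorem rc_uS_mem_full : ∀ (N : ℕ) [NeZero N], uS ℂ N ∈ modularFunctionFieldFullC ℂ N := by
  intro N
  induction N using Nat.strong_induction_on with
  | _ N ih =>
    intro hN
    by_cases h1 : N = 1
    · subst h1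
      rw [rc_uS_one]
      exact one_mem _
    · obtain ⟨ℓ, hℓ, hdvd⟩ := Nat.exists_prime_and_dvd h1
      obtain ⟨M, hM⟩ := hdvd
      have hNM : N = M * ℓ := by rw [hM, mul_comm]
      subst hNM
      have hM0 : M ≠ 0 := fun h => hN.out (by rw [h, zero_mul])
      have : NeZero M := ⟨hM0⟩
      have : NeZero ℓ := ⟨hℓ.ne_zero⟩
      have hlt : M < M * ℓ := by
        have := hℓ.two_le
        nlinarith [Nat.pos_of_ne_zero hM0]
      have hMmem := ih M hlt
      rw [rc_uS_mul]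
      refine mul_mem ?_ ?_
      · apply full_degeneracyC_map_le ℂ M ℓ
        exact ⟨uS ℂ M, hMmem, rfl⟩
      · have hle : IntermediateField.adjoin ℂ {jqModC ℂ, qExpand ℂ ℓ (jqModC ℂ)} ≤
            modularFunctionFieldFullC ℂ (M * ℓ) := by
          rw [IntermediateField.adjoin_le_iff]
          rintro x (rfl | rfl)
          · exact jqModC_mem_full ℂ _
          · exact jqModCd_mem_full ℂ _ (Dvd.intro_left M rfl)
        exact hle (rc_uS_mem_prime ℓ hℓ)

/-- **(RC)(i)**: a modular function for `Γ₀(N)` (holomorphic on `ℍ`, meromorphic at the cusps) has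
its `q`-expansion in the formal function field `K_ℂ = ℂ(j(q^d) : d ∣ N)`. -/
theorem rc_laurentOf_mem_full (N : ℕ) [NeZero N] {f : UpperHalfPlane → ℂ} (hf : IsModFun N f) :
    laurentOf f ∈ modularFunctionFieldFullC ℂ N := by
  have h := rc_laurentOf_mem_adjoin N hf
  have hle : IntermediateField.adjoin ℂ {jqModC ℂ, (uS ℂ N)⁻¹} ≤
      modularFunctionFieldFullC ℂ N := by
    rw [IntermediateField.adjoin_le_iff]
    rintro x (rfl | rfl)
    · exact jqModC_mem_full ℂ N
    · exact inv_mem (rc_uS_mem_full N)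
  exact hle h

end Fermat.Agent.ES.RC
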