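import Fermat.Agent.ES.RC.UnitField
import Fermat.Agent.S28.ScaleForm

/-!
# ESpkg-G1, piece (RC)(i'): the formal function field is the fraction field of `modFunAlg N`

* `rc_isModFun_of_dvd` : `IsModFun d f → IsModFun N f` for `d ∣ N`.
* `rc_exists_frac` : every `x ∈ K_ℂ = modularFunctionFieldFullC ℂ N` is `laurentOf a / laurentOf b`
  with `a`, `b` modular functions for `Γ₀(N)` (holomorphic on `ℍ`, meromorphic at the cusps).
* `rc_toField N : modFunAlg N →ₐ[ℂ] K_ℂ` (the `q`-expansion), `rc_toField_injective`,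
  `rc_algebra N`, `rc_isScalarTower N`, `rc_isFractionRing N`.
-/

set_option autoImplicit false
set_option linter.style.haveILetI false

noncomputable section

namespace Fermat.Agent.ES.RC

open UpperHalfPlane ModularForm Polynomial ModularCurve
open Fermat.Agent.S23 Fermat.Agent.S24 Fermat.Agent.S28
open scoped MatrixGroups ModularForm Manifold

local notation "Δ" => ModularForm.discriminant

/-! ### Lowering the level -/

theorem rc_Gamma0_le_of_dvd {d N : ℕ} (h : d ∣ N) :
    CongruenceSubgroup.Gamma0 N ≤ CongruenceSubgroup.Gamma0 d := by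
  intro A hA
  rw [CongruenceSubgroup.Gamma0_mem] at hA ⊢
  rw [ZMod.intCast_zmod_eq_zero_iff_dvd] at hA ⊢
  exact (Int.natCast_dvd_natCast.mpr h).trans hA

theorem rc_G0_le_of_dvd {d N : ℕ} (h : d ∣ N) : G0 N ≤ G0 d :=
  Subgroup.map_mono (rc_Gamma0_le_of_dvd h)

theorem rc_isMF_of_dvd {d N : ℕ} (h : d ∣ N) {κ : ℤ} {f : ℍ → ℂ} (hf : IsMF (G0 d) κ f) :
    IsMF (G0 N) κ f := by
  obtain ⟨F, rfl⟩ := hf
  exact ⟨{ toFun := F
           slash_action_eq' := fun A hA => F.slash_action_eq' A (rc_G0_le_of_dvd h hA)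
           holo' := F.holo'
           bdd_at_cusps' := fun hc => F.bdd_at_cusps' (hc.mono (rc_G0_le_of_dvd h)) }, rfl⟩

theorem rc_isModFun_of_dvd {d N : ℕ} (h : d ∣ N) {f : ℍ → ℂ} (hf : IsModFun d f) :
    IsModFun N f := by
  obtain ⟨m, hm⟩ := hf
  exact ⟨m, rc_isMF_of_dvd h hm⟩

theorem rc_isModFun_Jfun_scaleN {d N : ℕ} [NeZero d] (h : d ∣ N) :
    IsModFun N (fun z => Jfun (scaleN d z)) :=
  rc_isModFun_of_dvd h (isModFun_Jfun_scaleN d)

theorem rc_isModFun_one (N : ℕ) : IsModFun N (1 : ℍ → ℂ) := isModFun_const N 1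

theorem rc_isModFun_zero (N : ℕ) : IsModFun N (0 : ℍ → ℂ) := isModFun_const N 0

/-! ### Every element of `K_ℂ` is a quotient of modular functions -/

/-- **(RC)(i')**: every element of the formal function field `K_ℂ = ℂ(j(q^d) : d ∣ N)` is a
quotient of `q`-expansions of modular functions for `Γ₀(N)`. -/
theorem rc_exists_frac (N : ℕ) [NeZero N] {x : LaurentSeries ℂ}
    (hx : x ∈ modularFunctionFieldFullC ℂ N) :
    ∃ a b : ℍ → ℂ, IsModFun N a ∧ IsModFun N b ∧ laurentOf b ≠ 0 ∧
      x * laurentOf b = laurentOf a := by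
  unfold modularFunctionFieldFullC at hx
  induction hx using IntermediateField.adjoin_induction with
  | mem x hx =>
    obtain ⟨d, hne, hd, rfl⟩ := hx
    refine ⟨fun z => Jfun (scaleN d z), 1, rc_isModFun_Jfun_scaleN hd, rc_isModFun_one N, ?_, ?_⟩
    · rw [laurentOf_one]; exact one_ne_zero
    · rw [laurentOf_one, mul_one, laurentOf_Jfun_scaleN]; rfl
  | algebraMap c =>
    refine ⟨fun _ => c, 1, isModFun_const N c, rc_isModFun_one N, ?_, ?_⟩
    · rw [laurentOf_one]; exact one_ne_zero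
    · rw [laurentOf_one, mul_one, laurentOf_const, Deriv.algebraMap_eq_C]
  | add x y _ _ ihx ihy =>
    obtain ⟨a1, b1, ha1, hb1, hb1', h1⟩ := ihx
    obtain ⟨a2, b2, ha2, hb2, hb2', h2⟩ := ihy
    refine ⟨a1 * b2 + a2 * b1, b1 * b2, (ha1.mul hb2).add (ha2.mul hb1), hb1.mul hb2, ?_, ?_⟩
    · rw [laurentOf_mul hb1.isMerInf hb2.isMerInf]; exact mul_ne_zero hb1' hb2'
    · rw [laurentOf_mul hb1.isMerInf hb2.isMerInf,
        laurentOf_add (ha1.mul hb2).isMerInf (ha2.mul hb1).isMerInf,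
        laurentOf_mul ha1.isMerInf hb2.isMerInf, laurentOf_mul ha2.isMerInf hb1.isMerInf,
        ← h1, ← h2]
      ring
  | inv x _ ih =>
    obtain ⟨a, b, ha, hb, hb', h⟩ := ih
    by_cases ha0 : laurentOf a = 0
    · have hx0 : x = 0 := by
        rw [ha0] at h
        exact (mul_eq_zero.mp h).resolve_right hb'
      refine ⟨0, 1, rc_isModFun_zero N, rc_isModFun_one N, ?_, ?_⟩
      · rw [laurentOf_one]; exact one_ne_zero
      · rw [hx0, inv_zero, zero_mul, laurentOf_zero]
    · refine ⟨b, a, hb, ha, ha0, ?_⟩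
      have hx0 : x ≠ 0 := by
        rintro rfl
        rw [zero_mul] at h
        exact ha0 h.symm
      rw [← h]
      field_simp
  | mul x y _ _ ihx ihy =>
    obtain ⟨a1, b1, ha1, hb1, hb1', h1⟩ := ihx
    obtain ⟨a2, b2, ha2, hb2, hb2', h2⟩ := ihy
    refine ⟨a1 * a2, b1 * b2, ha1.mul ha2, hb1.mul hb2, ?_, ?_⟩
    · rw [laurentOf_mul hb1.isMerInf hb2.isMerInf]; exact mul_ne_zero hb1' hb2'
    · rw [laurentOf_mul hb1.isMerInf hb2.isMerInf, laurentOf_mul ha1.isMerInf ha2.isMerInf,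
        ← h1, ← h2]
      ring

/-- Converse of `rc_exists_frac`: a quotient of `q`-expansions of modular functions lies in `K_ℂ`. -/
theorem rc_mem_full_of_frac (N : ℕ) [NeZero N] {x : LaurentSeries ℂ} {a b : ℍ → ℂ}
    (ha : IsModFun N a) (hb : IsModFun N b) (hb' : laurentOf b ≠ 0)
    (h : x * laurentOf b = laurentOf a) : x ∈ modularFunctionFieldFullC ℂ N := by
  have hx : x = laurentOf a / laurentOf b := by rw [eq_div_iff hb']; exact h
  rw [hx]
  exact div_mem (rc_laurentOf_mem_full N ha) (rc_laurentOf_mem_full N hb)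

theorem rc_mem_full_iff (N : ℕ) [NeZero N] {x : LaurentSeries ℂ} :
    x ∈ modularFunctionFieldFullC ℂ N ↔
      ∃ a b : ℍ → ℂ, IsModFun N a ∧ IsModFun N b ∧ laurentOf b ≠ 0 ∧
        x * laurentOf b = laurentOf a :=
  ⟨rc_exists_frac N, fun ⟨_, _, ha, hb, hb', h⟩ => rc_mem_full_of_frac N ha hb hb' h⟩

/-! ### `K_ℂ` as the fraction field of `modFunAlg N` -/

/-- The `q`-expansion, as a `ℂ`-algebra map from the modular functions for `Γ₀(N)` to the formal
function field `K_ℂ`. -/
def rc_toField (N : ℕ) [NeZero N] : modFunAlg N →ₐ[ℂ] modularFunctionFieldFullC ℂ N where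
  toFun f := ⟨laurentOf (f : ℍ → ℂ), rc_laurentOf_mem_full N f.2⟩
  map_one' := Subtype.ext laurentOf_one
  map_mul' f g := Subtype.ext (laurentOf_mul (IsModFun.isMerInf f.2) (IsModFun.isMerInf g.2))
  map_zero' := Subtype.ext laurentOf_zero
  map_add' f g := Subtype.ext (laurentOf_add (IsModFun.isMerInf f.2) (IsModFun.isMerInf g.2))
  commutes' c := Subtype.ext (by
    show laurentOf (fun _ => c) = algebraMap ℂ (LaurentSeries ℂ) c
    rw [laurentOf_const, Deriv.algebraMap_eq_C])

@[simp]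
theorem rc_toField_coe (N : ℕ) [NeZero N] (f : modFunAlg N) :
    ((rc_toField N f : modularFunctionFieldFullC ℂ N) : LaurentSeries ℂ) =
      laurentOf (f : ℍ → ℂ) := rfl

theorem rc_toField_injective (N : ℕ) [NeZero N] : Function.Injective (rc_toField N) := by
  intro f g h
  have h1 : laurentOf (f : ℍ → ℂ) = laurentOf (g : ℍ → ℂ) := congrArg Subtype.val h
  exact Subtype.ext (laurentOf_injective (IsModFun.isMerInf f.2) (IsModFun.isMerInf g.2) h1)

/-- The algebra structure of `K_ℂ` over the ring of modular functions (via `q`-expansion). -/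
@[reducible]
def rc_algebra (N : ℕ) [NeZero N] : Algebra (modFunAlg N) (modularFunctionFieldFullC ℂ N) :=
  (rc_toField N).toRingHom.toAlgebra

theorem rc_algebraMap_apply (N : ℕ) [NeZero N] (f : modFunAlg N) :
    letI := rc_algebra N
    algebraMap (modFunAlg N) (modularFunctionFieldFullC ℂ N) f = rc_toField N f := rfl

theorem rc_isScalarTower (N : ℕ) [NeZero N] :
    letI := rc_algebra N
    IsScalarTower ℂ (modFunAlg N) (modularFunctionFieldFullC ℂ N) := by
  letI := rc_algebra N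
  refine IsScalarTower.of_algebraMap_eq fun c => ?_
  rw [rc_algebraMap_apply]
  exact ((rc_toField N).commutes c).symm

/-- **`K_ℂ = Frac(modFunAlg N)`**. -/
theorem rc_isFractionRing (N : ℕ) [NeZero N] :
    letI := rc_algebra N
    IsFractionRing (modFunAlg N) (modularFunctionFieldFullC ℂ N) := by
  letI := rc_algebra N
  haveI : FaithfulSMul (modFunAlg N) (modularFunctionFieldFullC ℂ N) :=
    (faithfulSMul_iff_algebraMap_injective _ _).mpr (rc_toField_injective N)
  refine IsFractionRing.of_field _ _ fun z => ?_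
  obtain ⟨a, b, ha, hb, hb', h⟩ := rc_exists_frac N z.2
  refine ⟨⟨a, ha⟩, ⟨b, hb⟩, ?_⟩
  have hb0 : algebraMap (modFunAlg N) (modularFunctionFieldFullC ℂ N) ⟨b, hb⟩ ≠ 0 := by
    intro h0
    exact hb' (congrArg Subtype.val h0)
  rw [eq_div_iff hb0]
  exact Subtype.ext h

end Fermat.Agent.ES.RC
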