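import Fermat.Agent.ES.RC.ShiftLaurent
import Fermat.Agent.ES.MultiplierHecke
import Fermat.Agent.ES.HeckeHomEq

/-!
# ESpkg-G1, analytic seam of HKb: the Laurent expansion of `∏_A f ∘ A`

For a prime `ℓ` and `f` holomorphic on `ℍ`, `1`-periodic and meromorphic at `i∞`
(`IsMerInf f`, e.g. `IsModFun M f`), the function
`heckeProd ℓ f : τ ↦ f(ℓτ) · ∏_{b<ℓ} f((τ + b)/ℓ)` is again in `merInf` and its Laurent expansion is
`kronHecke ℓ ζ (laurentOf f) = F(q^ℓ) · ∏_{b<ℓ} F(ζ^b q^{1/ℓ})`: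

* `rc_isMerInf_heckeProd`, `rc_laurentOf_heckeProd`.
-/

set_option autoImplicit false

noncomputable section

namespace Fermat.Agent.ES.RC

open UpperHalfPlane ModularForm Filter Asymptotics Complex
open Fermat.Agent.S23 Fermat.Agent.S28 Fermat.Agent.ES
open scoped Manifold Topology Real

local notation "Δ" => ModularForm.discriminant
local notation "𝕢" => Function.Periodic.qParam

variable (ℓ : ℕ) [NeZero ℓ]

theorem rc_natCast_pos : (0 : ℤ) < (ℓ : ℤ) := Nat.cast_pos.mpr (Nat.pos_of_ne_zero (NeZero.ne ℓ))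

/-- The point `(τ + b) / ℓ`. -/
def rcBeta (b : ℕ) (z : ℍ) : ℍ := P8_betaPt 1 (b : ℤ) (ℓ : ℤ) one_pos (rc_natCast_pos ℓ) z

theorem rc_coe_beta (b : ℕ) (z : ℍ) :
    ((rcBeta ℓ b z : ℍ) : ℂ) = ((z : ℂ) + (b : ℂ)) / (ℓ : ℂ) := by
  rw [rcBeta, P8_coe_betaPt]
  push_cast
  rw [one_mul]

/-- `τ ↦ ∏_{b<ℓ} f((τ + b)/ℓ)`. -/
def rcNormFun (f : ℍ → ℂ) : ℍ → ℂ := fun z => ∏ b ∈ Finset.range ℓ, f (rcBeta ℓ b z)

theorem rc_normFun_apply (f : ℍ → ℂ) (z : ℍ) :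
    rcNormFun ℓ f z = ∏ b ∈ Finset.range ℓ, f (rcBeta ℓ b z) := rfl

theorem rc_normFun_mul (f g : ℍ → ℂ) (z : ℍ) :
    rcNormFun ℓ (fun z => f z * g z) z = rcNormFun ℓ f z * rcNormFun ℓ g z := by
  simp only [rc_normFun_apply, Finset.prod_mul_distrib]

theorem rc_normFun_pow (f : ℍ → ℂ) (k : ℕ) (z : ℍ) :
    rcNormFun ℓ (fun z => f z ^ k) z = rcNormFun ℓ f z ^ k := by
  simp only [rc_normFun_apply, Finset.prod_pow]

theorem rc_mdiff_normFun {f : ℍ → ℂ} (hf : MDiff f) : MDiff (rcNormFun ℓ f) := by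
  have h : ∀ s : Finset ℕ, MDiff (fun z : ℍ => ∏ b ∈ s, f (rcBeta ℓ b z)) := by
    intro s
    classical
    induction s using Finset.induction_on with
    | empty => simpa using (mdifferentiable_const : MDiff (fun _ : ℍ => (1 : ℂ)))
    | insert b s hb ih =>
      simp only [Finset.prod_insert hb]
      exact (rc_mdiff_comp_beta 1 b ℓ one_pos (rc_natCast_pos ℓ) hf).mul ih
  exact h _

/-- a product over a period of an `ℓ`-periodic sequence is shift invariant -/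
theorem rc_prod_range_shift (φ : ℕ → ℂ) (h : φ ℓ = φ 0) :
    ∏ b ∈ Finset.range ℓ, φ (b + 1) = ∏ b ∈ Finset.range ℓ, φ b := by
  have h1 := Finset.prod_range_succ' φ ℓ
  have h2 := Finset.prod_range_succ φ ℓ
  have hℓ : 0 < ℓ := Nat.pos_of_ne_zero (NeZero.ne ℓ)
  by_cases h0 : φ 0 = 0
  · have e1 : ∏ b ∈ Finset.range ℓ, φ b = 0 :=
      Finset.prod_eq_zero (Finset.mem_range.mpr hℓ) h0
    have e2 : ∏ b ∈ Finset.range ℓ, φ (b + 1) = 0 := by
      refine Finset.prod_eq_zero (Finset.mem_range.mpr (Nat.sub_lt hℓ one_pos)) ?_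
      have e3 : ℓ - 1 + 1 = ℓ := by omega
      rw [e3, h, h0]
    rw [e1, e2]
  · rw [h1, h] at h2
    exact mul_right_cancel₀ h0 h2

theorem rc_normFun_periodic {f : ℍ → ℂ} (hf : Function.Periodic (f ∘ ofComplex) 1) :
    Function.Periodic (rcNormFun ℓ f ∘ ofComplex) 1 := by
  have hℓC : (ℓ : ℂ) ≠ 0 := Nat.cast_ne_zero.mpr (NeZero.ne ℓ)
  intro w
  simp only [Function.comp_apply]
  by_cases hw : 0 < w.im
  · have hw1 : 0 < (w + 1).im := by simpa using hw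
    rw [ofComplex_apply_of_im_pos hw, ofComplex_apply_of_im_pos hw1, rc_normFun_apply,
      rc_normFun_apply]
    have e1 : ∀ b : ℕ, rcBeta ℓ b ⟨w + 1, hw1⟩ = rcBeta ℓ (b + 1) ⟨w, hw⟩ := by
      intro b
      apply UpperHalfPlane.ext
      rw [rc_coe_beta, rc_coe_beta]
      show (w + 1 + (b : ℂ)) / (ℓ : ℂ) = (w + ((b + 1 : ℕ) : ℂ)) / (ℓ : ℂ)
      push_cast
      ring_nf
    simp only [e1]
    refine rc_prod_range_shift ℓ (fun b => f (rcBeta ℓ b ⟨w, hw⟩)) ?_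
    refine rc_periodic_int hf _ _ 1 ?_
    rw [rc_coe_beta, rc_coe_beta]
    push_cast
    field_simp
    ring
  · have hw1 : ¬ 0 < (w + 1).im := by simpa using hw
    rw [ofComplex_apply_of_im_nonpos (not_lt.mp hw), ofComplex_apply_of_im_nonpos (not_lt.mp hw1)]

theorem rc_isBounded_normFun {g : ℍ → ℂ} (hg : IsBoundedAtImInfty g) :
    IsBoundedAtImInfty (rcNormFun ℓ g) := by
  have h : ∀ b ∈ Finset.range ℓ, (fun z : ℍ => g (rcBeta ℓ b z)) =O[atImInfty]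
      (fun _ : ℍ => (1 : ℝ)) := fun b _ =>
    rc_isBounded_comp_beta 1 b ℓ one_pos (rc_natCast_pos ℓ) hg
  have h2 := IsBigO.finsetProd h
  refine h2.congr' (Eventually.of_forall fun z => rfl) (Eventually.of_forall fun z => ?_)
  simp

/-- `Δ(τ) / ∏_b Δ((τ + b)/ℓ)` is bounded at `i∞`. -/
theorem rc_isBounded_disc_div_normFun :
    IsBoundedAtImInfty (fun z : ℍ => Δ z * (rcNormFun ℓ Δ z)⁻¹) := by
  have h1 := rc_discriminant_isBigO_exp
  have h : ∀ b ∈ Finset.range ℓ, (fun z : ℍ => (Δ (rcBeta ℓ b z))⁻¹) =O[atImInfty]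
      (fun z : ℍ => (Real.exp (-2 * π * (((1 : ℤ) : ℝ) / ((ℓ : ℤ) : ℝ) * z.im)))⁻¹) := fun b _ =>
    rc_inv_discriminant_comp_beta_isBigO 1 b ℓ one_pos (rc_natCast_pos ℓ)
  have h2 := IsBigO.finsetProd h
  have h3 := h1.mul h2
  refine h3.congr' (Eventually.of_forall fun z => ?_) (Eventually.of_forall fun z => ?_)
  · simp only [rc_normFun_apply, Finset.prod_inv_distrib]
  · have hℓ : ((ℓ : ℤ) : ℝ) ≠ 0 := by exact_mod_cast NeZero.ne ℓ
    simp only [Pi.one_apply, Finset.prod_const, Finset.card_range]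
    rw [← Real.exp_neg, ← Real.exp_nat_mul, ← Real.exp_add]
    have : -2 * π * z.im + (ℓ : ℝ) * -(-2 * π * (((1 : ℤ) : ℝ) / ((ℓ : ℤ) : ℝ) * z.im)) = 0 := by
      push_cast at hℓ ⊢
      field_simp
      ring
    rw [this, Real.exp_zero]

theorem rc_periodic_of_isMerInf {f : ℍ → ℂ} (hf : IsMerInf f) :
    Function.Periodic (f ∘ ofComplex) 1 := by
  obtain ⟨m, hm⟩ := hf
  have h1 := hm.2.1
  have h2 : Function.Periodic ((fun z : ℍ => Δ z) ∘ ofComplex) 1 :=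
    bridge_isHPB_discriminant.2.1
  intro w
  have e1 := h1 w
  have e2 := h2 w
  simp only [Function.comp_apply] at e1 e2 ⊢
  rw [e2] at e1
  exact mul_right_cancel₀ (pow_ne_zero m (discriminant_ne_zero _)) e1

theorem rc_normFun_disc_ne_zero (z : ℍ) : rcNormFun ℓ Δ z ≠ 0 := by
  rw [rc_normFun_apply]
  exact Finset.prod_ne_zero_iff.mpr fun b _ => discriminant_ne_zero _

/-- `τ ↦ ∏_{b<ℓ} f((τ + b)/ℓ)` is in `merInf` if `f` is. -/
theorem rc_isMerInf_normFun {f : ℍ → ℂ} (hf : IsMerInf f) : IsMerInf (rcNormFun ℓ f) := by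
  have hper := rc_periodic_of_isMerInf hf
  have hmd := IsMerInf.mdiff hf
  obtain ⟨m, hm⟩ := hf
  refine ⟨m, (rc_mdiff_normFun ℓ hmd).mul (mdiff_discriminant_pow m), ?_, ?_⟩
  · have h1 := rc_normFun_periodic ℓ hper
    have h2 : Function.Periodic ((fun z : ℍ => Δ z) ∘ ofComplex) 1 :=
      bridge_isHPB_discriminant.2.1
    intro w
    have e1 := h1 w
    have e2 := h2 w
    simp only [Function.comp_apply] at e1 e2 ⊢
    rw [e1, e2]
  · have h1 := rc_isBounded_normFun ℓ hm.2.2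
    have h2 := rc_isBounded_pow (rc_isBounded_disc_div_normFun ℓ) m
    have h3 := h1.mul h2
    refine h3.congr' (Eventually.of_forall fun z => ?_) (Eventually.of_forall fun z => rfl)
    simp only [Pi.mul_apply]
    rw [rc_normFun_mul, rc_normFun_pow]
    have hne := rc_normFun_disc_ne_zero ℓ z
    rw [mul_pow, inv_pow]
    field_simp

/-! ### The Laurent expansion of `rcNormFun` -/

theorem rc_isMerInf_prod {ι : Type*} (s : Finset ι) (F : ι → ℍ → ℂ)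
    (hF : ∀ i ∈ s, IsMerInf (F i)) : IsMerInf (fun z => ∏ i ∈ s, F i z) := by
  have h : IsMerInf (∏ i ∈ s, F i) := merInf.prod_mem hF
  convert h using 1
  funext z
  rw [Finset.prod_apply]

theorem rc_laurentOf_prod {ι : Type*} (s : Finset ι) (F : ι → ℍ → ℂ)
    (hF : ∀ i ∈ s, IsMerInf (F i)) :
    laurentOf (fun z => ∏ i ∈ s, F i z) = ∏ i ∈ s, laurentOf (F i) := by
  classical
  induction s using Finset.induction_on with
  | empty =>
    simp only [Finset.prod_empty]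
    exact laurentOf_one
  | insert a s ha ih =>
    have h1 : IsMerInf (F a) := hF a (Finset.mem_insert_self a s)
    have h2 : ∀ i ∈ s, IsMerInf (F i) := fun i hi => hF i (Finset.mem_insert_of_mem hi)
    have h3 := rc_isMerInf_prod s F h2
    rw [Finset.prod_insert ha, ← ih h2, ← laurentOf_mul h1 h3]
    congr 1
    funext z
    rw [Finset.prod_insert ha]
    rfl

omit [NeZero ℓ] in
theorem rc_root_pow (b : ℕ) : rcRoot (b : ℤ) (ℓ : ℤ) = rcRoot 1 (ℓ : ℤ) ^ b := by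
  apply Units.ext
  rw [Units.val_pow_eq_pow_val, rc_coe_root, rc_coe_root, ← Complex.exp_nat_mul]
  congr 1
  push_cast
  ring

theorem rc_isPrimitiveRoot_root : IsPrimitiveRoot (rcRoot 1 (ℓ : ℤ)) ℓ := by
  have h := Complex.isPrimitiveRoot_exp ℓ (NeZero.ne ℓ)
  rw [← IsPrimitiveRoot.coe_units_iff]
  convert h using 1
  rw [rc_coe_root]
  congr 1
  push_cast
  ring

theorem rc_beta_scaleN (b : ℕ) (z : ℍ) :
    rcBeta ℓ b (scaleN ℓ z) = rcShift (b : ℤ) (ℓ : ℤ) (rc_natCast_pos ℓ) z := by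
  have hℓC : (ℓ : ℂ) ≠ 0 := Nat.cast_ne_zero.mpr (NeZero.ne ℓ)
  apply UpperHalfPlane.ext
  rw [rc_coe_beta, rc_coe_shift, coe_scaleN]
  push_cast
  field_simp

/-- The Laurent expansion of `τ ↦ ∏_{b<ℓ} f((τ + b)/ℓ)` is `∏_{b<ℓ} F(ζ^b q^{1/ℓ})`,
`ζ = exp (2πi/ℓ)`. -/
theorem rc_laurentOf_normFun {f : ℍ → ℂ} (hf : IsMerInf f) :
    laurentOf (rcNormFun ℓ f) = kronNorm ℓ (rcRoot 1 (ℓ : ℤ)) (laurentOf f) := by
  have hH := rc_isMerInf_normFun ℓ hf
  have h1 := laurentOf_comp_scaleN ℓ hH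
  have h2 : (fun z => rcNormFun ℓ f (scaleN ℓ z)) =
      fun z => ∏ b ∈ Finset.range ℓ, f (rcShift (b : ℤ) (ℓ : ℤ) (rc_natCast_pos ℓ) z) := by
    funext z
    rw [rc_normFun_apply]
    exact Finset.prod_congr rfl fun b _ => by rw [rc_beta_scaleN]
  rw [h2, rc_laurentOf_prod _ _ (fun b _ => rc_isMerInf_shift _ _ _ hf)] at h1
  have h3 : ∏ b ∈ Finset.range ℓ,
      laurentOf (fun z => f (rcShift (b : ℤ) (ℓ : ℤ) (rc_natCast_pos ℓ) z)) =
      kronRotProd ℓ (rcRoot 1 (ℓ : ℤ)) (laurentOf f) := by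
    rw [kronRotProd]
    exact Finset.prod_congr rfl fun b _ => by rw [rc_laurentOf_shift _ _ _ hf, rc_root_pow]
  rw [h3] at h1
  exact (kronNorm_unique ℓ _ _ _ h1.symm).symm

/-! ### `heckeProd` for a prime -/

theorem rc_prod_zmod (φ : ℕ → ℂ) : ∏ j : ZMod ℓ, φ j.val = ∏ b ∈ Finset.range ℓ, φ b := by
  obtain ⟨n, rfl⟩ : ∃ n, ℓ = n + 1 := Nat.exists_eq_succ_of_ne_zero (NeZero.ne ℓ)
  exact Fin.prod_univ_eq_prod_range φ (n + 1)

theorem rc_act_none [hp : Fact ℓ.Prime] (τ : ℍ) :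
    (repOfPoint (p := ℓ) none).act τ = scaleN ℓ τ := by
  apply UpperHalfPlane.ext
  rw [HeckeRep.coe_act, coe_scaleN]
  simp [repOfPoint]

theorem rc_act_some [hp : Fact ℓ.Prime] (j : ZMod ℓ) (τ : ℍ) :
    (repOfPoint (p := ℓ) (some j)).act τ = rcBeta ℓ j.val τ := by
  apply UpperHalfPlane.ext
  rw [HeckeRep.coe_act, rc_coe_beta]
  simp [repOfPoint]

/-- For a prime `ℓ`: `∏_A f(Aτ) = f(ℓτ) · ∏_{b<ℓ} f((τ + b)/ℓ)`. -/
theorem rc_heckeProd_eq (hℓ : ℓ.Prime) (f : ℍ → ℂ) (τ : ℍ) :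
    heckeProd ℓ f τ = f (scaleN ℓ τ) * rcNormFun ℓ f τ := by
  have : Fact ℓ.Prime := ⟨hℓ⟩
  rw [heckeProd_apply, ← Equiv.prod_comp (repEquiv (p := ℓ)), rc_normFun_apply,
    ← rc_prod_zmod ℓ (fun b => f (rcBeta ℓ b τ))]
  simp only [repEquiv_apply]
  have h := Fintype.prod_option (fun x : Option (ZMod ℓ) => f ((repOfPoint (p := ℓ) x).act τ))
  rw [rc_act_none] at h
  simp only [rc_act_some] at h
  rw [← h]
  rfl

/-- **`heckeProd ℓ f` is meromorphic at `i∞`.** -/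
theorem rc_isMerInf_heckeProd (hℓ : ℓ.Prime) {f : ℍ → ℂ} (hf : IsMerInf f) :
    IsMerInf (heckeProd ℓ f) := by
  have h1 := isMerInf_comp_scaleN ℓ hf
  have h2 := rc_isMerInf_normFun ℓ hf
  have h3 := h1.mul h2
  convert h3 using 1
  funext τ
  exact rc_heckeProd_eq ℓ hℓ f τ

/-- The Laurent expansion of `heckeProd ℓ f`, with `ζ = exp (2πi/ℓ)`. -/
theorem rc_laurentOf_heckeProd_root (hℓ : ℓ.Prime) {f : ℍ → ℂ} (hf : IsMerInf f) :
    laurentOf (heckeProd ℓ f) = kronHecke ℓ (rcRoot 1 (ℓ : ℤ)) (laurentOf f) := by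
  have h1 := isMerInf_comp_scaleN ℓ hf
  have h2 := rc_isMerInf_normFun ℓ hf
  have h3 : heckeProd ℓ f = (fun z => f (scaleN ℓ z)) * rcNormFun ℓ f := by
    funext τ
    exact rc_heckeProd_eq ℓ hℓ f τ
  rw [h3, laurentOf_mul h1 h2, laurentOf_comp_scaleN ℓ hf, rc_laurentOf_normFun ℓ hf]
  rfl

/-- **The Laurent expansion of `heckeProd ℓ f` is `kronHecke ℓ ζ (laurentOf f)`**, for every
primitive `ℓ`-th root of unity `ζ`. -/
theorem rc_laurentOf_heckeProd (hℓ : ℓ.Prime) (ζ : ℂˣ) (hζ : IsPrimitiveRoot ζ ℓ)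
    {f : ℍ → ℂ} (hf : IsMerInf f) :
    laurentOf (heckeProd ℓ f) = kronHecke ℓ ζ (laurentOf f) := by
  rw [rc_laurentOf_heckeProd_root ℓ hℓ hf, kronHecke, kronHecke,
    kronNorm_eq_of_isPrimitiveRoot ℓ ζ (rcRoot 1 (ℓ : ℤ)) hζ (rc_isPrimitiveRoot_root ℓ)]

end Fermat.Agent.ES.RC
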