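import Fermat.Agent.S24.PlaceOfValuation

/-!
# ESpkg-G1 (RC)(ii) — generic: places of a fraction field from an "order function" on a domain

`IsOrdFun o` : `o : B → ℤ` is additive on products and satisfies the ultrametric inequality on
nonzero elements.  Then `o` extends to a `ℤᵐ⁰`-valued valuation `ordFrac` of any fraction field `F`
of `B`, and (if `o` vanishes on the constants and is positive somewhere) there is a place `w` of
`F` with `o f = e * w.ord f`.
-/

set_option autoImplicit false

noncomputable section

namespace Fermat.Agent.ES.RC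

open AlgebraicCurve WithZero Fermat.Agent.S24

variable {B : Type*} [CommRing B]

/-- An order function on a ring: additive on products of nonzero elements, ultrametric. -/
structure IsOrdFun (o : B → ℤ) : Prop where
  one : o 1 = 0
  mul : ∀ f g : B, f ≠ 0 → g ≠ 0 → f * g ≠ 0 ∧ o (f * g) = o f + o g
  add : ∀ f g : B, f ≠ 0 → g ≠ 0 → f + g ≠ 0 → min (o f) (o g) ≤ o (f + g)

variable [Nontrivial B]

/-- The valuation attached to an order function. -/
def ordVal (o : B → ℤ) (ho : IsOrdFun o) : Valuation B ℤᵐ⁰ where
  toFun f := open Classical in if f = 0 then 0 else WithZero.exp (-(o f))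
  map_zero' := by simp
  map_one' := by simp [ho.one]
  map_mul' f g := by
    rcases eq_or_ne f 0 with rfl | hf
    · simp
    rcases eq_or_ne g 0 with rfl | hg
    · simp
    obtain ⟨h1, h2⟩ := ho.mul f g hf hg
    simp only [hf, hg, h1, if_false, h2, ← WithZero.exp_add]
    congr 1
    ring
  map_add_le_max' f g := by
    rcases eq_or_ne f 0 with rfl | hf
    · rw [zero_add]; exact le_max_right _ _
    rcases eq_or_ne g 0 with rfl | hg
    · rw [add_zero]; exact le_max_left _ _
    rcases eq_or_ne (f + g) 0 with hfg | hfg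
    · simp [hfg]
    simp only [hf, hg, hfg, if_false]
    have h := ho.add f g hf hg hfg
    rcases min_le_iff.mp h with h | h
    · exact le_max_of_le_left (WithZero.exp_le_exp.mpr (by omega))
    · exact le_max_of_le_right (WithZero.exp_le_exp.mpr (by omega))

theorem ordVal_apply (o : B → ℤ) (ho : IsOrdFun o) {f : B} (hf : f ≠ 0) :
    ordVal o ho f = WithZero.exp (-(o f)) := by
  classical
  show (if f = 0 then 0 else WithZero.exp (-(o f))) = _
  rw [if_neg hf]

theorem ordVal_ne_zero (o : B → ℤ) (ho : IsOrdFun o) {f : B} (hf : f ≠ 0) :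
    ordVal o ho f ≠ 0 := by
  rw [ordVal_apply o ho hf]; exact WithZero.exp_ne_zero

theorem nonZeroDivisors_le_ordVal (o : B → ℤ) (ho : IsOrdFun o) :
    nonZeroDivisors B ≤ (ordVal o ho).supp.primeCompl := by
  intro f hf
  have hf0 : f ≠ 0 := nonZeroDivisors.ne_zero hf
  show f ∉ (ordVal o ho).supp
  rw [Valuation.mem_supp_iff]
  exact ordVal_ne_zero o ho hf0

section Frac

variable (F : Type*) [Field F] [Algebra B F] [IsFractionRing B F]

/-- The valuation on a fraction field attached to an order function. -/
def ordFrac (o : B → ℤ) (ho : IsOrdFun o) : Valuation F ℤᵐ⁰ :=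
  (ordVal o ho).extendToLocalization (nonZeroDivisors_le_ordVal o ho) F

theorem ordFrac_algebraMap (o : B → ℤ) (ho : IsOrdFun o) (f : B) :
    ordFrac F o ho (algebraMap B F f) = ordVal o ho f :=
  Valuation.extendToLocalization_apply_map_apply _ _ _ f

omit [Nontrivial B] in
theorem rc_algebraMap_ne_zero {f : B} (hf : f ≠ 0) : algebraMap B F f ≠ 0 := by
  intro h
  apply hf
  exact (IsFractionRing.injective B F) (by rw [h, map_zero])

theorem vord_ordFrac_algebraMap (o : B → ℤ) (ho : IsOrdFun o) {f : B} (hf : f ≠ 0) :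
    vord (ordFrac F o ho) (algebraMap B F f) = o f := by
  rw [vord, ordFrac_algebraMap, ordVal_apply o ho hf, WithZero.log_exp, neg_neg]

theorem vord_ordFrac_div (o : B → ℤ) (ho : IsOrdFun o) {a b : B} (ha : a ≠ 0) (hb : b ≠ 0) :
    vord (ordFrac F o ho) (algebraMap B F a / algebraMap B F b) = o a - o b := by
  rw [div_eq_mul_inv, vord_mul _ (rc_algebraMap_ne_zero F ha)
    (inv_ne_zero (rc_algebraMap_ne_zero F hb)), vord_inv,
    vord_ordFrac_algebraMap F o ho ha, vord_ordFrac_algebraMap F o ho hb]
  ring

/-- Membership in the valuation ring of `ordFrac`, for a fraction. -/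
theorem div_mem_ordFrac_iff (o : B → ℤ) (ho : IsOrdFun o) {a b : B} (ha : a ≠ 0) (hb : b ≠ 0) :
    algebraMap B F a / algebraMap B F b ∈ (ordFrac F o ho).valuationSubring ↔ o b ≤ o a := by
  have hne : algebraMap B F a / algebraMap B F b ≠ 0 :=
    div_ne_zero (rc_algebraMap_ne_zero F ha) (rc_algebraMap_ne_zero F hb)
  rw [Valuation.mem_valuationSubring_iff, le_one_iff_vord_nonneg _ hne,
    vord_ordFrac_div F o ho ha hb]
  omega

variable {K : Type*} [Field K] [Algebra K B] [Algebra K F] [IsScalarTower K B F]

/-- **The place attached to an order function** which vanishes on the constants and is positive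
somewhere. -/
theorem exists_place_of_ordFun (o : B → ℤ) (ho : IsOrdFun o)
    (hK : ∀ a : K, algebraMap K B a ≠ 0 → 0 ≤ o (algebraMap K B a))
    (hpos : ∃ x : B, x ≠ 0 ∧ 0 < o x) :
    ∃ (w : Place K F) (e : ℕ), 0 < e ∧
      w.toValuationSubring = (ordFrac F o ho).valuationSubring ∧
      ∀ f : B, f ≠ 0 → o f = (e : ℤ) * w.ord (algebraMap B F f) := by
  obtain ⟨x, hx0, hx⟩ := hpos
  obtain ⟨w, e₀, he₀, hw, hord⟩ := exists_place_of_valuation (K := K) (ordFrac F o ho)
    (by
      intro a
      rw [IsScalarTower.algebraMap_apply K B F, ordFrac_algebraMap]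
      rcases eq_or_ne (algebraMap K B a) 0 with h | h
      · rw [h, map_zero]; exact zero_le_one
      · rw [ordVal_apply o ho h, ← WithZero.exp_zero, WithZero.exp_le_exp]
        have := hK a h
        omega)
    ⟨algebraMap B F x, rc_algebraMap_ne_zero F hx0, by
      rw [lt_one_iff_vord_pos _ (rc_algebraMap_ne_zero F hx0),
        vord_ordFrac_algebraMap F o ho hx0]
      exact hx⟩
  lift e₀ to ℕ using he₀.le
  refine ⟨w, e₀, by exact_mod_cast he₀, hw, fun f hf => ?_⟩
  rw [← hord _ (rc_algebraMap_ne_zero F hf), vord_ordFrac_algebraMap F o ho hf]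

end Frac

end Fermat.Agent.ES.RC
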