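import Fermat.Agent.ES.RC.PlacePlan
import Fermat.Agent.ES.RC.OrdVal

/-!
# ESpkg-G1 (RC)(ii), piece P-pt: the place of `Frac (modFunAlg M)` at a point `τ ∈ ℍ`

* `IsModFun.mdiff` : modular functions are holomorphic on `ℍ`;
* `isOrdFun_ordPt` : `f ↦ ordPt τ f` is an order function on `modFunAlg M`;
* `valPt M F τ` : the corresponding valuation of `F`;
* `exists_place_pt` : the place at `τ`, with its valuation ring;
* `stmtPt : StmtPt M F`.
-/

set_option autoImplicit false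

noncomputable section

namespace Fermat.Agent.ES.RC

open UpperHalfPlane AlgebraicCurve ModularForm WithZero
open Fermat.Agent.S23 Fermat.Agent.S24 Fermat.Agent.S28
open scoped MatrixGroups Manifold ModularForm

local notation "Δ" => ModularForm.discriminant

/-- Modular functions are holomorphic. -/
theorem rc_mdiff_of_isModFun {M : ℕ} {f : ℍ → ℂ} (hf : IsModFun M f) : MDiff f := by
  obtain ⟨m, G, hG⟩ := hf
  have hGd : MDiff (G : ℍ → ℂ) := ModularFormClass.holo G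
  have hΔ : MDiff (CuspForm.discriminant : ℍ → ℂ) := ModularFormClass.holo CuspForm.discriminant
  rw [UpperHalfPlane.mdifferentiable_iff] at hGd hΔ ⊢
  have h1 : (f ∘ ofComplex) = fun z => ((G : ℍ → ℂ) ∘ ofComplex) z /
      (((CuspForm.discriminant : ℍ → ℂ) ∘ ofComplex) z) ^ m := by
    ext z
    have := congrFun hG (ofComplex z)
    simp only [Function.comp_apply, CuspForm.coe_discriminant]
    rw [this, mul_div_assoc, div_self (pow_ne_zero m (discriminant_ne_zero _)), mul_one]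
  rw [h1]
  exact hGd.div (hΔ.pow m) fun z _ => pow_ne_zero m (by
    simp only [Function.comp_apply, CuspForm.coe_discriminant]
    exact discriminant_ne_zero _)

variable (M : ℕ) [NeZero M]

theorem rc_mdiff (f : modFunAlg M) : MDiff (f : ℍ → ℂ) := rc_mdiff_of_isModFun f.2

theorem rc_coe_ne_zero {f : modFunAlg M} (hf : f ≠ 0) : (f : ℍ → ℂ) ≠ 0 :=
  fun h => hf (Subtype.ext h)

instance rc_noZeroDivisors : NoZeroDivisors (modFunAlg M) where
  eq_zero_or_eq_zero_of_mul_eq_zero := by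
    rintro ⟨f, hf⟩ ⟨g, hg⟩ h
    have h' : f * g = 0 := congrArg Subtype.val h
    rcases (UpperHalfPlane.mul_eq_zero_iff (rc_mdiff_of_isModFun hf)
      (rc_mdiff_of_isModFun hg)).mp h' with h0 | h0
    · exact Or.inl (Subtype.ext h0)
    · exact Or.inr (Subtype.ext h0)

instance rc_nontrivial : Nontrivial (modFunAlg M) :=
  ⟨⟨0, 1, fun h => by
    have h' : (0 : ℍ → ℂ) = 1 := congrArg Subtype.val h
    have := congrFun h' UpperHalfPlane.I
    simp at this⟩⟩

instance rc_isDomain : IsDomain (modFunAlg M) := NoZeroDivisors.to_isDomain _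

/-! ### The order at a point as an order function -/

theorem rc_coe_ordPt (τ : ℍ) {f : modFunAlg M} (hf : f ≠ 0) :
    (((ordAt τ (f : ℍ → ℂ)).toNat : ℕ) : ℕ∞) = ordAt τ (f : ℍ → ℂ) :=
  ENat.natCast_toNat (ordAt_ne_top (rc_mdiff M f) (rc_coe_ne_zero M hf) τ)

theorem isOrdFun_ordPt (τ : ℍ) : IsOrdFun (fun f : modFunAlg M => ordPt τ (f : ℍ → ℂ)) where
  one := by
    have h1 : ((1 : modFunAlg M) : ℍ → ℂ) = fun _ => (1 : ℂ) := rfl
    simp only [ordPt, h1, ordAt_const one_ne_zero]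
    rfl
  mul f g hf hg := by
    refine ⟨mul_ne_zero hf hg, ?_⟩
    have h := ordAt_mul (rc_mdiff M f) (rc_mdiff M g) τ
    have h1 : ((f * g : modFunAlg M) : ℍ → ℂ) = (f : ℍ → ℂ) * (g : ℍ → ℂ) := rfl
    rw [← h1, ← rc_coe_ordPt M τ hf, ← rc_coe_ordPt M τ hg,
      ← rc_coe_ordPt M τ (mul_ne_zero hf hg)] at h
    simp only [ordPt]
    exact_mod_cast h
  add f g hf hg hfg := by
    have h := le_ordAt_add (f : ℍ → ℂ) (g : ℍ → ℂ) τ
    have h1 : ((f + g : modFunAlg M) : ℍ → ℂ) = (f : ℍ → ℂ) + (g : ℍ → ℂ) := rfl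
    rw [← h1, ← rc_coe_ordPt M τ hf, ← rc_coe_ordPt M τ hg, ← rc_coe_ordPt M τ hfg] at h
    simp only [ordPt]
    rw [min_le_iff] at h ⊢
    rcases h with h | h
    · exact Or.inl (by exact_mod_cast h)
    · exact Or.inr (by exact_mod_cast h)

theorem ordPt_algebraMap (τ : ℍ) (a : ℂ) :
    ordPt τ ((algebraMap ℂ (modFunAlg M) a : modFunAlg M) : ℍ → ℂ) = 0 := by
  rcases eq_or_ne a 0 with rfl | ha
  · simp only [map_zero, ordPt]
    have : ((0 : modFunAlg M) : ℍ → ℂ) = fun _ => (0 : ℂ) := rfl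
    rw [this, ordAt, analyticOrderAt_eq_top.mpr (by simp)]
    rfl
  · have h1 : ((algebraMap ℂ (modFunAlg M) a : modFunAlg M) : ℍ → ℂ) = fun _ => a := rfl
    rw [ordPt, h1, ordAt_const ha]
    rfl

/-- `J - J(τ)` as an element of `modFunAlg M`. -/
def jSub (c : ℂ) : modFunAlg M :=
  ⟨Jfun, isModFun_Jfun M⟩ - algebraMap ℂ (modFunAlg M) c

theorem jSub_apply (c : ℂ) (z : ℍ) : (jSub M c : ℍ → ℂ) z = Jfun z - c := rfl

theorem jSub_ne_zero (c : ℂ) : jSub M c ≠ 0 := by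
  intro h
  obtain ⟨z, hz⟩ := Jfun_surjective (c + 1)
  have h1 := congrFun (congrArg Subtype.val h) z
  rw [jSub_apply, hz] at h1
  simp at h1

theorem ordPt_jSub_pos (τ : ℍ) : 0 < ordPt τ (jSub M (Jfun τ) : ℍ → ℂ) := by
  have hne : ordAt τ (jSub M (Jfun τ) : ℍ → ℂ) ≠ 0 := by
    rw [ordAt, Ne, analyticOrderAt_eq_zero]
    push Not
    refine ⟨ordAt_analyticAt (rc_mdiff M _) τ, ?_⟩
    simp [jSub_apply]
  have h2 := rc_coe_ordPt M τ (jSub_ne_zero M (Jfun τ))
  rw [ordPt]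
  have h3 : (ordAt τ (jSub M (Jfun τ) : ℍ → ℂ)).toNat ≠ 0 := by
    intro h0
    rw [h0] at h2
    exact hne h2.symm
  exact_mod_cast Nat.pos_of_ne_zero h3

section Place

variable (F : Type*) [Field F] [Algebra ℂ F] [Algebra (modFunAlg M) F]
  [IsScalarTower ℂ (modFunAlg M) F] [IsFractionRing (modFunAlg M) F]

/-- The valuation of `F` given by the order at `τ`. -/
def valPt (τ : ℍ) : Valuation F ℤᵐ⁰ :=
  ordFrac F (fun f : modFunAlg M => ordPt τ (f : ℍ → ℂ)) (isOrdFun_ordPt M τ)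

/-- The place of `F` at `τ`. -/
theorem exists_place_pt (τ : ℍ) :
    ∃ (w : Place ℂ F) (e : ℕ), 0 < e ∧
      w.toValuationSubring = (valPt M F τ).valuationSubring ∧
      ∀ f : modFunAlg M, f ≠ 0 →
        ordPt τ (f : ℍ → ℂ) = (e : ℤ) * w.ord (algebraMap (modFunAlg M) F f) :=
  exists_place_of_ordFun (K := ℂ) F (fun f : modFunAlg M => ordPt τ (f : ℍ → ℂ))
    (isOrdFun_ordPt M τ) (fun a _ => (ordPt_algebraMap M τ a).ge)
    ⟨jSub M (Jfun τ), jSub_ne_zero M _, ordPt_jSub_pos M τ⟩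

end Place

/-- **P-pt.** -/
theorem stmtPt (F : Type) [Field F] [Algebra ℂ F] [Algebra (modFunAlg M) F]
    [IsScalarTower ℂ (modFunAlg M) F] [IsFractionRing (modFunAlg M) F] : StmtPt M F := by
  intro τ
  obtain ⟨w, e, he, -, h⟩ := exists_place_pt M F τ
  exact ⟨w, e, he, h⟩

end Fermat.Agent.ES.RC
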