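/-
ESpkg-G1, piece A3 consumer (helper83): `u_χ = (E₁₂^χ / Δ)^p ∈ U_ℂ`.

From helper8's (RC)(ii) statements `StmtAll`, `StmtPtExact`, `StmtCuspExact` (places of
`F = Frac (modFunAlg M)` are the analytic orders at points / cusps, with exact ramification):
for every place `v` of `F / ℂ`, `p ∣ v.ord u_χ`.

Contents:
* `eis_isModFun_smul`          : a modular function for `Γ₀(M)` is `Γ₀(M)`-invariant;
* `eis_modFun_comp_isPer`, `eis_modFun_comp_meromorphicAt`, `eis_modFun_comp_order_ne_top` :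
  `f ∘ g` at the cusp `g∞`, in `q_h`;
* `eis_cuspFn_change_period`   : `ord_{q_{hk}} = k · ord_{q_h}`;
* `eis_ordCusp_mul_period`     : `ordCusp h g f * h' = ordCusp h' g f * h`;
* `eis_place_ord_eq_of_prop`   : two places with proportional orders on a ring of fractions
  have equal orders;
* `uChi`, `uChi_dvd_ord`       : the main statement.
-/
import Fermat.Agent.ES.RC.PlacePt
import Fermat.Agent.ES.EisCharCusp
import Fermat.Agent.ES.EisCharModFun
import Fermat.Agent.ES.MultiplierCusp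

set_option autoImplicit false

open EisensteinSeries UpperHalfPlane ModularForm CongruenceSubgroup Matrix Filter Topology
open scoped MatrixGroups Manifold

noncomputable section

namespace Fermat.Agent.ES

open Fermat.Agent.S23 Fermat.Agent.S24 Fermat.Agent.S28 Fermat.Agent.ES.RC AlgebraicCurve

local notation "Δ" => ModularForm.discriminant

variable {M : ℕ}

/-! ### Modular functions: invariance and behaviour at the cusps -/

/-- slash of `f · Δ ^ m` by `g ∈ SL(2,ℤ)`, pointwise. -/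
lemma eis_slash_mul_disc_pow (f : ℍ → ℂ) (m : ℕ) (g : SL(2, ℤ)) (z : ℍ) :
    ((fun z => f z * Δ z ^ m) ∣[(12 * (m : ℤ))] g) z = f (g • z) * Δ z ^ m := by
  rw [SL_slash_apply]
  rw [eis_discriminant_smul, mul_pow, ← pow_mul]
  have hd : denom g z ≠ 0 := denom_ne_zero _ z
  have e : denom g z ^ (-(12 * (m : ℤ))) = (denom g z ^ (12 * m))⁻¹ := by
    rw [_root_.zpow_neg]
    congr 1
  rw [e]
  field_simp

/-- A modular function for `Γ₀(M)` is invariant under `Γ₀(M)`. -/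
theorem eis_isModFun_smul {f : ℍ → ℂ} (hf : IsModFun M f) {γ : SL(2, ℤ)} (hγ : γ ∈ Gamma0 M)
    (z : ℍ) : f (γ • z) = f z := by
  obtain ⟨m, Φ, hΦ⟩ := hf
  have h1 : (⇑Φ : ℍ → ℂ) ∣[(12 * (m : ℤ))] γ = ⇑Φ := by
    rw [SL_slash]
    exact SlashInvariantForm.slash_action_eqn Φ _ ⟨γ, hγ, rfl⟩
  rw [hΦ] at h1
  have h2 := congrFun h1 z
  rw [eis_slash_mul_disc_pow] at h2
  exact mul_right_cancel₀ (pow_ne_zero m (discriminant_ne_zero z)) h2

/-- the numerator of `f ∘ g` at the cusp `g∞` is holomorphic and bounded at `i∞`. -/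
theorem eis_modFun_num [NeZero M] {f : ℍ → ℂ} {m : ℕ}
    (hm : IsMF (G0 M) (12 * (m : ℤ)) (fun z => f z * Δ z ^ m)) (g : SL(2, ℤ)) :
    MDiff (fun z => f (g • z) * Δ z ^ m) ∧
      IsBoundedAtImInfty (fun z => f (g • z) * Δ z ^ m) := by
  obtain ⟨Φ, hΦ⟩ := hm
  have hfun : (fun z => f (g • z) * Δ z ^ m) = (⇑Φ : ℍ → ℂ) ∣[(12 * (m : ℤ))] g := by
    funext z
    rw [hΦ, eis_slash_mul_disc_pow]
  rw [hfun]
  refine ⟨?_, ?_⟩
  · rw [SL_slash]
    exact Φ.holo'.slash _ _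
  · exact ModularFormClass.bdd_at_infty_slash Φ g

/-- `f ∘ g` is `h`-periodic for a period `h` of the cusp `g∞`. -/
theorem eis_modFun_comp_isPer {f : ℍ → ℂ} (hf : IsModFun M f) {g : SL(2, ℤ)} {h : ℕ}
    (hh : IsCuspPeriod M h g) : IsPer h (fun z => f (g • z)) := by
  intro z
  have h1 := eis_isModFun_smul hf hh.2 (g • z)
  show f (g • (((h : ℕ) : ℝ) +ᵥ z)) = f (g • z)
  rw [← h1]
  congr 1
  rw [← mul_smul, inv_mul_cancel_right, mul_smul]
  congr 1
  have := modular_T_zpow_smul z (h : ℤ)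
  rw [zpow_natCast] at this
  rw [this]
  push_cast
  rfl

/-- pointwise: `cuspFn h (f ∘ g) = cuspFn h (numerator) / cuspFn h (Δ ^ m)`. -/
lemma eis_cuspFn_modFun_comp (f : ℍ → ℂ) (m : ℕ) (g : SL(2, ℤ)) (h : ℕ) :
    cuspFn h (fun z => f (g • z))
      = cuspFn h (fun z => f (g • z) * Δ z ^ m) / cuspFn h (fun z => Δ z ^ m) := by
  funext q
  simp only [cuspFn_apply, Pi.div_apply]
  rw [mul_div_assoc, div_self (pow_ne_zero m (discriminant_ne_zero _)), mul_one]

lemma eis_isPer_disc_pow (h m : ℕ) : IsPer h (fun z => Δ z ^ m) := by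
  intro z
  have := eis_isPer_discriminant h z
  simp only at this ⊢
  rw [this]

lemma eis_mdiff_disc_pow (m : ℕ) : MDiff (fun z : ℍ => Δ z ^ m) :=
  eis_discriminant_mdiff.pow m

lemma eis_bounded_disc_pow (m : ℕ) : IsBoundedAtImInfty (fun z : ℍ => Δ z ^ m) := by
  have h : Tendsto (fun z : ℍ => Δ z ^ m) atImInfty (𝓝 ((0 : ℂ) ^ m)) :=
    (discriminant_isZeroAtImInfty : Tendsto (fun τ : ℍ => Δ τ) atImInfty (𝓝 0)).pow m
  exact h.isBigO_one ℝ

lemma eis_disc_pow_ne_zero (m : ℕ) : (fun z : ℍ => Δ z ^ m) ≠ 0 :=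
  fun h => pow_ne_zero m (discriminant_ne_zero UpperHalfPlane.I) (congrFun h UpperHalfPlane.I)

/-- **Meromorphy of a modular function at the cusp `g∞`** (in `q_h`). -/
theorem eis_modFun_comp_meromorphicAt [NeZero M] {f : ℍ → ℂ} (hf : IsModFun M f)
    {g : SL(2, ℤ)} {h : ℕ} (hh : IsCuspPeriod M h g) :
    MeromorphicAt (cuspFn h (fun z => f (g • z))) 0 := by
  have hper := eis_modFun_comp_isPer hf hh
  obtain ⟨m, hm⟩ := hf
  obtain ⟨h1, h2⟩ := eis_modFun_num hm g
  have hpn : IsPer h (fun z => f (g • z) * Δ z ^ m) := by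
    intro z
    have a := hper z
    have b := eis_isPer_disc_pow h m z
    simp only at a b ⊢
    rw [a, b]
  rw [eis_cuspFn_modFun_comp f m g h]
  exact (eis_meromorphicAt_cuspFn hh.1 h1 hpn h2).div
    (eis_meromorphicAt_cuspFn hh.1 (eis_mdiff_disc_pow m) (eis_isPer_disc_pow h m)
      (eis_bounded_disc_pow m))

/-- the order of a nonzero modular function at a cusp is finite. -/
theorem eis_modFun_comp_order_ne_top [NeZero M] {f : ℍ → ℂ} (hf : IsModFun M f) (hf0 : f ≠ 0)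
    {g : SL(2, ℤ)} {h : ℕ} (hh : IsCuspPeriod M h g) :
    meromorphicOrderAt (cuspFn h (fun z => f (g • z))) 0 ≠ ⊤ := by
  have hper := eis_modFun_comp_isPer hf hh
  have hmd : MDiff (fun z => f (g • z)) := mdiff_comp_SL (rc_mdiff_of_isModFun hf) g
  refine eis_meromorphicOrderAt_cuspFn_ne_top hh.1 hmd hper ?_
  intro h0
  apply hf0
  funext z
  have := congrFun h0 (g⁻¹ • z)
  simpa using this

/-! ### Change of period -/

/-- `ord_{q_{hk}} = k · ord_{q_h}` for an `h`-periodic function. -/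
theorem eis_cuspFn_change_period {F : ℍ → ℂ} {h k : ℕ} (hh : 0 < h) (hk : 0 < k)
    (hper : IsPer h F) (hmer : MeromorphicAt (cuspFn h F) 0) :
    meromorphicOrderAt (cuspFn (h * k) F) 0 = meromorphicOrderAt (cuspFn h F) 0 * (k : ℤ) := by
  have hev : ∀ᶠ q in 𝓝[≠] (0 : ℂ), cuspFn (h * k) F q = cuspFn h F (1 * q ^ k) := by
    filter_upwards [eventually_punctured_disc] with q hq
    set τ : ℍ := ofComplex (Function.Periodic.invQParam ((h * k : ℕ) : ℝ) q) with hτ
    have hqτ : Function.Periodic.qParam ((h * k : ℕ) : ℝ) (τ : ℂ) = q :=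
      qParam_ofComplex_invQParam (Nat.mul_pos hh hk) hq.1 hq.2
    have e2 : F τ = cuspFn h F (Function.Periodic.qParam (h : ℝ) (τ : ℂ)) :=
      (cuspFn_qParam hh hper τ).symm
    rw [cuspFn_apply, ← hτ, e2, one_mul, ← hqτ]
    congr 1
    simp only [Function.Periodic.qParam]
    rw [← Complex.exp_nat_mul]
    congr 1
    have h1 : (h : ℂ) ≠ 0 := by exact_mod_cast hh.ne'
    have h2 : (k : ℂ) ≠ 0 := by exact_mod_cast hk.ne'
    push_cast
    field_simp
  rw [meromorphicOrderAt_congr hev, meromorphicOrderAt_comp_mul_pow hmer one_ne_zero hk]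

/-- **Comparison of two periods**: `ordCusp h g f * h' = ordCusp h' g f * h`. -/
theorem eis_ordCusp_mul_period [NeZero M] {f : ℍ → ℂ} (hf : IsModFun M f) (hf0 : f ≠ 0)
    {g : SL(2, ℤ)} {h h' : ℕ} (hh : IsCuspPeriod M h g) (hh' : IsCuspPeriod M h' g) :
    ordCusp h g f * (h' : ℤ) = ordCusp h' g f * (h : ℤ) := by
  have e1 := eis_cuspFn_change_period hh.1 hh'.1 (eis_modFun_comp_isPer hf hh)
    (eis_modFun_comp_meromorphicAt hf hh)
  have e2 := eis_cuspFn_change_period hh'.1 hh.1 (eis_modFun_comp_isPer hf hh')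
    (eis_modFun_comp_meromorphicAt hf hh')
  rw [Nat.mul_comm h' h] at e2
  rw [e1] at e2
  obtain ⟨a, ha⟩ := WithTop.ne_top_iff_exists.1 (eis_modFun_comp_order_ne_top hf hf0 hh)
  obtain ⟨b, hb⟩ := WithTop.ne_top_iff_exists.1 (eis_modFun_comp_order_ne_top hf hf0 hh')
  unfold ordCusp
  rw [← ha, ← hb] at e2 ⊢
  have e3 : ((a * (h' : ℤ) : ℤ) : WithTop ℤ) = ((b * (h : ℤ) : ℤ) : WithTop ℤ) := by
    push_cast
    exact e2
  have e4 := WithTop.coe_injective e3
  simpa using e4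

/-! ### Places with proportional orders -/

theorem eis_place_exists_ord_one {F : Type*} [Field F] [Algebra ℂ F] (v : Place ℂ F) :
    ∃ x : F, x ≠ 0 ∧ v.ord x = 1 := by
  obtain ⟨π, hπ⟩ := IsDiscreteValuationRing.exists_irreducible v.toValuationSubring
  refine ⟨(π : F), ?_, v.ord_coe_irreducible hπ⟩
  simpa [ne_eq, ZeroMemClass.coe_eq_zero] using hπ.ne_zero

/-- Two places whose orders are proportional on a ring with field of fractions `F` have equal
orders (and the proportionality factor is `1`). -/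
theorem eis_place_ord_eq_of_prop {A F : Type*} [CommRing A] [IsDomain A] [Field F]
    [Algebra ℂ F] [Algebra A F] [IsFractionRing A F] (v v' : Place ℂ F) {a b : ℕ}
    (_ha : 0 < a) (hb : 0 < b)
    (h : ∀ f : A, f ≠ 0 →
      (a : ℤ) * v.ord (algebraMap A F f) = (b : ℤ) * v'.ord (algebraMap A F f)) :
    a = b ∧ ∀ x : F, v.ord x = v'.ord x := by
  have hne : ∀ f : A, f ≠ 0 → algebraMap A F f ≠ 0 := fun f hf =>
    (map_ne_zero_iff _ (IsFractionRing.injective A F)).2 hf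
  have key : ∀ x : F, x ≠ 0 → (a : ℤ) * v.ord x = (b : ℤ) * v'.ord x := by
    intro x hx
    obtain ⟨f, g, hg, rfl⟩ := IsFractionRing.div_surjective (A := A) x
    have hg0 : g ≠ 0 := nonZeroDivisors.ne_zero hg
    have hf0 : f ≠ 0 := by
      rintro rfl
      simp at hx
    have e1 := h f hf0
    have e2 := h g hg0
    rw [div_eq_mul_inv, v.ord_mul (hne f hf0) (inv_ne_zero (hne g hg0)), v.ord_inv,
      v'.ord_mul (hne f hf0) (inv_ne_zero (hne g hg0)), v'.ord_inv]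
    linear_combination e1 - e2
  obtain ⟨x, hx0, hx⟩ := eis_place_exists_ord_one v
  obtain ⟨y, hy0, hy⟩ := eis_place_exists_ord_one v'
  have k1 := key x hx0
  have k2 := key y hy0
  rw [hx, mul_one] at k1
  rw [hy, mul_one] at k2
  have hab : (a : ℤ) = b := by
    have d1 : (b : ℤ) ∣ a := ⟨_, k1⟩
    have d2 : (a : ℤ) ∣ b := ⟨_, k2.symm⟩
    have d1' : b ∣ a := Int.natCast_dvd_natCast.1 d1
    have d2' : a ∣ b := Int.natCast_dvd_natCast.1 d2
    exact_mod_cast Nat.dvd_antisymm d2' d1'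
  refine ⟨by exact_mod_cast hab, fun x => ?_⟩
  rcases eq_or_ne x 0 with rfl | hx0'
  · simp
  · have k := key x hx0'
    rw [hab] at k
    have hb' : (b : ℤ) ≠ 0 := by exact_mod_cast hb.ne'
    exact mul_left_cancel₀ hb' k

/-! ### The main statement: `u_χ ∈ U_ℂ` -/

section Main

variable [NeZero M] (χ : Gamma0 M →* ℂˣ)

/-- `u_χ = hChi χ ^ p` as an element of `modFunAlg M`. -/
def uChi {p : ℕ} (hp : p ≠ 0) (hχp : ∀ γ : Gamma0 M, χ γ ^ p = 1)
    (hpar : ∀ γ : Gamma0 M, IsPar γ → χ γ = 1) : modFunAlg M :=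
  ⟨fun z => hChi χ z ^ p,
    isModFun_hChi_pow χ (eis_norm_eq_one_of_pow χ hp hχp) hpar p hχp⟩

lemma uChi_coe {p : ℕ} (hp : p ≠ 0) (hχp : ∀ γ : Gamma0 M, χ γ ^ p = 1)
    (hpar : ∀ γ : Gamma0 M, IsPar γ → χ γ = 1) :
    ((uChi χ hp hχp hpar : modFunAlg M) : ℍ → ℂ) = fun z => hChi χ z ^ p := rfl

lemma uChi_ne_zero {p : ℕ} (hp : p ≠ 0) (hχp : ∀ γ : Gamma0 M, χ γ ^ p = 1)
    (hpar : ∀ γ : Gamma0 M, IsPar γ → χ γ = 1) : uChi χ hp hχp hpar ≠ 0 := by
  intro h
  obtain ⟨z, hz⟩ := hChi_ne_zero χ (eis_norm_eq_one_of_pow χ hp hχp) hpar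
  have h1 := congrFun (congrArg Subtype.val h) z
  rw [uChi_coe] at h1
  exact pow_ne_zero p hz h1

/-- **`u_χ ∈ U_ℂ`**: at every place `v` of `F = Frac (modFunAlg M)` over `ℂ`, the order of
`u_χ = (E₁₂^χ / Δ)^p` is divisible by `p`.  Inputs: helper8's (RC)(ii) statements, and the
triviality of `χ` on elliptic stabilisers (automatic when `p` is prime to `6`). -/
theorem uChi_dvd_ord (F : Type) [Field F] [Algebra ℂ F] [Algebra (modFunAlg M) F]
    [IsFractionRing (modFunAlg M) F]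
    (hAll : StmtAll M F) (hPt : StmtPtExact M F) (hCusp : StmtCuspExact M F)
    {p : ℕ} (hp : p ≠ 0) (hχp : ∀ γ : Gamma0 M, χ γ ^ p = 1)
    (hpar : ∀ γ : Gamma0 M, IsPar γ → χ γ = 1)
    (hell : ∀ (γ : Gamma0 M) (τ : ℍ), (γ : SL(2, ℤ)) • τ = τ → χ γ = 1)
    (v : Place ℂ F) :
    (p : ℤ) ∣ v.ord (algebraMap (modFunAlg M) F (uChi χ hp hχp hpar)) := by
  have hχ := eis_norm_eq_one_of_pow χ hp hχp
  have hu0 := uChi_ne_zero χ hp hχp hpar
  rcases hAll v with ⟨τ, e, he, hv⟩ | ⟨g, h, e, hh, he, hv⟩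
  · -- a point of `ℍ`
    obtain ⟨v', e', ε, hε, hfix, hprim, hv'⟩ := hPt τ
    have he' : 0 < e' := by
      rcases Nat.eq_zero_or_pos e' with h0 | h0
      · exfalso
        subst h0
        -- a primitive `0`-th root: impossible since `denom ^ 2` has finite order ... use `hv'`
        have h1 := hv' (jSub M (Jfun τ)) (jSub_ne_zero M _)
        have h2 := ordPt_jSub_pos M τ
        rw [h1] at h2
        simp at h2
      · exact h0
    have hprop : ∀ f : modFunAlg M, f ≠ 0 →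
        (e : ℤ) * v.ord (algebraMap (modFunAlg M) F f)
          = (e' : ℤ) * v'.ord (algebraMap (modFunAlg M) F f) := fun f hf => by
      rw [← hv f hf, ← hv' f hf]
    obtain ⟨-, hvv⟩ := eis_place_ord_eq_of_prop v v' he he' hprop
    rw [hvv]
    have h1 := hv' _ hu0
    rw [uChi_coe] at h1
    have h2 : e' ∣ (ordAt τ (hChi χ)).toNat :=
      hChi_dvd_ordAt_of_fixed χ hχ hpar ⟨ε, hε⟩ hfix
        (by simpa [one_div] using hprim.inv) (hell ⟨ε, hε⟩ τ hfix)
    obtain ⟨m, hm⟩ := h2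
    have hne : ordAt τ (hChi χ) ≠ ⊤ :=
      ordAt_ne_top (hChi_mdiff χ hχ) (hChi_ne_zero_fun χ hχ hpar) τ
    obtain ⟨n, hn⟩ := ENat.ne_top_iff_exists.1 hne
    have h3 : ordPt τ (fun z => hChi χ z ^ p) = (p : ℤ) * ((e' : ℤ) * m) := by
      unfold ordPt
      rw [ordAt_hChi_pow χ hχ]
      rw [← hn] at hm ⊢
      rw [ENat.toNat_natCast] at hm
      have : (p • (n : ℕ∞)).toNat = p * n := by
        rw [nsmul_eq_mul]
        have : ((p : ℕ∞) * (n : ℕ∞)) = ((p * n : ℕ) : ℕ∞) := by push_cast; rfl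
        rw [this, ENat.toNat_natCast]
      rw [this, hm]
      push_cast
      ring
    rw [h3] at h1
    have he'0 : (e' : ℤ) ≠ 0 := by exact_mod_cast he'.ne'
    refine ⟨m, ?_⟩
    have h4 : (e' : ℤ) * v'.ord (algebraMap (modFunAlg M) F (uChi χ hp hχp hpar))
        = (e' : ℤ) * ((p : ℤ) * m) := by
      rw [← h1]; ring
    exact mul_left_cancel₀ he'0 h4
  · -- a cusp
    obtain ⟨v', h', hh', hv'⟩ := hCusp g
    have hprop : ∀ f : modFunAlg M, f ≠ 0 →
        ((e * h' : ℕ) : ℤ) * v.ord (algebraMap (modFunAlg M) F f)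
          = ((h : ℕ) : ℤ) * v'.ord (algebraMap (modFunAlg M) F f) := fun f hf => by
      have e1 := hv f hf
      have e2 := hv' f hf
      have e3 := eis_ordCusp_mul_period f.2 (rc_coe_ne_zero M hf) hh hh'
      rw [e1, e2] at e3
      push_cast
      linear_combination e3
    obtain ⟨-, hvv⟩ := eis_place_ord_eq_of_prop v v' (Nat.mul_pos he hh'.1) hh.1 hprop
    rw [hvv, ← hv' _ hu0, uChi_coe]
    obtain ⟨n, hn⟩ := hChi_pow_comp_order_eq χ hχ hpar g hh'.1 (by
      have := hh'.2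
      simpa using this) p
    unfold ordCusp
    rw [hn]
    exact ⟨n, rfl⟩

omit [NeZero M] in
/-- A character of `p`-power-torsion order with `p` prime to `6` is trivial on every element
with a fixed point in `ℍ`. -/
theorem eis_hell_of_coprime {p : ℕ} (hχp : ∀ γ : Gamma0 M, χ γ ^ p = 1)
    (hp6 : Nat.Coprime p 6) (γ : Gamma0 M) (τ : ℍ) (hfix : (γ : SL(2, ℤ)) • τ = τ) :
    χ γ = 1 := by
  have h12 : γ ^ 12 = 1 := by
    apply Subtype.ext
    rw [Subgroup.coe_pow, Subgroup.coe_one]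
    exact pow_twelve_eq_one_of_fixed _ τ hfix
  have h1 : χ γ ^ 12 = 1 := by rw [← map_pow, h12, map_one]
  have h3 : χ γ ^ Nat.gcd p 12 = 1 := pow_gcd_eq_one.mpr ⟨hχp γ, h1⟩
  have hcop : Nat.gcd p 12 = 1 := by
    have : Nat.Coprime p (2 * 6) := Nat.Coprime.mul_right (hp6.coprime_dvd_right (by norm_num)) hp6
    exact this
  rwa [hcop, pow_one] at h3

/-- **`u_χ ∈ U_ℂ` for `p` prime to `6`** (no condition at the elliptic points). -/
theorem uChi_dvd_ord_of_coprime (F : Type) [Field F] [Algebra ℂ F] [Algebra (modFunAlg M) F]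
    [IsFractionRing (modFunAlg M) F]
    (hAll : StmtAll M F) (hPt : StmtPtExact M F) (hCusp : StmtCuspExact M F)
    {p : ℕ} (hp : p ≠ 0) (hp6 : Nat.Coprime p 6) (hχp : ∀ γ : Gamma0 M, χ γ ^ p = 1)
    (hpar : ∀ γ : Gamma0 M, IsPar γ → χ γ = 1) (v : Place ℂ F) :
    (p : ℤ) ∣ v.ord (algebraMap (modFunAlg M) F (uChi χ hp hχp hpar)) :=
  uChi_dvd_ord χ F hAll hPt hCusp hp hχp hpar (eis_hell_of_coprime χ hχp hp6) v

end Main

end Fermat.Agent.ES
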