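import Fermat.Agent.ES.RC.PlaceCusp
import Fermat.Agent.S28.ScaleForm
import Fermat.Agent.S22.Decomp

/-!
# ESpkg-G1 (RC)(ii), piece P-cuspX: `q_h` is a uniformiser for the right period `h`

For `g ∈ SL₂(ℤ)` write `[[M, 0], [0, 1]] · g = δ · [[a, b], [0, d]]` (Hermite normal form,
`a d = M`) and put `t = gcd a d`, `h = d / t`, `e = a / t`.  Then `h` is a period of the cusp `g∞`
of `Γ₀(M)`, `ordCusp h g J = -h` and `ordCusp h g J(M ·) = -e`, with `gcd h e = 1`.  Hence the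
ramification index of `q_h` is `1`.

* `stmtCuspExact : StmtCuspExact M F`.
-/

set_option autoImplicit false

noncomputable section

namespace Fermat.Agent.ES.RC

open UpperHalfPlane AlgebraicCurve ModularForm WithZero Filter Topology Matrix
open Fermat.Agent.S23 Fermat.Agent.S24 Fermat.Agent.S28
open scoped MatrixGroups Manifold ModularForm

/-- `q_1((a z + b) / d) = ζ · q_h(z) ^ e` if `a h = d e`. -/
theorem rc_qParam_one_upperTri (a d e h : ℕ) (b : ℤ) (hd : 0 < d) (hh : 0 < h)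
    (hah : a * h = d * e) (z : ℂ) :
    Function.Periodic.qParam (1 : ℝ) (((a : ℝ) * z + (b : ℝ)) / (d : ℝ))
      = Function.Periodic.qParam (1 : ℝ) (((b : ℝ) : ℂ) / (d : ℝ)) *
          Function.Periodic.qParam (h : ℝ) z ^ e := by
  have hd' : (d : ℂ) ≠ 0 := by exact_mod_cast hd.ne'
  have hh' : (h : ℂ) ≠ 0 := by exact_mod_cast hh.ne'
  have hah' : (a : ℂ) * h = d * e := by exact_mod_cast hah
  simp only [Function.Periodic.qParam]
  rw [← Complex.exp_nat_mul, ← Complex.exp_add]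
  congr 1
  push_cast
  field_simp
  linear_combination z * hah'

variable (M : ℕ) [NeZero M]

/-- The matrix `[[M, 0], [0, 1]]` in `GL₂(ℝ)`. -/
def scaleGL : GL (Fin 2) ℝ :=
  ModularForm.upperTriangularGL (M : ℝ) 0 1 (by
    rw [mul_one]
    exact_mod_cast NeZero.ne M)

theorem scaleGL_smul (z : ℍ) : scaleGL M • z = scaleN M z := by
  apply UpperHalfPlane.ext
  have hM : (0 : ℝ) < M := by exact_mod_cast Nat.pos_of_ne_zero (NeZero.ne M)
  have := coe_upperTri_smul (M : ℝ) 0 1 hM one_pos z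
  rw [scaleGL, this, coe_scaleN]
  simp

variable {M}

/-- `J(M · g τ) = J((a τ + b) / d)` if `[[M, 0], [0, 1]] g = δ [[a, b], [0, d]]`. -/
theorem rc_Jfun_scaleN_smul (g δ : SL(2, ℤ)) {a d : ℕ} {b : ℤ} (ha : 0 < a) (hd : 0 < d)
    (hmat : !![(M : ℤ), 0; 0, 1] * (g : Matrix (Fin 2) (Fin 2) ℤ)
      = (δ : Matrix (Fin 2) (Fin 2) ℤ) * !![(a : ℤ), b; 0, (d : ℤ)]) (τ : ℍ) :
    Jfun (scaleN M (g • τ)) = Jfun (ModularForm.upperTriangularGL (a : ℝ) (b : ℝ) (d : ℝ)
      (mul_pos (Nat.cast_pos.mpr ha) (Nat.cast_pos.mpr hd)).ne' • τ) := by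
  set U : GL (Fin 2) ℝ := ModularForm.upperTriangularGL (a : ℝ) (b : ℝ) (d : ℝ)
      (mul_pos (Nat.cast_pos.mpr ha) (Nat.cast_pos.mpr hd)).ne' with hU
  have hGL : scaleGL M * Matrix.SpecialLinearGroup.mapGL ℝ g
      = Matrix.SpecialLinearGroup.mapGL ℝ δ * U := by
    apply Matrix.GeneralLinearGroup.ext
    intro i j
    have h := congrArg (fun X : Matrix (Fin 2) (Fin 2) ℤ => X.map (Int.cast : ℤ → ℝ)) hmat
    simp only [Matrix.map_mul_intCast] at h
    have h' := congrFun (congrFun h i) j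
    simp only [Matrix.mul_apply, Fin.sum_univ_two, Matrix.map_apply] at h'
    simp only [Matrix.GeneralLinearGroup.coe_mul, Matrix.mul_apply, Fin.sum_univ_two, scaleGL, hU,
      ModularForm.val_upperTriangularGL, Matrix.SpecialLinearGroup.mapGL_coe_matrix,
      Matrix.SpecialLinearGroup.map_apply_coe, RingHom.mapMatrix_apply, Matrix.map_apply,
      Int.coe_castRingHom, algebraMap_int_eq]
    fin_cases i <;> fin_cases j <;> simpa using h'
  have h1 : scaleN M (g • τ) = δ • (U • τ) := by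
    rw [← scaleGL_smul]
    show scaleGL M • (Matrix.SpecialLinearGroup.mapGL ℝ g • τ)
      = Matrix.SpecialLinearGroup.mapGL ℝ δ • (U • τ)
    rw [← mul_smul, ← mul_smul, hGL]
  rw [h1, Jfun_smul]

/-- Near `0`, the cusp function of `J(M · g τ)` in `q_h` is `G (ζ q ^ e)`, `G` the cusp
function of `J`. -/
theorem rc_cuspFn_Jscale_eventually (g δ : SL(2, ℤ)) {a d : ℕ} {b : ℤ} (ha : 0 < a) (hd : 0 < d)
    (hmat : !![(M : ℤ), 0; 0, 1] * (g : Matrix (Fin 2) (Fin 2) ℤ)
      = (δ : Matrix (Fin 2) (Fin 2) ℤ) * !![(a : ℤ), b; 0, (d : ℤ)])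
    {h e : ℕ} (hh : 0 < h) (hah : a * h = d * e) :
    ∀ᶠ q in 𝓝[≠] (0 : ℂ), cuspFn h (fun τ => Jfun (scaleN M (g • τ))) q
      = cuspFn 1 Jfun (Function.Periodic.qParam (1 : ℝ) (((b : ℝ) : ℂ) / (d : ℝ)) * q ^ e) := by
  filter_upwards [eventually_punctured_disc] with q hq
  set τ : ℍ := ofComplex (Function.Periodic.invQParam (h : ℝ) q) with hτ
  have hqτ : Function.Periodic.qParam (h : ℝ) (τ : ℂ) = q :=
    qParam_ofComplex_invQParam hh hq.1 hq.2
  set U : GL (Fin 2) ℝ := ModularForm.upperTriangularGL (a : ℝ) (b : ℝ) (d : ℝ)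
      (mul_pos (Nat.cast_pos.mpr ha) (Nat.cast_pos.mpr hd)).ne' with hU
  have e1 : cuspFn h (fun τ => Jfun (scaleN M (g • τ))) q = Jfun (U • τ) := by
    rw [cuspFn_apply, ← hτ]
    exact rc_Jfun_scaleN_smul g δ ha hd hmat τ
  have e2 : Jfun (U • τ) = cuspFn 1 Jfun (Function.Periodic.qParam ((1 : ℕ) : ℝ) (U • τ : ℍ)) :=
    (cuspFn_qParam one_pos isPer_one_Jfun (U • τ)).symm
  rw [e1, e2, Nat.cast_one, hU, coe_upperTri_smul _ _ _ (Nat.cast_pos.mpr ha) (Nat.cast_pos.mpr hd),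
    rc_qParam_one_upperTri a d e h b hd hh hah, hqτ]

/-- `ordCusp h g J(M ·) = -e`. -/
theorem ordCusp_Jscale (g δ : SL(2, ℤ)) {a d : ℕ} {b : ℤ} (ha : 0 < a) (hd : 0 < d)
    (hmat : !![(M : ℤ), 0; 0, 1] * (g : Matrix (Fin 2) (Fin 2) ℤ)
      = (δ : Matrix (Fin 2) (Fin 2) ℤ) * !![(a : ℤ), b; 0, (d : ℤ)])
    {h e : ℕ} (hh : 0 < h) (he : 0 < e) (hah : a * h = d * e) :
    ordCusp h g (fun z => Jfun (scaleN M z)) = -(e : ℤ) := by
  rw [ordCusp, meromorphicOrderAt_congr (rc_cuspFn_Jscale_eventually g δ ha hd hmat hh hah),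
    meromorphicOrderAt_comp_mul_pow meromorphicAt_cuspFn_one_Jfun
      (Function.Periodic.qParam_ne_zero _) he, meromorphicOrderAt_cuspFn_one_Jfun]
  have : ((-1 : ℤ) : WithTop ℤ) * ((e : ℤ) : WithTop ℤ) = ((-(e : ℤ) : ℤ) : WithTop ℤ) := by
    norm_cast
    simp
  rw [this]
  rfl

/-- The lower left entry of `g T^h g⁻¹` is `-c² h`. -/
theorem rc_conj_T_pow_apply (g : SL(2, ℤ)) (h : ℕ) :
    ((g * ModularGroup.T ^ h * g⁻¹ : SL(2, ℤ)) : Matrix (Fin 2) (Fin 2) ℤ) 1 0
      = -(g 1 0 * g 1 0 * (h : ℤ)) := by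
  have hT : ((ModularGroup.T ^ h : SL(2, ℤ)) : Matrix (Fin 2) (Fin 2) ℤ) = !![1, (h : ℤ); 0, 1] := by
    have := ModularGroup.coe_T_zpow (h : ℤ)
    rwa [zpow_natCast] at this
  rw [Matrix.SpecialLinearGroup.coe_mul, Matrix.SpecialLinearGroup.coe_mul,
    Matrix.SpecialLinearGroup.coe_inv, hT, Matrix.adjugate_fin_two]
  simp only [Matrix.mul_apply, Fin.sum_univ_two, Matrix.of_apply, Matrix.cons_val_zero,
    Matrix.cons_val_one, Matrix.cons_val', Matrix.cons_val_fin_one]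
  ring

/-- The data of the cusp `g∞`: a period `h` and two modular functions whose orders at the cusp
are `-h` and `-e` with `gcd h e = 1`. -/
theorem rc_exists_cusp_data (M : ℕ) [NeZero M] (g : SL(2, ℤ)) :
    ∃ h e : ℕ, IsCuspPeriod M h g ∧ Nat.Coprime h e ∧
      ordCusp h g Jfun = -(h : ℤ) ∧ ordCusp h g (fun z => Jfun (scaleN M z)) = -(e : ℤ) := by
  have hM : 0 < M := Nat.pos_of_ne_zero (NeZero.ne M)
  set P : Matrix (Fin 2) (Fin 2) ℤ := !![(M : ℤ), 0; 0, 1] with hP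
  have hdetP : (P * (g : Matrix (Fin 2) (Fin 2) ℤ)).det = (M : ℤ) := by
    rw [Matrix.det_mul, g.det_coe, mul_one, hP, Matrix.det_fin_two_of]
    ring
  obtain ⟨δ, a, b, d, ha, hd, hmat⟩ := Fermat.Agent.S22.exists_SL2_mul_upper
    (P * (g : Matrix (Fin 2) (Fin 2) ℤ)) (by rw [hdetP]; exact_mod_cast hM)
  lift a to ℕ using ha.le
  lift d to ℕ using hd.le
  have ha' : 0 < a := by exact_mod_cast ha
  have hd' : 0 < d := by exact_mod_cast hd
  -- `a d = M`
  have had : a * d = M := by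
    have h1 := congrArg Matrix.det hmat
    rw [hdetP, Matrix.det_mul, δ.det_coe, one_mul, Matrix.det_fin_two_of] at h1
    have : (M : ℤ) = (a : ℤ) * d := by linarith
    exact_mod_cast this.symm
  -- `c = δ₁₀ a`
  have hc : g 1 0 = δ 1 0 * (a : ℤ) := by
    have h1 := congrFun (congrFun hmat 1) 0
    simp only [hP, Matrix.mul_apply, Fin.sum_univ_two, Matrix.of_apply, Matrix.cons_val_zero,
      Matrix.cons_val_one, Matrix.cons_val', Matrix.cons_val_fin_one] at h1
    linarith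
  set t := Nat.gcd a d with ht
  have htpos : 0 < t := Nat.gcd_pos_of_pos_left d ha'
  obtain ⟨e, hae⟩ : t ∣ a := Nat.gcd_dvd_left a d
  obtain ⟨h, hdh⟩ : t ∣ d := Nat.gcd_dvd_right a d
  have he : 0 < e := by
    rcases Nat.eq_zero_or_pos e with h0 | h0
    · rw [h0, mul_zero] at hae; omega
    · exact h0
  have hh : 0 < h := by
    rcases Nat.eq_zero_or_pos h with h0 | h0
    · rw [h0, mul_zero] at hdh; omega
    · exact h0
  have hcop : Nat.Coprime h e := by
    have h1 : Nat.gcd (t * e) (t * h) = t := by rw [← hae, ← hdh]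
    rw [Nat.gcd_mul_left] at h1
    have h2 : Nat.gcd e h = 1 := by
      have : t * Nat.gcd e h = t * 1 := by rw [h1, mul_one]
      exact Nat.eq_of_mul_eq_mul_left htpos this
    exact Nat.Coprime.symm h2
  have hah : a * h = d * e := by rw [hae, hdh]; ring
  refine ⟨h, e, ⟨hh, ?_⟩, hcop, ordCusp_Jfun hh g, ordCusp_Jscale g δ ha' hd' hmat hh he hah⟩
  rw [CongruenceSubgroup.Gamma0_mem, rc_conj_T_pow_apply, hc]
  have h1 : -(δ 1 0 * (a : ℤ) * (δ 1 0 * (a : ℤ)) * (h : ℤ))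
      = (M : ℤ) * (-(δ 1 0 * δ 1 0 * (e : ℤ))) := by
    have hah' : (a : ℤ) * h = d * e := by exact_mod_cast hah
    have had' : (a : ℤ) * d = M := by exact_mod_cast had
    rw [← had']
    linear_combination (-(δ 1 0 * δ 1 0 * (a : ℤ))) * hah'
  rw [h1]
  push_cast
  simp

variable (M)

/-- **P-cuspX**: for the right period `h`, `q_h` is a uniformiser at the cusp `g∞`. -/
theorem stmtCuspExact (F : Type) [Field F] [Algebra ℂ F] [Algebra (modFunAlg M) F]
    [IsScalarTower ℂ (modFunAlg M) F] [IsFractionRing (modFunAlg M) F] : StmtCuspExact M F := by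
  intro g
  obtain ⟨h, e, hp, hcop, hJ, hJM⟩ := rc_exists_cusp_data M g
  obtain ⟨w, e₀, he₀, -, hw⟩ := exists_place_cusp M F hp
  refine ⟨w, h, hp, ?_⟩
  -- `e₀ ∣ h` and `e₀ ∣ e`
  have h1 := hw (jElt M) (jElt_ne_zero M)
  have h1' : ordCusp h g ((jElt M : modFunAlg M) : ℍ → ℂ) = -(h : ℤ) := hJ
  rw [h1'] at h1
  set jM : modFunAlg M := ⟨fun z => Jfun (scaleN M z), isModFun_Jfun_scaleN M⟩ with hjM
  have hjM0 : jM ≠ 0 := by
    intro h0
    have h2 : ordCusp h g ((jM : modFunAlg M) : ℍ → ℂ) = -(e : ℤ) := hJM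
    rw [h0] at h2
    have h3 : ordCusp h g (((0 : modFunAlg M) : modFunAlg M) : ℍ → ℂ) = 0 := by
      have := ordCusp_algebraMap M h g 0
      simpa using this
    rw [h3] at h2
    have he : 0 < e := by
      rcases Nat.eq_zero_or_pos e with he0 | he0
      · rw [he0, Nat.coprime_zero_right] at hcop
        -- then `h = 1`, and `ordCusp = 0 = -e` is consistent: use `J(M·)` is not constant
        exfalso
        have h4 := congrFun (congrArg Subtype.val h0) 
        obtain ⟨z, hz⟩ := Jfun_surjective 1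
        have hMpos : (0 : ℝ) < M := by exact_mod_cast Nat.pos_of_ne_zero (NeZero.ne M)
        have h5 := h4 ⟨(z : ℂ) / M, by
          rw [Complex.div_natCast_im]
          exact div_pos z.im_pos hMpos⟩
        have h6 : scaleN M ⟨(z : ℂ) / M, by
          rw [Complex.div_natCast_im]
          exact div_pos z.im_pos hMpos⟩ = z := by
          apply UpperHalfPlane.ext
          rw [coe_scaleN]
          have : (M : ℂ) ≠ 0 := by exact_mod_cast NeZero.ne M
          show (M : ℂ) * ((z : ℂ) / M) = z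
          field_simp
        have h7 : (jM : ℍ → ℂ) ⟨(z : ℂ) / M, by
          rw [Complex.div_natCast_im]
          exact div_pos z.im_pos hMpos⟩ = Jfun z := by
          show Jfun (scaleN M _) = Jfun z
          rw [h6]
        rw [h7, hz] at h5
        simp at h5
      · exact he0
    omega
  have h2 := hw jM hjM0
  have h2' : ordCusp h g ((jM : modFunAlg M) : ℍ → ℂ) = -(e : ℤ) := hJM
  rw [h2'] at h2
  have hd1 : (e₀ : ℤ) ∣ (h : ℤ) := ⟨-w.ord (algebraMap (modFunAlg M) F (jElt M)), by linarith⟩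
  have hd2 : (e₀ : ℤ) ∣ (e : ℤ) := ⟨-w.ord (algebraMap (modFunAlg M) F jM), by linarith⟩
  have hd1' : e₀ ∣ h := by exact_mod_cast hd1
  have hd2' : e₀ ∣ e := by exact_mod_cast hd2
  have he1 : e₀ = 1 := Nat.eq_one_of_dvd_coprimes hcop hd1' hd2'
  intro f hf
  rw [hw f hf, he1]
  simp

end Fermat.Agent.ES.RC
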