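import Fermat.Agent.ES.RC.PlaceAllCusp

/-!
# ESpkg-G1 (RC)(ii), piece P-all: every place of `Frac (modFunAlg M)` is a point or a cusp

`stmtAll : StmtAll M F` — every place `v` of `F / ℂ` is the order at a point `τ ∈ ℍ`
(if `J` is regular at `v`, `rc_place_pt_of_ord_nonneg`) or at a cusp `g∞`
(if `J` has a pole at `v`, `rc_place_cusp_of_ord_neg`), up to the ramification index.
-/

set_option autoImplicit false

noncomputable section

namespace Fermat.Agent.ES.RC

open UpperHalfPlane AlgebraicCurve
open Fermat.Agent.S24 Fermat.Agent.S28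
open scoped MatrixGroups

variable (M : ℕ) [NeZero M]

/-- **P-all.** -/
theorem stmtAll (F : Type) [Field F] [Algebra ℂ F] [Algebra (modFunAlg M) F]
    [IsScalarTower ℂ (modFunAlg M) F] [IsFractionRing (modFunAlg M) F] : StmtAll M F := by
  intro v
  rcases le_or_gt 0 (v.ord (jF M F)) with hv | hv
  · exact Or.inl (rc_place_pt_of_ord_nonneg M F v hv)
  · exact Or.inr (rc_place_cusp_of_ord_neg M F v hv)

end Fermat.Agent.ES.RC
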