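import Fermat.Agent.ES.RC.Elliptic
import Fermat.Agent.ES.RC.PlacePt
import Fermat.Agent.S24.StabCore
import Fermat.Agent.S24.PlaceBasic
import Fermat.Agent.S28.ScaleForm

/-!
# ESpkg-G1 (RC)(ii), piece P-ptX: exact ramification at the points of `ℍ`

`stmtPtExact : StmtPtExact M F`: the place `v` of `F = Frac (modFunAlg M)` at `τ ∈ ℍ` satisfies
`ord_τ f = e · v.ord f` where `e` is the order of the multiplier `denom ε τ ^ 2` of some
`ε ∈ Γ₀(M)` fixing `τ`.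

Proof.  Let `e'` be the index given by `exists_place_pt` and `(ε₀, E)` the elliptic datum of `τ` in
`SL(2, ℤ)` (`rc_exists_elliptic`), `E = ord_τ (J − J τ) ∈ {1, 2, 3}`.  Then `e' ∣ E`, so `e' = 1`
(take `ε = 1`) or `e' = E` is prime.  In the latter case `t = J − J τ` is a uniformiser at `v`, the
residue field of `v` is `ℂ` (`ptx_residue`), hence every `f ∈ modFunAlg M` is, modulo `t ^ n`, an
`ε₀`-invariant element (`ptx_expand`); comparing orders, `f ∘ ε₀ − f` vanishes to infinite order at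
`τ`, so `f ∘ ε₀ = f`.  With `f = J(M ·)` this gives `ε₀ ∈ Γ₀(M)` (`mem_Gamma0_of_Jd_smul`).
-/

set_option autoImplicit false
set_option linter.unusedSectionVars false

noncomputable section

namespace Fermat.Agent.ES.RC

open UpperHalfPlane AlgebraicCurve ModularForm Filter Topology
open Fermat.Agent.S23 Fermat.Agent.S24 Fermat.Agent.S28
open scoped MatrixGroups Manifold ModularForm

/-! ### An analytic cancellation lemma -/

/-- If `ord B ≤ ord A` at `z₀` (and `B ≠ 0`), then `A − c B` has order `> ord B` for a suitable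
constant `c`. -/
theorem ptx_exists_cancel {A B : ℂ → ℂ} {z₀ : ℂ} (hA : AnalyticAt ℂ A z₀)
    (hB : AnalyticAt ℂ B z₀) (hBtop : analyticOrderAt B z₀ ≠ ⊤)
    (hle : analyticOrderAt B z₀ ≤ analyticOrderAt A z₀) :
    ∃ c : ℂ, analyticOrderAt B z₀ < analyticOrderAt (fun z => A z - c * B z) z₀ := by
  rcases hle.lt_or_eq with hlt | heq
  · exact ⟨0, by simpa using hlt⟩
  · have hAtop : analyticOrderAt A z₀ ≠ ⊤ := heq ▸ hBtop
    obtain ⟨cb, hcb⟩ := exists_isLead hB hBtop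
    obtain ⟨ca, hca⟩ := exists_isLead hA hAtop
    rw [← heq] at hca
    obtain ⟨-, ga, hga, hgac, hfa⟩ := hca
    obtain ⟨hcb0, gb, hgb, hgbc, hfb⟩ := hcb
    refine ⟨ca / cb, ?_⟩
    have hev : (fun z => A z - ca / cb * B z) =ᶠ[𝓝 z₀]
        ((fun z => z - z₀) ^ (analyticOrderAt B z₀).toNat * (fun z => ga z - ca / cb * gb z)) := by
      filter_upwards [hfa, hfb] with z h1 h2
      simp only [Pi.mul_apply, Pi.pow_apply]
      rw [h1, h2]; ring
    have hh : AnalyticAt ℂ (fun z => ga z - ca / cb * gb z) z₀ := by fun_prop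
    have h0 : ga z₀ - ca / cb * gb z₀ = 0 := by
      rw [hgac, hgbc]; field_simp; ring
    have hpos : 1 ≤ analyticOrderAt (fun z => ga z - ca / cb * gb z) z₀ := by
      rw [Order.one_le_iff_ne_zero, Ne, analyticOrderAt_eq_zero]
      push Not
      exact ⟨hh, h0⟩
    have hmon : AnalyticAt ℂ ((fun z : ℂ => z - z₀) ^ (analyticOrderAt B z₀).toNat) z₀ := by
      fun_prop
    rw [analyticOrderAt_congr hev, analyticOrderAt_mul hmon hh, analyticOrderAt_centeredMonomial]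
    have hBm : analyticOrderAt B z₀ = ((analyticOrderAt B z₀).toNat : ℕ∞) :=
      (ENat.natCast_toNat hBtop).symm
    calc analyticOrderAt B z₀ = ((analyticOrderAt B z₀).toNat : ℕ∞) := hBm
      _ < ((analyticOrderAt B z₀).toNat : ℕ∞) + 1 := by
        exact_mod_cast Nat.lt_succ_self _
      _ ≤ _ := add_le_add le_rfl hpos

/-! ### Orders of functions on `ℍ` -/

theorem ptx_ordAt_zero (τ : ℍ) : ordAt τ (0 : ℍ → ℂ) = ⊤ := by
  rw [ordAt, analyticOrderAt_eq_top]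
  exact Filter.Eventually.of_forall fun z => rfl

theorem ptx_mdiff_comp_smul {f : ℍ → ℂ} (hf : MDiff f) (γ : SL(2, ℤ)) :
    MDiff (fun τ => f (γ • τ)) :=
  hf.comp (UpperHalfPlane.mdifferentiable_smul (g := (γ : GL (Fin 2) ℝ)) (SL_val_det_pos γ))

theorem ptx_ordAt_pow {f : ℍ → ℂ} (hf : MDiff f) (τ : ℍ) (n : ℕ) :
    ordAt τ (f ^ n) = n • ordAt τ f :=
  analyticOrderAt_pow (ordAt_analyticAt hf τ) n

theorem ptx_le_ordAt_sub (f g : ℍ → ℂ) (τ : ℍ) :
    min (ordAt τ f) (ordAt τ g) ≤ ordAt τ (f - g) :=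
  le_analyticOrderAt_sub

variable (M : ℕ) [NeZero M]

theorem ptx_ordAt_eq_top_iff (τ : ℍ) (f : modFunAlg M) :
    ordAt τ (f : ℍ → ℂ) = ⊤ ↔ f = 0 := by
  constructor
  · intro h
    by_contra hf
    exact ordAt_ne_top (rc_mdiff M f) (rc_coe_ne_zero M hf) τ h
  · rintro rfl
    exact ptx_ordAt_zero τ

/-- `ordPt` is monotone in `ordAt` on nonzero elements. -/
theorem ptx_ordPt_le_iff (τ : ℍ) {a b : modFunAlg M} (ha : a ≠ 0) (hb : b ≠ 0) :
    ordPt τ (b : ℍ → ℂ) ≤ ordPt τ (a : ℍ → ℂ) ↔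
      ordAt τ (b : ℍ → ℂ) ≤ ordAt τ (a : ℍ → ℂ) := by
  rw [← rc_coe_ordPt M τ ha, ← rc_coe_ordPt M τ hb, ordPt, ordPt]
  norm_cast

theorem ptx_ordPt_lt_iff (τ : ℍ) {a b : modFunAlg M} (ha : a ≠ 0) (hb : b ≠ 0) :
    ordPt τ (b : ℍ → ℂ) < ordPt τ (a : ℍ → ℂ) ↔
      ordAt τ (b : ℍ → ℂ) < ordAt τ (a : ℍ → ℂ) := by
  rw [← rc_coe_ordPt M τ ha, ← rc_coe_ordPt M τ hb, ordPt, ordPt]
  norm_cast

section Place

variable {M}
variable {F : Type} [Field F] [Algebra ℂ F] [Algebra (modFunAlg M) F]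
  [IsScalarTower ℂ (modFunAlg M) F] [IsFractionRing (modFunAlg M) F]

theorem ptx_mul_ord_div {τ : ℍ} {w : Place ℂ F} {e : ℕ}
    (H : ∀ f : modFunAlg M, f ≠ 0 →
      ordPt τ (f : ℍ → ℂ) = (e : ℤ) * w.ord (algebraMap (modFunAlg M) F f))
    {a b : modFunAlg M} (ha : a ≠ 0) (hb : b ≠ 0) :
    (e : ℤ) * w.ord (algebraMap (modFunAlg M) F a / algebraMap (modFunAlg M) F b)
      = ordPt τ (a : ℍ → ℂ) - ordPt τ (b : ℍ → ℂ) := by
  rw [div_eq_mul_inv, w.ord_mul (rc_algebraMap_ne_zero F ha)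
    (inv_ne_zero (rc_algebraMap_ne_zero F hb)), w.ord_inv, H a ha, H b hb]
  ring

theorem ptx_ord_div_nonneg_iff {τ : ℍ} {w : Place ℂ F} {e : ℕ} (he : 0 < e)
    (H : ∀ f : modFunAlg M, f ≠ 0 →
      ordPt τ (f : ℍ → ℂ) = (e : ℤ) * w.ord (algebraMap (modFunAlg M) F f))
    {a b : modFunAlg M} (ha : a ≠ 0) (hb : b ≠ 0) :
    0 ≤ w.ord (algebraMap (modFunAlg M) F a / algebraMap (modFunAlg M) F b) ↔
      ordAt τ (b : ℍ → ℂ) ≤ ordAt τ (a : ℍ → ℂ) := by
  have he' : (0 : ℤ) < e := by exact_mod_cast he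
  rw [← ptx_ordPt_le_iff M τ ha hb, ← mul_nonneg_iff_of_pos_left he', ptx_mul_ord_div H ha hb]
  omega

theorem ptx_ord_div_pos_iff {τ : ℍ} {w : Place ℂ F} {e : ℕ} (he : 0 < e)
    (H : ∀ f : modFunAlg M, f ≠ 0 →
      ordPt τ (f : ℍ → ℂ) = (e : ℤ) * w.ord (algebraMap (modFunAlg M) F f))
    {a b : modFunAlg M} (ha : a ≠ 0) (hb : b ≠ 0) :
    0 < w.ord (algebraMap (modFunAlg M) F a / algebraMap (modFunAlg M) F b) ↔
      ordAt τ (b : ℍ → ℂ) < ordAt τ (a : ℍ → ℂ) := by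
  have he' : (0 : ℤ) < e := by exact_mod_cast he
  rw [← ptx_ordPt_lt_iff M τ ha hb, ← mul_pos_iff_of_pos_left he', ptx_mul_ord_div H ha hb]
  omega

/-- **The residue field of the place at `τ` is `ℂ`.** -/
theorem ptx_residue {τ : ℍ} {w : Place ℂ F} {e : ℕ} (he : 0 < e)
    (H : ∀ f : modFunAlg M, f ≠ 0 →
      ordPt τ (f : ℍ → ℂ) = (e : ℤ) * w.ord (algebraMap (modFunAlg M) F f))
    (x : F) (hx : 0 ≤ w.ord x) :
    ∃ c : ℂ, x = algebraMap ℂ F c ∨ 0 < w.ord (x - algebraMap ℂ F c) := by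
  rcases eq_or_ne x 0 with rfl | hx0
  · exact ⟨0, Or.inl (by simp)⟩
  obtain ⟨a, b, hb, rfl⟩ := IsFractionRing.div_surjective (A := modFunAlg M) x
  have hb0 : b ≠ 0 := nonZeroDivisors.ne_zero hb
  have ha0 : a ≠ 0 := by
    rintro rfl
    simp at hx0
  have hle := (ptx_ord_div_nonneg_iff he H ha0 hb0).mp hx
  obtain ⟨c, hc⟩ := ptx_exists_cancel (ordAt_analyticAt (rc_mdiff M a) τ)
    (ordAt_analyticAt (rc_mdiff M b) τ) (ordAt_ne_top (rc_mdiff M b) (rc_coe_ne_zero M hb0) τ) hle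
  refine ⟨c, ?_⟩
  have hdfun : ordAt τ ((a - algebraMap ℂ (modFunAlg M) c * b : modFunAlg M) : ℍ → ℂ) =
      analyticOrderAt (fun z => ((a : ℍ → ℂ) ∘ ofComplex) z - c * ((b : ℍ → ℂ) ∘ ofComplex) z)
        (τ : ℂ) := rfl
  have hbF := rc_algebraMap_ne_zero F hb0
  have hxc : algebraMap (modFunAlg M) F a / algebraMap (modFunAlg M) F b - algebraMap ℂ F c =
      algebraMap (modFunAlg M) F (a - algebraMap ℂ (modFunAlg M) c * b) /
        algebraMap (modFunAlg M) F b := by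
    rw [map_sub, map_mul, ← IsScalarTower.algebraMap_apply ℂ (modFunAlg M) F]
    field_simp
  rcases eq_or_ne (a - algebraMap ℂ (modFunAlg M) c * b) 0 with hd0 | hd0
  · left
    rw [hd0, map_zero, zero_div, sub_eq_zero] at hxc
    exact hxc
  · right
    rw [hxc, ptx_ord_div_pos_iff he H hd0 hb0, hdfun]
    exact hc

/-- **Expansion in a uniformiser.** If `T` is `ε`-invariant and a uniformiser at `w`, every `f` is
congruent modulo `T ^ n` to an `ε`-invariant element. -/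
theorem ptx_expand {τ : ℍ} {w : Place ℂ F} {e : ℕ} (he : 0 < e)
    (H : ∀ f : modFunAlg M, f ≠ 0 →
      ordPt τ (f : ℍ → ℂ) = (e : ℤ) * w.ord (algebraMap (modFunAlg M) F f))
    (ε : SL(2, ℤ)) (T : modFunAlg M)
    (hTinv : ∀ z, (T : ℍ → ℂ) (ε • z) = (T : ℍ → ℂ) z)
    (hT : w.ord (algebraMap (modFunAlg M) F T) = 1) (f : modFunAlg M) (n : ℕ) :
    ∃ (g : modFunAlg M) (y : F), (∀ z, (g : ℍ → ℂ) (ε • z) = (g : ℍ → ℂ) z) ∧
      algebraMap (modFunAlg M) F f =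
        algebraMap (modFunAlg M) F g + algebraMap (modFunAlg M) F T ^ n * y ∧
      0 ≤ w.ord y := by
  have he' : (0 : ℤ) < e := by exact_mod_cast he
  have ht0 : algebraMap (modFunAlg M) F T ≠ 0 := by
    intro h0
    rw [h0, Place.ord_zero] at hT
    exact zero_ne_one hT
  induction n with
  | zero =>
    refine ⟨0, algebraMap _ F f, fun z => rfl, by simp, ?_⟩
    rcases eq_or_ne f 0 with rfl | hf
    · simp [Place.ord_zero]
    · have h0 : (0 : ℤ) ≤ ordPt τ (f : ℍ → ℂ) := by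
        rw [ordPt]
        exact Int.natCast_nonneg _
      rw [H f hf] at h0
      exact (mul_nonneg_iff_of_pos_left he').mp h0
  | succ n ih =>
    obtain ⟨g, y, hg, hfg, hy⟩ := ih
    obtain ⟨c, hc⟩ := ptx_residue he H y hy
    refine ⟨g + algebraMap ℂ (modFunAlg M) c * T ^ n,
      (y - algebraMap ℂ F c) / algebraMap (modFunAlg M) F T, ?_, ?_, ?_⟩
    · intro z
      show (g : ℍ → ℂ) (ε • z) + c * (T : ℍ → ℂ) (ε • z) ^ n =
        (g : ℍ → ℂ) z + c * (T : ℍ → ℂ) z ^ n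
      rw [hg, hTinv]
    · rw [hfg, map_add, map_mul, map_pow, ← IsScalarTower.algebraMap_apply ℂ (modFunAlg M) F]
      field_simp
      ring
    · rcases hc with hc | hc
      · rw [hc, sub_self, zero_div, Place.ord_zero]
      · have hne : y - algebraMap ℂ F c ≠ 0 := by
          intro h0
          rw [h0, Place.ord_zero] at hc
          exact lt_irrefl _ hc
        rw [div_eq_mul_inv, w.ord_mul hne (inv_ne_zero ht0), w.ord_inv, hT]
        omega

/-- Under the hypotheses of `ptx_expand`, `f ∘ ε − f` vanishes to order `≥ n` at `τ`, for all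
`n`. -/
theorem ptx_le_ordAt_comp_sub {τ : ℍ} {w : Place ℂ F} {e : ℕ} (he : 0 < e)
    (H : ∀ f : modFunAlg M, f ≠ 0 →
      ordPt τ (f : ℍ → ℂ) = (e : ℤ) * w.ord (algebraMap (modFunAlg M) F f))
    {ε : SL(2, ℤ)} (hfix : ε • τ = τ) (T : modFunAlg M)
    (hTinv : ∀ z, (T : ℍ → ℂ) (ε • z) = (T : ℍ → ℂ) z)
    (hT : w.ord (algebraMap (modFunAlg M) F T) = 1) (f : modFunAlg M) (n : ℕ) :
    (n : ℕ∞) ≤ ordAt τ (fun z => (f : ℍ → ℂ) (ε • z) - (f : ℍ → ℂ) z) := by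
  obtain ⟨g, y, hg, hfg, hy⟩ := ptx_expand he H ε T hTinv hT f n
  obtain ⟨a, b, hb, rfl⟩ := IsFractionRing.div_surjective (A := modFunAlg M) y
  have hb0 : b ≠ 0 := nonZeroDivisors.ne_zero hb
  have hbF := rc_algebraMap_ne_zero F hb0
  -- the identity in `modFunAlg M`
  have hid : b * (f - g) = T ^ n * a := by
    apply IsFractionRing.injective (modFunAlg M) F
    rw [map_mul, map_sub, map_mul, map_pow, hfg]
    field_simp
    ring
  have hidz : ∀ z, (b : ℍ → ℂ) z * ((f : ℍ → ℂ) z - (g : ℍ → ℂ) z) =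
      (T : ℍ → ℂ) z ^ n * (a : ℍ → ℂ) z := fun z => congrFun (congrArg Subtype.val hid) z
  have hab : ordAt τ (b : ℍ → ℂ) ≤ ordAt τ (a : ℍ → ℂ) := by
    rcases eq_or_ne a 0 with rfl | ha0
    · rw [show ((0 : modFunAlg M) : ℍ → ℂ) = 0 from rfl, ptx_ordAt_zero]
      exact le_top
    · exact (ptx_ord_div_nonneg_iff he H ha0 hb0).mp hy
  have hT0 : T ≠ 0 := by
    rintro rfl
    simp [Place.ord_zero] at hT
  have hTpos : 1 ≤ ordAt τ (T : ℍ → ℂ) := by
    have h1 := H T hT0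
    rw [hT, mul_one] at h1
    have h2 : (1 : ℤ) ≤ ordPt τ (T : ℍ → ℂ) := by
      rw [h1]
      exact_mod_cast he
    rw [← rc_coe_ordPt M τ hT0]
    rw [ordPt] at h2
    exact_mod_cast h2
  have hbd := rc_mdiff M b
  have had := rc_mdiff M a
  have hbεd : MDiff (fun z => (b : ℍ → ℂ) (ε • z)) := ptx_mdiff_comp_smul hbd ε
  have haεd : MDiff (fun z => (a : ℍ → ℂ) (ε • z)) := ptx_mdiff_comp_smul had ε
  have hDd : MDiff (fun z => (f : ℍ → ℂ) (ε • z) - (f : ℍ → ℂ) z) :=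
    (ptx_mdiff_comp_smul (rc_mdiff M f) ε).sub (rc_mdiff M f)
  have hordbε : ordAt τ (fun z => (b : ℍ → ℂ) (ε • z)) = ordAt τ (b : ℍ → ℂ) := by
    rw [ordAt_comp_smul, hfix]
  have hordaε : ordAt τ (fun z => (a : ℍ → ℂ) (ε • z)) = ordAt τ (a : ℍ → ℂ) := by
    rw [ordAt_comp_smul, hfix]
  have hmain : (b : ℍ → ℂ) * (fun z => (b : ℍ → ℂ) (ε • z)) *
        (fun z => (f : ℍ → ℂ) (ε • z) - (f : ℍ → ℂ) z) =
      (T : ℍ → ℂ) ^ n * ((b : ℍ → ℂ) * (fun z => (a : ℍ → ℂ) (ε • z)) -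
        (fun z => (b : ℍ → ℂ) (ε • z)) * (a : ℍ → ℂ)) := by
    funext z
    simp only [Pi.mul_apply, Pi.pow_apply, Pi.sub_apply]
    have h1 := hidz z
    have h2 := hidz (ε • z)
    rw [hg, hTinv] at h2
    linear_combination ((b : ℍ → ℂ) z) * h2 - ((b : ℍ → ℂ) (ε • z)) * h1
  have hL : ordAt τ ((b : ℍ → ℂ) * (fun z => (b : ℍ → ℂ) (ε • z)) *
        (fun z => (f : ℍ → ℂ) (ε • z) - (f : ℍ → ℂ) z)) =
      (ordAt τ (b : ℍ → ℂ) + ordAt τ (b : ℍ → ℂ)) +
        ordAt τ (fun z => (f : ℍ → ℂ) (ε • z) - (f : ℍ → ℂ) z) := by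
    rw [ordAt_mul (hbd.mul hbεd) hDd, ordAt_mul hbd hbεd, hordbε]
  have hR : (ordAt τ (b : ℍ → ℂ) + ordAt τ (b : ℍ → ℂ)) + (n : ℕ∞) ≤
      ordAt τ ((T : ℍ → ℂ) ^ n * ((b : ℍ → ℂ) * (fun z => (a : ℍ → ℂ) (ε • z)) -
        (fun z => (b : ℍ → ℂ) (ε • z)) * (a : ℍ → ℂ))) := by
    rw [ordAt_mul ((rc_mdiff M T).pow n) ((hbd.mul haεd).sub (hbεd.mul had)),
      ptx_ordAt_pow (rc_mdiff M T), add_comm]
    refine add_le_add ?_ ?_
    · calc (n : ℕ∞) = n • (1 : ℕ∞) := by simp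
        _ ≤ n • ordAt τ (T : ℍ → ℂ) := nsmul_le_nsmul_right hTpos n
    · refine le_trans ?_ (ptx_le_ordAt_sub _ _ τ)
      rw [ordAt_mul hbd haεd, ordAt_mul hbεd had, hordbε, hordaε, min_self]
      exact add_le_add le_rfl hab
  rw [← hmain, hL] at hR
  have hbtop : ordAt τ (b : ℍ → ℂ) + ordAt τ (b : ℍ → ℂ) ≠ ⊤ := by
    have := ordAt_ne_top hbd (rc_coe_ne_zero M hb0) τ
    simp [this]
  exact (ENat.add_le_add_iff_left hbtop).mp hR

/-- Under the hypotheses of `ptx_expand`, every `f ∈ modFunAlg M` is `ε`-invariant. -/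
theorem ptx_comp_eq {τ : ℍ} {w : Place ℂ F} {e : ℕ} (he : 0 < e)
    (H : ∀ f : modFunAlg M, f ≠ 0 →
      ordPt τ (f : ℍ → ℂ) = (e : ℤ) * w.ord (algebraMap (modFunAlg M) F f))
    {ε : SL(2, ℤ)} (hfix : ε • τ = τ) (T : modFunAlg M)
    (hTinv : ∀ z, (T : ℍ → ℂ) (ε • z) = (T : ℍ → ℂ) z)
    (hT : w.ord (algebraMap (modFunAlg M) F T) = 1) (f : modFunAlg M) (z : ℍ) :
    (f : ℍ → ℂ) (ε • z) = (f : ℍ → ℂ) z := by
  have hDd : MDiff (fun z => (f : ℍ → ℂ) (ε • z) - (f : ℍ → ℂ) z) :=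
    (ptx_mdiff_comp_smul (rc_mdiff M f) ε).sub (rc_mdiff M f)
  have htop : ordAt τ (fun z => (f : ℍ → ℂ) (ε • z) - (f : ℍ → ℂ) z) = ⊤ := by
    rw [ENat.eq_top_iff_forall_ge]
    exact fun n => ptx_le_ordAt_comp_sub he H hfix T hTinv hT f n
  by_contra hne
  refine ordAt_ne_top hDd ?_ τ htop
  intro h0
  apply hne
  have := congrFun h0 z
  simpa [sub_eq_zero] using this

end Place

/-! ### The main theorem -/

/-- `J(M ·)` is a modular function of level `Γ₀(M)`. -/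
theorem ptx_isModFun_Jd : IsModFun M (Jd M) := by
  have h := isModFun_Jfun_scaleN M
  convert h using 1
  funext z
  rw [stab_Jd_apply]
  congr 1
  apply UpperHalfPlane.ext
  rw [ModularForm.coe_heckeDiagMatrix_smul (NeZero.ne M), coe_scaleN]

/-- **P-ptX.** Exact ramification at the points of `ℍ`. -/
theorem stmtPtExact (F : Type) [Field F] [Algebra ℂ F] [Algebra (modFunAlg M) F]
    [IsScalarTower ℂ (modFunAlg M) F] [IsFractionRing (modFunAlg M) F] : StmtPtExact M F := by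
  intro τ
  obtain ⟨w, e, he, -, H⟩ := exists_place_pt M F τ
  obtain ⟨ε₀, E, hE, hfix, hprim, hord⟩ := rc_exists_elliptic τ
  by_cases he1 : e = 1
  · subst he1
    refine ⟨w, 1, 1, Subgroup.one_mem _, one_smul _ _, ?_, H⟩
    rw [denom_one_SL, one_pow]
    exact IsPrimitiveRoot.one
  · have hT0 := jSub_ne_zero M (Jfun τ)
    have hordT : ordPt τ (jSub M (Jfun τ) : ℍ → ℂ) = (E : ℤ) := by
      have h2 : ordAt τ (jSub M (Jfun τ) : ℍ → ℂ) = (E : ℕ∞) := hord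
      rw [ordPt, h2]
      simp
    have h1 := H _ hT0
    rw [hordT] at h1
    have hdvd : e ∣ E := by
      have h3 : (e : ℤ) ∣ (E : ℤ) := Dvd.intro _ h1.symm
      exact_mod_cast h3
    have hEprime : E.Prime := by
      rcases hE with hE1 | hEp
      · exfalso
        subst hE1
        exact he1 (Nat.dvd_one.mp hdvd)
      · exact hEp
    have heE : e = E := ((Nat.dvd_prime hEprime).mp hdvd).resolve_left he1
    subst heE
    have hwT : w.ord (algebraMap (modFunAlg M) F (jSub M (Jfun τ))) = 1 := by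
      have he' : (e : ℤ) ≠ 0 := by exact_mod_cast he.ne'
      have h4 : (e : ℤ) * 1 = e * w.ord (algebraMap (modFunAlg M) F (jSub M (Jfun τ))) := by
        rw [mul_one]
        exact h1
      exact (mul_left_cancel₀ he' h4).symm
    have hTinv : ∀ z, (jSub M (Jfun τ) : ℍ → ℂ) (ε₀ • z) = (jSub M (Jfun τ) : ℍ → ℂ) z := by
      intro z
      rw [jSub_apply, jSub_apply, stab_Jfun_SL_smul]
    have hmem : ε₀ ∈ CongruenceSubgroup.Gamma0 M := by
      apply mem_Gamma0_of_Jd_smul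
      intro z
      exact ptx_comp_eq he H hfix _ hTinv hwT ⟨Jd M, ptx_isModFun_Jd M⟩ z
    exact ⟨w, e, ε₀, hmem, hfix, hprim, H⟩

end Fermat.Agent.ES.RC
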