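import Fermat.Agent.ES.RC.PlacePt
import Fermat.Agent.S24.CuspBan

/-!
# ESpkg-G1 (RC)(ii): the order at a cusp as an order function on `modFunAlg M`

For `g : SL(2, ℤ)` and a period `h` of the cusp `g∞` of `Γ₀(M)`:

* `rc_isModFun_smul` : modular functions are `Γ₀(M)`-invariant;
* `rc_isPer_comp` : `f ∘ g` is `h`-periodic;
* `rc_meromorphicAt_cuspFn_comp` : the cusp function of `f ∘ g` (in `q_h`) is meromorphic at `0`;
* `rc_meromorphicOrderAt_comp_ne_top` : it has finite order if `f ≠ 0`;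
* `isOrdFun_ordCusp` : `f ↦ ordCusp h g f` is an order function on `modFunAlg M`;
* `ordCusp_Jfun` : `ordCusp h g J = -h`.
-/

set_option autoImplicit false

noncomputable section

namespace Fermat.Agent.ES.RC

open UpperHalfPlane AlgebraicCurve ModularForm WithZero Filter Topology
open Fermat.Agent.S23 Fermat.Agent.S24 Fermat.Agent.S28
open scoped MatrixGroups Manifold ModularForm

local notation "Δ" => ModularForm.discriminant

/-! ### Generalities -/

/-- A bounded holomorphic periodic function has a meromorphic (even analytic) cusp function. -/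
theorem rc_meromorphicAt_cuspFn_of_bdd {N : ℕ} (hN : 0 < N) {f : ℍ → ℂ} (hf : MDiff f)
    (hper : IsPer N f) (hbdd : IsBoundedAtImInfty f) : MeromorphicAt (cuspFn N f) 0 := by
  have hN' : (0 : ℝ) < N := by exact_mod_cast hN
  have han : AnalyticAt ℂ (UpperHalfPlane.cuspFunction (N : ℝ) f) 0 :=
    UpperHalfPlane.analyticAt_cuspFunction_zero hN' hper.periodic_comp_ofComplex hf hbdd
  refine han.meromorphicAt.congr ?_
  filter_upwards [eventually_punctured_disc] with q hq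
  rw [UpperHalfPlane.cuspFunction, Function.Periodic.cuspFunction_eq_of_nonzero _ _ hq.1]
  rfl

theorem rc_discriminant_smul (γ : SL(2, ℤ)) (τ : ℍ) :
    Δ (γ • τ) = (denom γ τ) ^ (12 : ℤ) * Δ τ := by
  have hγ : (γ : GL (Fin 2) ℝ) ∈ 𝒮ℒ := ⟨γ, rfl⟩
  have hΔ : CuspForm.discriminant (γ • τ) =
      (denom γ τ) ^ (12 : ℤ) * CuspForm.discriminant τ :=
    SlashInvariantForm.slash_action_eqn'' CuspForm.discriminant hγ τ
  rwa [CuspForm.coe_discriminant] at hΔ

theorem rc_mdiff_discriminant : MDiff (Δ : ℍ → ℂ) := by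
  have hΔ : MDiff (CuspForm.discriminant : ℍ → ℂ) := ModularFormClass.holo CuspForm.discriminant
  rwa [CuspForm.coe_discriminant] at hΔ

theorem rc_isBounded_discriminant : IsBoundedAtImInfty (Δ : ℍ → ℂ) := by
  have h : IsBoundedAtImInfty (CuspForm.discriminant : ℍ → ℂ) :=
    ModularFormClass.bdd_at_infty CuspForm.discriminant
  rwa [CuspForm.coe_discriminant] at h

theorem rc_isPer_one_discriminant : IsPer 1 (Δ : ℍ → ℂ) := by
  intro τ
  have hper : Function.Periodic ((CuspForm.discriminant : ℍ → ℂ) ∘ ofComplex) 1 :=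
    SlashInvariantFormClass.periodic_comp_ofComplex CuspForm.discriminant
      one_mem_strictPeriods_SL
  have h1 := hper (τ : ℂ)
  simp only [Function.comp_apply, CuspForm.coe_discriminant, ofComplex_apply] at h1
  rw [← h1]
  congr 1
  apply UpperHalfPlane.ext
  have him : 0 < ((τ : ℂ) + 1).im := by simpa using τ.im_pos
  rw [ofComplex_apply_of_im_pos him, coe_vadd]
  push_cast
  ring

theorem rc_isPer_discriminant (h : ℕ) : IsPer h (Δ : ℍ → ℂ) := by
  intro τ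
  have := rc_isPer_one_discriminant.nat_mul h τ
  simpa using this

theorem rc_isPer_pow {N : ℕ} {f : ℍ → ℂ} (hf : IsPer N f) (m : ℕ) : IsPer N (fun τ => f τ ^ m) :=
  fun τ => by simp only [hf τ]

theorem rc_isBounded_pow {f : ℍ → ℂ} (hf : IsBoundedAtImInfty f) (m : ℕ) :
    IsBoundedAtImInfty (fun τ => f τ ^ m) := by
  induction m with
  | zero =>
    simp only [pow_zero]
    exact Filter.const_boundedAtFilter _ (1 : ℂ)
  | succ m ih =>
    simp only [pow_succ]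
    exact ih.mul hf

/-! ### Modular functions at a cusp -/

variable {M : ℕ}

/-- Modular functions for `Γ₀(M)` are `Γ₀(M)`-invariant. -/
theorem rc_isModFun_smul {f : ℍ → ℂ} (hf : IsModFun M f) {γ : SL(2, ℤ)}
    (hγ : γ ∈ CongruenceSubgroup.Gamma0 M) (τ : ℍ) : f (γ • τ) = f τ := by
  obtain ⟨m, G, hG⟩ := hf
  have hγ' : (γ : GL (Fin 2) ℝ) ∈ G0 M := ⟨γ, hγ, rfl⟩
  have h1 : G (γ • τ) = (denom γ τ) ^ (12 * (m : ℤ)) * G τ :=
    SlashInvariantForm.slash_action_eqn'' G hγ' τ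
  have hΔ := rc_discriminant_smul γ τ
  have e1 := congrFun hG (γ • τ)
  have e2 := congrFun hG τ
  rw [e1, e2, hΔ, mul_pow] at h1
  have hd : denom γ τ ≠ 0 := denom_ne_zero _ _
  have e3 : ((denom γ τ) ^ (12 : ℤ)) ^ m = (denom γ τ) ^ (12 * (m : ℤ)) := by
    rw [← zpow_natCast, ← zpow_mul]
  rw [e3] at h1
  have hne : (denom γ τ) ^ (12 * (m : ℤ)) * Δ τ ^ m ≠ 0 :=
    mul_ne_zero (zpow_ne_zero _ hd) (pow_ne_zero m (discriminant_ne_zero τ))
  have h2 : f (γ • τ) * ((denom γ τ) ^ (12 * (m : ℤ)) * Δ τ ^ m)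
      = f τ * ((denom γ τ) ^ (12 * (m : ℤ)) * Δ τ ^ m) := by
    linear_combination h1
  exact mul_right_cancel₀ hne h2

theorem rc_T_pow_smul (h : ℕ) (τ : ℍ) : (ModularGroup.T ^ h) • τ = ((h : ℝ) +ᵥ τ : ℍ) := by
  have := modular_T_zpow_smul τ (h : ℤ)
  simpa using this

/-- `f ∘ g` is `h`-periodic if `g T^h g⁻¹ ∈ Γ₀(M)`. -/
theorem rc_isPer_comp {f : ℍ → ℂ} (hf : IsModFun M f) {h : ℕ} {g : SL(2, ℤ)}
    (hp : IsCuspPeriod M h g) : IsPer h (fun τ => f (g • τ)) := by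
  intro τ
  have h1 := rc_isModFun_smul hf hp.2 (g • τ)
  rw [← mul_smul, inv_mul_cancel_right, mul_smul, rc_T_pow_smul] at h1
  exact h1

/-- `f ∘ g = B / Δ ^ m` with `B` holomorphic and bounded at `i∞`. -/
theorem rc_exists_bdd_repr [NeZero M] {f : ℍ → ℂ} (hf : IsModFun M f) (g : SL(2, ℤ)) :
    ∃ (m : ℕ) (B : ℍ → ℂ), MDiff B ∧ IsBoundedAtImInfty B ∧
      ∀ τ, B τ = f (g • τ) * Δ τ ^ m := by
  have hfd : MDiff f := rc_mdiff_of_isModFun hf
  obtain ⟨m, G, hG⟩ := hf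
  have hB : ∀ τ, ((G : ℍ → ℂ) ∣[12 * (m : ℤ)] g) τ = f (g • τ) * Δ τ ^ m := by
    intro τ
    rw [ModularForm.SL_slash_apply, congrFun hG (g • τ)]
    rw [rc_discriminant_smul g τ, mul_pow]
    have hd : denom g τ ≠ 0 := denom_ne_zero _ _
    have e3 : ((denom g τ) ^ (12 : ℤ)) ^ m = (denom g τ) ^ (12 * (m : ℤ)) := by
      rw [← zpow_natCast, ← zpow_mul]
    rw [e3, zpow_neg]
    field_simp
  refine ⟨m, (G : ℍ → ℂ) ∣[12 * (m : ℤ)] g, ?_, ModularFormClass.bdd_at_infty_slash G g, hB⟩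
  have h1 : ((G : ℍ → ℂ) ∣[12 * (m : ℤ)] g) = fun τ => f (g • τ) * Δ τ ^ m := funext hB
  rw [h1]
  exact (hfd.comp (UpperHalfPlane.mdifferentiable_smul (g := (g : GL (Fin 2) ℝ))
    (SL_val_det_pos g))).mul (rc_mdiff_discriminant.pow m)

/-- The cusp function of `f ∘ g` in `q_h` is meromorphic at `0`. -/
theorem rc_meromorphicAt_cuspFn_comp [NeZero M] {f : ℍ → ℂ} (hf : IsModFun M f) {h : ℕ}
    {g : SL(2, ℤ)} (hp : IsCuspPeriod M h g) :
    MeromorphicAt (cuspFn h (fun τ => f (g • τ))) 0 := by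
  obtain ⟨m, B, hBd, hBb, hB⟩ := rc_exists_bdd_repr hf g
  have hper : IsPer h (fun τ => f (g • τ)) := rc_isPer_comp hf hp
  have hΔper : IsPer h (fun τ => Δ τ ^ m) := rc_isPer_pow (rc_isPer_discriminant h) m
  have hBper : IsPer h B := by
    intro τ
    have e1 : f (g • ((h : ℝ) +ᵥ τ)) = f (g • τ) := hper τ
    have e2 : Δ ((h : ℝ) +ᵥ τ) ^ m = Δ τ ^ m := hΔper τ
    rw [hB, hB, e1, e2]
  have h1 := rc_meromorphicAt_cuspFn_of_bdd hp.1 hBd hBper hBb
  have h2 := rc_meromorphicAt_cuspFn_of_bdd hp.1 (rc_mdiff_discriminant.pow m) hΔper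
    (rc_isBounded_pow rc_isBounded_discriminant m)
  have e : cuspFn h (fun τ => f (g • τ)) = cuspFn h B * (cuspFn h (fun τ => Δ τ ^ m))⁻¹ := by
    funext q
    simp only [cuspFn_apply, Pi.mul_apply, Pi.inv_apply, hB]
    rw [mul_assoc, mul_inv_cancel₀ (pow_ne_zero m (discriminant_ne_zero _)), mul_one]
  rw [e]
  exact h1.mul h2.inv

/-- The cusp function of `f ∘ g` has finite order if `f ≠ 0`. -/
theorem rc_meromorphicOrderAt_comp_ne_top {f : ℍ → ℂ} (hf : IsModFun M f) (hf0 : f ≠ 0) {h : ℕ}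
    {g : SL(2, ℤ)} (hp : IsCuspPeriod M h g) :
    meromorphicOrderAt (cuspFn h (fun τ => f (g • τ))) 0 ≠ ⊤ := by
  intro htop
  rw [meromorphicOrderAt_eq_top_iff] at htop
  have hfd : MDiff f := rc_mdiff_of_isModFun hf
  have h0 := eq_zero_of_cuspFn_eventually_zero hp.1
    (hfd.comp (UpperHalfPlane.mdifferentiable_smul (g := (g : GL (Fin 2) ℝ))
      (SL_val_det_pos g))) (rc_isPer_comp hf hp) htop
  apply hf0
  funext τ
  have := congrFun h0 (g⁻¹ • τ)
  simpa using this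

variable (M) [NeZero M]

theorem rc_coe_ordCusp {h : ℕ} {g : SL(2, ℤ)} (hp : IsCuspPeriod M h g) {f : modFunAlg M}
    (hf : f ≠ 0) :
    ((ordCusp h g (f : ℍ → ℂ) : ℤ) : WithTop ℤ)
      = meromorphicOrderAt (cuspFn h (fun τ => (f : ℍ → ℂ) (g • τ))) 0 := by
  rw [ordCusp]
  exact WithTop.coe_untop₀_of_ne_top
    (rc_meromorphicOrderAt_comp_ne_top f.2 (rc_coe_ne_zero M hf) hp)

/-- The order at a cusp is an order function on `modFunAlg M`. -/
theorem isOrdFun_ordCusp {h : ℕ} {g : SL(2, ℤ)} (hp : IsCuspPeriod M h g) :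
    IsOrdFun (fun f : modFunAlg M => ordCusp h g (f : ℍ → ℂ)) where
  one := by
    have h1 : cuspFn h (fun τ => ((1 : modFunAlg M) : ℍ → ℂ) (g • τ)) = fun _ => (1 : ℂ) := rfl
    simp only [ordCusp, h1]
    classical
    rw [meromorphicOrderAt_const]
    simp
  mul f f' hf hf' := by
    refine ⟨mul_ne_zero hf hf', ?_⟩
    have h1 : cuspFn h (fun τ => ((f * f' : modFunAlg M) : ℍ → ℂ) (g • τ))
        = cuspFn h (fun τ => (f : ℍ → ℂ) (g • τ)) * cuspFn h (fun τ => (f' : ℍ → ℂ) (g • τ)) :=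
      rfl
    have h2 := meromorphicOrderAt_mul (rc_meromorphicAt_cuspFn_comp f.2 hp)
      (rc_meromorphicAt_cuspFn_comp f'.2 hp)
    rw [← h1, ← rc_coe_ordCusp M hp hf, ← rc_coe_ordCusp M hp hf',
      ← rc_coe_ordCusp M hp (mul_ne_zero hf hf')] at h2
    exact_mod_cast h2
  add f f' hf hf' hff' := by
    have h1 : cuspFn h (fun τ => ((f + f' : modFunAlg M) : ℍ → ℂ) (g • τ))
        = cuspFn h (fun τ => (f : ℍ → ℂ) (g • τ)) + cuspFn h (fun τ => (f' : ℍ → ℂ) (g • τ)) :=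
      rfl
    have h2 := meromorphicOrderAt_add (rc_meromorphicAt_cuspFn_comp f.2 hp)
      (rc_meromorphicAt_cuspFn_comp f'.2 hp)
    rw [← h1, ← rc_coe_ordCusp M hp hf, ← rc_coe_ordCusp M hp hf',
      ← rc_coe_ordCusp M hp hff'] at h2
    rw [min_le_iff] at h2 ⊢
    rcases h2 with h2 | h2
    · exact Or.inl (by exact_mod_cast h2)
    · exact Or.inr (by exact_mod_cast h2)

theorem ordCusp_algebraMap (h : ℕ) (g : SL(2, ℤ)) (a : ℂ) :
    ordCusp h g ((algebraMap ℂ (modFunAlg M) a : modFunAlg M) : ℍ → ℂ) = 0 := by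
  have h1 : cuspFn h (fun τ => ((algebraMap ℂ (modFunAlg M) a : modFunAlg M) : ℍ → ℂ) (g • τ))
      = fun _ => a := rfl
  rw [ordCusp, h1]
  classical
  rw [meromorphicOrderAt_const]
  split_ifs <;> simp

/-- `J` as an element of `modFunAlg M`. -/
def jElt : modFunAlg M := ⟨Jfun, isModFun_Jfun M⟩

theorem jElt_ne_zero : jElt M ≠ 0 := by
  intro h
  obtain ⟨z, hz⟩ := Jfun_surjective 1
  have h1 := congrFun (congrArg Subtype.val h) z
  have h2 : (jElt M : ℍ → ℂ) z = Jfun z := rfl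
  rw [h2, hz] at h1
  simp at h1

/-- `ordCusp h g J = -h`. -/
theorem ordCusp_Jfun {h : ℕ} (hh : 0 < h) (g : SL(2, ℤ)) :
    ordCusp h g Jfun = -(h : ℤ) := by
  have h1 : (fun τ => Jfun (g • τ)) = Jfun := funext fun τ => Jfun_smul g τ
  rw [ordCusp, h1, meromorphicOrderAt_cuspFn_Jfun hh]
  rfl

end Fermat.Agent.ES.RC
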