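import Fermat.Agent.ES.RC.JInj
import Fermat.Agent.S24.JOrder
import Fermat.Agent.S24.OrderAt

/-!
# Classification of the elliptic points of `SL(2, ℤ)` (through `J`)

* `rc_denom_conj` : the multiplier `denom ε τ` of a stabiliser element is invariant under
  conjugation;
* `rc_exists_elliptic` : every `τ ∈ ℍ` is fixed by some `ε ∈ SL(2, ℤ)` whose multiplier
  `denom ε τ ^ 2` is a primitive `E`-th root of unity, `E = ord_τ (J − J τ) ∈ {1, 2, 3}`.
-/

set_option autoImplicit false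

noncomputable section

namespace Fermat.Agent.ES.RC

open UpperHalfPlane ModularForm
open Fermat.Agent.S24
open scoped MatrixGroups

/-- Conjugation invariance of the multiplier of a stabiliser element. -/
theorem rc_denom_conj (γ ε : SL(2, ℤ)) (τ : ℍ) (hfix : ε • τ = τ) :
    (γ * ε * γ⁻¹) • (γ • τ) = γ • τ ∧
      denom (γ * ε * γ⁻¹ : SL(2, ℤ)) (γ • τ : ℍ) = denom ε τ := by
  have h1 : (γ * ε * γ⁻¹) • (γ • τ) = γ • τ := by
    rw [mul_smul, inv_smul_smul, mul_smul, hfix]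
  refine ⟨h1, ?_⟩
  have h2 : denom (γ * ε * γ⁻¹ : SL(2, ℤ)) (γ • τ : ℍ)
      = denom (γ * ε : SL(2, ℤ)) (γ⁻¹ • γ • τ : ℍ) * denom (γ⁻¹ : SL(2, ℤ)) (γ • τ : ℍ) :=
    denom_mul_SL (γ * ε) γ⁻¹ (γ • τ)
  have h3 : denom (γ * ε : SL(2, ℤ)) τ = denom γ (ε • τ : ℍ) * denom ε τ := denom_mul_SL γ ε τ
  have h4 : denom (γ⁻¹ * γ : SL(2, ℤ)) τ = denom (γ⁻¹ : SL(2, ℤ)) (γ • τ : ℍ) * denom γ τ :=
    denom_mul_SL γ⁻¹ γ τ
  rw [inv_mul_cancel, denom_one_SL] at h4
  rw [inv_smul_smul] at h2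
  rw [h2, h3, hfix]
  have hγ : denom γ τ ≠ 0 := denom_ne_zero _ _
  have h5 : denom (γ⁻¹ : SL(2, ℤ)) (γ • τ : ℍ) = (denom γ τ)⁻¹ := by
    exact eq_inv_of_mul_eq_one_left h4.symm
  rw [h5]
  field_simp

theorem rc_prim_S_I :
    IsPrimitiveRoot (denom (ModularGroup.S : SL(2, ℤ)) UpperHalfPlane.I ^ 2) 2 := by
  have hden : denom (ModularGroup.S : SL(2, ℤ)) UpperHalfPlane.I ^ 2 = -1 := by
    have : denom (ModularGroup.S : SL(2, ℤ)) UpperHalfPlane.I = Complex.I := by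
      have := ModularGroup.denom_apply (g := ModularGroup.S) (z := UpperHalfPlane.I)
      rw [this]
      simp [ModularGroup.S]
    rw [this, Complex.I_sq]
  rw [hden]
  exact IsPrimitiveRoot.neg_one 0 (by norm_num)

theorem rc_prim_ST_ρ :
    IsPrimitiveRoot (denom (ModularGroup.S * ModularGroup.T : SL(2, ℤ)) UpperHalfPlane.ρ ^ 2) 3 := by
  have hd : denom (ModularGroup.S * ModularGroup.T : SL(2, ℤ)) UpperHalfPlane.ρ =
      (UpperHalfPlane.ρ : ℂ) + 1 := by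
    have := ModularGroup.denom_apply (g := ModularGroup.S * ModularGroup.T)
      (z := UpperHalfPlane.ρ)
    rw [this]
    have e10 : ((ModularGroup.S * ModularGroup.T : SL(2, ℤ)) : Matrix (Fin 2) (Fin 2) ℤ) 1 0 = 1 := by
      rw [Matrix.SpecialLinearGroup.coe_mul, ModularGroup.coe_S, ModularGroup.coe_T]
      simp [Matrix.mul_apply, Fin.sum_univ_two]
    have e11 : ((ModularGroup.S * ModularGroup.T : SL(2, ℤ)) : Matrix (Fin 2) (Fin 2) ℤ) 1 1 = 1 := by
      rw [Matrix.SpecialLinearGroup.coe_mul, ModularGroup.coe_S, ModularGroup.coe_T]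
      simp [Matrix.mul_apply, Fin.sum_univ_two]
    rw [e10, e11]
    simp
  have hsq := UpperHalfPlane.ρ_sq
  have hden : denom (ModularGroup.S * ModularGroup.T : SL(2, ℤ))
      UpperHalfPlane.ρ ^ 2 = (UpperHalfPlane.ρ : ℂ) := by
    rw [hd]; linear_combination hsq
  have hρ3 : (UpperHalfPlane.ρ : ℂ) ^ 3 = 1 := by
    linear_combination ((UpperHalfPlane.ρ : ℂ) - 1) * hsq
  have hρ1 : (UpperHalfPlane.ρ : ℂ) ≠ 1 := by
    intro h
    have := congrArg Complex.im h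
    have hpos : 0 < (UpperHalfPlane.ρ : ℂ).im := UpperHalfPlane.ρ.2
    rw [Complex.one_im] at this
    exact hpos.ne' this
  rw [hden]
  refine IsPrimitiveRoot.mk_of_lt _ (by norm_num) hρ3 ?_
  intro l hl0 hl3 hl
  interval_cases l
  · exact hρ1 (by simpa using hl)
  · apply hρ1
    have h2 : (UpperHalfPlane.ρ : ℂ) ^ 3 = (UpperHalfPlane.ρ : ℂ) ^ 2 * (UpperHalfPlane.ρ : ℂ) := by
      ring
    rw [hl, one_mul] at h2
    rw [← h2, hρ3]

/-- **Elliptic points.** Every `τ` has a stabiliser element whose multiplier is a primitive root of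
unity of order `ord_τ (J − J τ)`. -/
theorem rc_exists_elliptic (τ : ℍ) :
    ∃ (ε : SL(2, ℤ)) (E : ℕ), (E = 1 ∨ E.Prime) ∧ ε • τ = τ ∧
      IsPrimitiveRoot (denom ε τ ^ 2) E ∧
      ordAt τ (fun z => Jfun z - Jfun τ) = (E : ℕ∞) := by
  by_cases h1728 : Jfun τ = 1728
  · -- the orbit of `i`
    obtain ⟨γ, hγ⟩ := exists_smul_eq_of_Jfun_eq UpperHalfPlane.I τ (by rw [Jfun_I, h1728])
    obtain ⟨hfix, hden⟩ := rc_denom_conj γ ModularGroup.S UpperHalfPlane.I S_smul_I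
    rw [hγ] at hfix hden
    refine ⟨γ * ModularGroup.S * γ⁻¹, 2, Or.inr Nat.prime_two, hfix, ?_, ?_⟩
    · rw [hden]; exact rc_prim_S_I
    · have := analyticOrderAt_Jfun_sub_1728 h1728
      rw [ordAt, h1728]
      exact this
  by_cases h0 : Jfun τ = 0
  · obtain ⟨γ, hγ⟩ := exists_smul_eq_of_Jfun_eq UpperHalfPlane.ρ τ (by rw [Jfun_ρ, h0])
    obtain ⟨hfix, hden⟩ := rc_denom_conj γ (ModularGroup.S * ModularGroup.T) UpperHalfPlane.ρ
      ST_smul_ρ
    rw [hγ] at hfix hden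
    refine ⟨γ * (ModularGroup.S * ModularGroup.T) * γ⁻¹, 3, Or.inr Nat.prime_three, hfix, ?_, ?_⟩
    · rw [hden]; exact rc_prim_ST_ρ
    · have := analyticOrderAt_Jfun_of_eq_zero h0
      rw [ordAt, h0]
      simpa [Function.comp_def] using this
  · refine ⟨1, 1, Or.inl rfl, one_smul _ _, ?_, ?_⟩
    · rw [denom_one_SL, one_pow]; exact IsPrimitiveRoot.one
    · have := analyticOrderAt_Jfun_sub_of_ne h0 h1728
      rw [ordAt]
      simpa [Function.comp_def] using this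

end Fermat.Agent.ES.RC
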