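import Fermat.Agent.ES.RC.LatticeG
import Fermat.Agent.S20.LevelOnePoly
import Fermat.Agent.S24.Invariants

/-!
# `J` is injective modulo `SL(2, ℤ)`

* `jinj_exists_smul_of_scale` : if `E₄ τ₂ = t⁴ E₄ τ₁` and `E₆ τ₂ = t⁶ E₆ τ₁` with `t ≠ 0` then
  `τ₂ ∈ SL(2, ℤ) τ₁`;
* `exists_smul_eq_of_Jfun_eq` : `Jfun τ₁ = Jfun τ₂ → ∃ γ : SL(2, ℤ), γ • τ₁ = τ₂`.

Proof: all level-one forms are isobaric polynomials in `E₄, E₆` (S20 `levelOne_eval_scale`), so the
lattices `ℤ τ₂ + ℤ` and `t⁻¹ (ℤ τ₁ + ℤ)` have the same Eisenstein sums `G_n`, hence the same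
Weierstrass `℘`-function near `0` (Mathlib), hence the same poles.
-/

set_option autoImplicit false

noncomputable section

namespace Fermat.Agent.ES.RC

open Complex Filter Topology PeriodPair UpperHalfPlane ModularForm EisensteinSeries
open Fermat.Agent.S24
open scoped MatrixGroups

/-- The period pair `(s τ, s)`. -/
def jinjPair (τ : ℍ) (s : ℂ) (hs : s ≠ 0) : PeriodPair where
  ω₁ := s * τ
  ω₂ := s
  indep := by
    rw [LinearIndependent.pair_iff]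
    intro a b hab
    have h1 : s * ((a : ℂ) * τ + b) = 0 := by
      have : (a : ℂ) * (s * τ) + (b : ℂ) * s = 0 := by
        simpa [Complex.real_smul] using hab
      linear_combination this
    have h2 : (a : ℂ) * τ + b = 0 := (mul_eq_zero.mp h1).resolve_left hs
    have h3 := congrArg Complex.im h2
    simp only [Complex.add_im, Complex.mul_im, Complex.ofReal_re, Complex.ofReal_im, zero_mul,
      add_zero, Complex.zero_im, UpperHalfPlane.coe_im] at h3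
    have ha : a = 0 := by
      rcases mul_eq_zero.mp h3 with h | h
      · exact h
      · exact absurd h τ.im_pos.ne'
    subst ha
    have h4 := congrArg Complex.re h2
    simp at h4
    exact ⟨rfl, h4⟩

@[simp] theorem jinjPair_ω₁ (τ : ℍ) (s : ℂ) (hs : s ≠ 0) : (jinjPair τ s hs).ω₁ = s * τ := rfl
@[simp] theorem jinjPair_ω₂ (τ : ℍ) (s : ℂ) (hs : s ≠ 0) : (jinjPair τ s hs).ω₂ = s := rfl

/-- The Eisenstein sum of `ℤ τ + ℤ` as a sum over `ℤ²`. -/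
def jinjSum (τ : ℍ) (n : ℕ) : ℂ := ∑' x : ℤ × ℤ, (((x.1 : ℂ) * τ + (x.2 : ℂ)) ^ n)⁻¹

theorem jinj_G_pair (τ : ℍ) (s : ℂ) (hs : s ≠ 0) (n : ℕ) :
    (jinjPair τ s hs).G n = (s ^ n)⁻¹ * jinjSum τ n := by
  rw [jinj_G_eq_tsum, jinjSum, ← tsum_mul_left]
  refine tsum_congr fun x => ?_
  rw [jinjPair_ω₁, jinjPair_ω₂, ← mul_inv, ← mul_pow]
  congr 2
  ring

theorem jinjSum_eq (τ : ℍ) {n : ℕ} (hn : 3 ≤ n) :
    jinjSum τ n = 2 * riemannZeta n * E hn τ := by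
  have h1 := tsum_eisSummand_eq_riemannZeta_mul_eisensteinSeries hn τ
  have h2 : E hn τ = (1 / 2 : ℂ) * eisensteinSeries (N := 1) 0 (n : ℤ) τ := rfl
  have h3 : jinjSum τ n = ∑' v : Fin 2 → ℤ, eisSummand n v τ := by
    rw [jinjSum, ← (finTwoArrowEquiv ℤ).symm.tsum_eq]
    refine tsum_congr fun x => ?_
    simp [eisSummand, finTwoArrowEquiv, zpow_neg]
  rw [h3, h1, h2]
  ring

/-- `E_n` scales like a form of weight `n` under `(E₄, E₆) ↦ (t⁴ E₄, t⁶ E₆)`. -/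
theorem jinj_G_scale (τ₁ τ₂ : ℍ) (t : ℂ) (ht : t ≠ 0) (h4 : E₄ τ₂ = t ^ 4 * E₄ τ₁)
    (h6 : E₆ τ₂ = t ^ 6 * E₆ τ₁) (n : ℕ) (hn : 3 ≤ n) :
    (jinjPair τ₂ 1 one_ne_zero).G n = (jinjPair τ₁ t⁻¹ (inv_ne_zero ht)).G n := by
  rw [jinj_G_pair, jinj_G_pair, jinjSum_eq τ₂ hn, jinjSum_eq τ₁ hn,
    Fermat.Agent.S20.levelOne_eval_scale τ₁ τ₂ t h4 h6 (E hn)]
  simp only [one_pow, inv_one, one_mul, Int.toNat_natCast, inv_pow, inv_inv]
  ring

/-- From the equality of lattices to an element of `SL(2, ℤ)`. -/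
theorem jinj_exists_smul_of_lattice (τ₁ τ₂ : ℍ) (s : ℂ) (hs : s ≠ 0)
    (h : (jinjPair τ₂ 1 one_ne_zero).lattice = (jinjPair τ₁ s hs).lattice) :
    ∃ γ : SL(2, ℤ), γ • τ₁ = τ₂ := by
  -- the four memberships
  have m1 : (τ₂ : ℂ) ∈ (jinjPair τ₁ s hs).lattice := by
    rw [← h]
    have := (jinjPair τ₂ 1 one_ne_zero).ω₁_mem_lattice
    simpa using this
  have m2 : (1 : ℂ) ∈ (jinjPair τ₁ s hs).lattice := by
    rw [← h]
    exact (jinjPair τ₂ 1 one_ne_zero).ω₂_mem_lattice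
  have m3 : s * (τ₁ : ℂ) ∈ (jinjPair τ₂ 1 one_ne_zero).lattice := by
    rw [h]
    exact (jinjPair τ₁ s hs).ω₁_mem_lattice
  have m4 : s ∈ (jinjPair τ₂ 1 one_ne_zero).lattice := by
    rw [h]
    exact (jinjPair τ₁ s hs).ω₂_mem_lattice
  rw [PeriodPair.mem_lattice] at m1 m2 m3 m4
  obtain ⟨a, b, hab⟩ := m1
  obtain ⟨c, d, hcd⟩ := m2
  obtain ⟨a', b', hab'⟩ := m3
  obtain ⟨c', d', hcd'⟩ := m4
  simp only [jinjPair_ω₁, jinjPair_ω₂, one_mul, mul_one] at hab hcd hab' hcd'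
  -- `τ₂ = (a a' + b c') τ₂ + (a b' + b d')`, `1 = (c a' + d c') τ₂ + (c b' + d d')`
  have e1 : ((a * a' + b * c' : ℤ) : ℂ) * τ₂ + ((a * b' + b * d' : ℤ) : ℂ) = τ₂ := by
    push_cast
    linear_combination hab + (a : ℂ) * hab' + (b : ℂ) * hcd'
  have e2 : ((c * a' + d * c' : ℤ) : ℂ) * τ₂ + ((c * b' + d * d' : ℤ) : ℂ) = 1 := by
    push_cast
    linear_combination hcd + (c : ℂ) * hab' + (d : ℂ) * hcd'
  have key : ∀ (x y : ℤ), (x : ℂ) * τ₂ + (y : ℂ) = 0 → x = 0 ∧ y = 0 := by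
    intro x y hxy
    have h3 := congrArg Complex.im hxy
    simp only [Complex.add_im, Complex.mul_im, Complex.intCast_re, Complex.intCast_im, zero_mul,
      add_zero, Complex.zero_im, UpperHalfPlane.coe_im] at h3
    have hx : x = 0 := by
      rcases mul_eq_zero.mp h3 with h | h
      · exact_mod_cast h
      · exact absurd h τ₂.im_pos.ne'
    subst hx
    have h4 := congrArg Complex.re hxy
    simp at h4
    exact ⟨rfl, by exact_mod_cast h4⟩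
  have k1 := key (a * a' + b * c' - 1) (a * b' + b * d') (by
    push_cast at e1 ⊢; linear_combination e1)
  have k2 := key (c * a' + d * c') (c * b' + d * d' - 1) (by
    push_cast at e2 ⊢; linear_combination e2)
  -- the determinant is `± 1`
  have hdet : (a * d - b * c) * (a' * d' - b' * c') = 1 := by
    obtain ⟨k11, k12⟩ := k1
    obtain ⟨k21, k22⟩ := k2
    linear_combination (c * b' + d * d') * k11 - (c * a' + d * c') * k12 + k22
        - (a * b' + b * d') * k21 + (a * a' + b * c' - 1) * k22 - (c * b' + d * d' - 1) * k11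
        + (c * a' + d * c') * k12
  -- the denominator
  have hden : (c : ℂ) * τ₁ + d ≠ 0 := by
    intro h0
    have : (1 : ℂ) = 0 := by
      rw [← hcd]
      linear_combination s * h0
    exact one_ne_zero this
  have hτ₂ : (τ₂ : ℂ) = ((a : ℂ) * τ₁ + b) / ((c : ℂ) * τ₁ + d) := by
    rw [eq_div_iff hden]
    have : (τ₂ : ℂ) * 1 = τ₂ := mul_one _
    calc (τ₂ : ℂ) * ((c : ℂ) * τ₁ + d) = τ₂ * (c * (s * τ₁) + d * s) * s⁻¹ := by
          field_simp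
      _ = τ₂ * 1 * s⁻¹ := by rw [hcd]
      _ = (a * (s * τ₁) + b * s) * s⁻¹ := by rw [hab, mul_one]
      _ = (a : ℂ) * τ₁ + b := by field_simp
  -- positivity of the determinant
  have him : (τ₂ : ℂ).im = ((a * d - b * c : ℤ) : ℝ) * τ₁.im / Complex.normSq ((c : ℂ) * τ₁ + d) := by
    rw [hτ₂, Complex.div_im]
    have hn : Complex.normSq ((c : ℂ) * τ₁ + d) ≠ 0 := by
      rwa [Ne, Complex.normSq_eq_zero]
    simp only [Complex.add_im, Complex.mul_im, Complex.intCast_re, Complex.intCast_im, zero_mul,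
      add_zero, Complex.add_re, Complex.mul_re, sub_zero, UpperHalfPlane.coe_im,
      UpperHalfPlane.coe_re]
    push_cast
    field_simp
    ring
  have hpos : 0 < ((a * d - b * c : ℤ) : ℝ) := by
    have h1 : 0 < (τ₂ : ℂ).im := τ₂.im_pos
    rw [him] at h1
    have hn : 0 < Complex.normSq ((c : ℂ) * τ₁ + d) := Complex.normSq_pos.mpr hden
    have h2 : 0 < ((a * d - b * c : ℤ) : ℝ) * τ₁.im := by
      by_contra hneg
      push Not at hneg
      have := div_nonpos_of_nonpos_of_nonneg hneg hn.le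
      linarith
    exact (pos_iff_pos_of_mul_pos h2).mpr τ₁.im_pos
  have hdet1 : a * d - b * c = 1 := by
    have hp : 0 < a * d - b * c := by exact_mod_cast hpos
    have hu : IsUnit (a * d - b * c) := IsUnit.of_mul_eq_one _ hdet
    rcases Int.isUnit_iff.mp hu with h | h
    · exact h
    · omega
  have hdet2 : (!![a, b; c, d] : Matrix (Fin 2) (Fin 2) ℤ).det = 1 := by
    rw [Matrix.det_fin_two_of]; exact hdet1
  let γ : SL(2, ℤ) := ⟨!![a, b; c, d], hdet2⟩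
  refine ⟨γ, ?_⟩
  ext
  rw [UpperHalfPlane.coe_specialLinearGroup_apply, hτ₂]
  simp [γ]

/-- **Scaling form of the injectivity of `J`.** -/
theorem jinj_exists_smul_of_scale (τ₁ τ₂ : ℍ) (t : ℂ) (ht : t ≠ 0)
    (h4 : E₄ τ₂ = t ^ 4 * E₄ τ₁) (h6 : E₆ τ₂ = t ^ 6 * E₆ τ₁) :
    ∃ γ : SL(2, ℤ), γ • τ₁ = τ₂ :=
  jinj_exists_smul_of_lattice τ₁ τ₂ t⁻¹ (inv_ne_zero ht)
    (jinj_lattice_eq_of_G_eq _ _ fun n hn => jinj_G_scale τ₁ τ₂ t ht h4 h6 n hn)

/-- `a³ b'² = a'³ b²` for the values of `E₄, E₆` at two points with the same `J`. -/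
theorem jinj_cross (τ₁ τ₂ : ℍ) (h : Jfun τ₁ = Jfun τ₂) :
    E₄ τ₁ ^ 3 * E₆ τ₂ ^ 2 = E₄ τ₂ ^ 3 * E₆ τ₁ ^ 2 := by
  rw [Jfun_def, Jfun_def, div_eq_div_iff (discriminant_ne_zero τ₁) (discriminant_ne_zero τ₂),
    discriminant_eq_E₄_cube_sub_E₆_sq, discriminant_eq_E₄_cube_sub_E₆_sq] at h
  linear_combination (-1728 : ℂ) * h

/-- **`J` is injective modulo `SL(2, ℤ)`.** -/
theorem exists_smul_eq_of_Jfun_eq (τ₁ τ₂ : ℍ) (h : Jfun τ₁ = Jfun τ₂) :
    ∃ γ : SL(2, ℤ), γ • τ₁ = τ₂ := by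
  have hc := jinj_cross τ₁ τ₂ h
  have hD₁ : E₄ τ₁ ^ 3 - E₆ τ₁ ^ 2 ≠ 0 := by
    intro h0
    apply discriminant_ne_zero τ₁
    rw [discriminant_eq_E₄_cube_sub_E₆_sq, h0, zero_div]
  have hD₂ : E₄ τ₂ ^ 3 - E₆ τ₂ ^ 2 ≠ 0 := by
    intro h0
    apply discriminant_ne_zero τ₂
    rw [discriminant_eq_E₄_cube_sub_E₆_sq, h0, zero_div]
  by_cases ha : E₄ τ₁ = 0
  · -- `E₄ τ₁ = 0`
    have hb : E₆ τ₁ ≠ 0 := fun hb => hD₁ (by rw [ha, hb]; ring)
    have ha' : E₄ τ₂ = 0 := by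
      rw [ha] at hc
      have : E₄ τ₂ ^ 3 * E₆ τ₁ ^ 2 = 0 := by rw [← hc]; ring
      rcases mul_eq_zero.mp this with h1 | h1
      · exact pow_eq_zero_iff (by norm_num) |>.mp h1
      · exact absurd (pow_eq_zero_iff (by norm_num) |>.mp h1) hb
    have hb' : E₆ τ₂ ≠ 0 := fun hb' => hD₂ (by rw [ha', hb']; ring)
    obtain ⟨t, ht⟩ := IsAlgClosed.exists_pow_nat_eq (E₆ τ₂ / E₆ τ₁) (n := 6) (by norm_num)
    have ht0 : t ≠ 0 := by
      rintro rfl
      rw [zero_pow (by norm_num)] at ht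
      exact (div_ne_zero hb' hb) ht.symm
    refine jinj_exists_smul_of_scale τ₁ τ₂ t ht0 (by rw [ha, ha', mul_zero]) ?_
    rw [ht, div_mul_cancel₀ _ hb]
  by_cases hb : E₆ τ₁ = 0
  · have hb' : E₆ τ₂ = 0 := by
      rw [hb] at hc
      have : E₄ τ₁ ^ 3 * E₆ τ₂ ^ 2 = 0 := by rw [hc]; ring
      rcases mul_eq_zero.mp this with h1 | h1
      · exact absurd (pow_eq_zero_iff (by norm_num) |>.mp h1) ha
      · exact pow_eq_zero_iff (by norm_num) |>.mp h1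
    have ha' : E₄ τ₂ ≠ 0 := fun ha' => hD₂ (by rw [ha', hb']; ring)
    obtain ⟨t, ht⟩ := IsAlgClosed.exists_pow_nat_eq (E₄ τ₂ / E₄ τ₁) (n := 4) (by norm_num)
    have ht0 : t ≠ 0 := by
      rintro rfl
      rw [zero_pow (by norm_num)] at ht
      exact (div_ne_zero ha' ha) ht.symm
    refine jinj_exists_smul_of_scale τ₁ τ₂ t ht0 ?_ (by rw [hb, hb', mul_zero])
    rw [ht, div_mul_cancel₀ _ ha]
  · -- generic case
    have ha' : E₄ τ₂ ≠ 0 := by
      intro ha'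
      rw [ha'] at hc
      have : E₄ τ₁ ^ 3 * E₆ τ₂ ^ 2 = 0 := by rw [hc]; ring
      rcases mul_eq_zero.mp this with h1 | h1
      · exact ha (pow_eq_zero_iff (by norm_num) |>.mp h1)
      · exact hD₂ (by rw [ha', pow_eq_zero_iff (by norm_num) |>.mp h1]; ring)
    have hb' : E₆ τ₂ ≠ 0 := by
      intro hb'
      rw [hb'] at hc
      have : E₄ τ₂ ^ 3 * E₆ τ₁ ^ 2 = 0 := by rw [← hc]; ring
      rcases mul_eq_zero.mp this with h1 | h1
      · exact ha' (pow_eq_zero_iff (by norm_num) |>.mp h1)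
      · exact hb (pow_eq_zero_iff (by norm_num) |>.mp h1)
    obtain ⟨t, ht⟩ := IsAlgClosed.exists_pow_nat_eq
      (E₆ τ₂ * E₄ τ₁ / (E₆ τ₁ * E₄ τ₂)) (n := 2) (by norm_num)
    have ht0 : t ≠ 0 := by
      rintro rfl
      rw [zero_pow (by norm_num)] at ht
      exact (div_ne_zero (mul_ne_zero hb' ha) (mul_ne_zero hb ha')) ht.symm
    have h4 : t ^ 4 = E₄ τ₂ / E₄ τ₁ := by
      have : t ^ 4 = (t ^ 2) ^ 2 := by ring
      rw [this, ht, div_pow, div_eq_div_iff (pow_ne_zero 2 (mul_ne_zero hb ha')) ha]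
      linear_combination hc
    have h6 : t ^ 6 = E₆ τ₂ / E₆ τ₁ := by
      have : t ^ 6 = (t ^ 2) ^ 3 := by ring
      rw [this, ht, div_pow, div_eq_div_iff (pow_ne_zero 3 (mul_ne_zero hb ha')) hb]
      linear_combination (E₆ τ₂ * E₆ τ₁) * hc
    refine jinj_exists_smul_of_scale τ₁ τ₂ t ht0 ?_ ?_
    · rw [h4, div_mul_cancel₀ _ ha]
    · rw [h6, div_mul_cancel₀ _ hb]

end Fermat.Agent.ES.RC
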