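import Mathlib

/-!
# A lattice in `ℂ` is determined by its Eisenstein sums `G_n` (`n ≥ 3`)

`PeriodPair.G n = ∑_{l ∈ L} l⁻ⁿ` (Mathlib, `Analysis/SpecialFunctions/Elliptic/Weierstrass`).

* `jinj_weierstrassP_eventuallyEq` : equal `G_n` (`n ≥ 3`) ⇒ the two `℘`-functions agree near `0`;
* `jinj_lattice_eq_of_G_eq` : equal `G_n` (`n ≥ 3`) ⇒ equal lattices (the poles of `℘`);
* `jinj_G_eq_tsum` : `G_n(L) = ∑_{(a,b) ∈ ℤ²} (a ω₁ + b ω₂)⁻ⁿ`.
-/

set_option autoImplicit false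

noncomputable section

namespace Fermat.Agent.ES.RC

open Complex Filter Topology PeriodPair

theorem jinj_weierstrassPExcept_zero_zero (L : PeriodPair) : ℘[L - (0 : ℂ)] 0 = 0 := by
  simp [PeriodPair.weierstrassPExcept]

/-- Equal Eisenstein sums give equal regular parts of `℘` near `0`. -/
theorem jinj_weierstrassPExcept_eventuallyEq (L L' : PeriodPair)
    (h : ∀ n : ℕ, 3 ≤ n → L.G n = L'.G n) :
    ℘[L - (0 : ℂ)] =ᶠ[𝓝 0] ℘[L' - (0 : ℂ)] := by
  have h1 := L.hasFPowerSeriesAt_weierstrassPExcept 0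
  have h2 := L'.hasFPowerSeriesAt_weierstrassPExcept 0
  have hser : (FormalMultilinearSeries.ofScalars (𝕜 := ℂ) ℂ fun i : ℕ ↦
      if i = 0 then ℘[L - (0 : ℂ)] 0 else (i + 1) * L.sumInvPow 0 (i + 2)) =
      (FormalMultilinearSeries.ofScalars (𝕜 := ℂ) ℂ fun i : ℕ ↦
      if i = 0 then ℘[L' - (0 : ℂ)] 0 else (i + 1) * L'.sumInvPow 0 (i + 2)) := by
    congr 1
    funext i
    by_cases hi : i = 0
    · simp [hi]
    · rw [if_neg hi, if_neg hi, PeriodPair.sumInvPow_zero, PeriodPair.sumInvPow_zero,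
        h (i + 2) (by omega)]
  rw [hser] at h1
  have e1 := h1.eventually_hasSum
  have e2 := h2.eventually_hasSum
  filter_upwards [e1, e2] with y hy1 hy2
  have := hy1.unique hy2
  simpa using this

/-- Equal Eisenstein sums give equal `℘`-functions near `0`. -/
theorem jinj_weierstrassP_eventuallyEq (L L' : PeriodPair)
    (h : ∀ n : ℕ, 3 ≤ n → L.G n = L'.G n) : ℘[L] =ᶠ[𝓝 0] ℘[L'] := by
  filter_upwards [jinj_weierstrassPExcept_eventuallyEq L L' h] with z hz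
  have h1 := L.weierstrassPExcept_add (0 : L.lattice) z
  have h2 := L'.weierstrassPExcept_add (0 : L'.lattice) z
  simp only [ZeroMemClass.coe_zero] at h1 h2
  rw [← h1, ← h2, hz]

theorem jinj_countable_lattice (L : PeriodPair) : (L.lattice : Set ℂ).Countable := by
  have : Countable L.lattice := L.latticeEquivProd.toEquiv.countable_iff.mpr inferInstance
  exact Set.countable_coe_iff.mp this

/-- One inclusion of `jinj_lattice_eq_of_G_eq`. -/
theorem jinj_lattice_le_of_eventuallyEq (L L' : PeriodPair) (h : ℘[L] =ᶠ[𝓝 0] ℘[L']) :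
    L.lattice ≤ L'.lattice := by
  classical
  -- the common domain of analyticity
  set U : Set ℂ := ((L.lattice : Set ℂ) ∪ (L'.lattice : Set ℂ))ᶜ with hU
  have hUconn : IsPreconnected U := by
    have hc : ((L.lattice : Set ℂ) ∪ (L'.lattice : Set ℂ)).Countable :=
      (jinj_countable_lattice L).union (jinj_countable_lattice L')
    have hr : 1 < Module.rank ℝ ℂ := by
      rw [Complex.rank_real_complex]
      norm_num
    exact (hc.isPathConnected_compl_of_one_lt_rank hr).isConnected.isPreconnected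
  have hUL : U ⊆ (L.lattice : Set ℂ)ᶜ := Set.compl_subset_compl.mpr Set.subset_union_left
  have hUL' : U ⊆ (L'.lattice : Set ℂ)ᶜ := Set.compl_subset_compl.mpr Set.subset_union_right
  have hf : AnalyticOnNhd ℂ ℘[L] U := L.analyticOnNhd_weierstrassP.mono hUL
  have hg : AnalyticOnNhd ℂ ℘[L'] U := L'.analyticOnNhd_weierstrassP.mono hUL'
  -- a point of `U` near `0` where the two functions agree locally
  obtain ⟨W, hW, hWo, hW0⟩ := eventually_nhds_iff.mp h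
  have hV : W ∩ ((L.lattice : Set ℂ) \ {0})ᶜ ∩ ((L'.lattice : Set ℂ) \ {0})ᶜ ∈ 𝓝 (0 : ℂ) :=
    inter_mem (inter_mem (hWo.mem_nhds hW0) (L.compl_lattice_sdiff_singleton_mem_nhds 0))
      (L'.compl_lattice_sdiff_singleton_mem_nhds 0)
  obtain ⟨z₀, hz₀V, hz₀ne⟩ : ∃ z₀ ∈ W ∩ ((L.lattice : Set ℂ) \ {0})ᶜ ∩
      ((L'.lattice : Set ℂ) \ {0})ᶜ, z₀ ≠ 0 := by
    have hne : (𝓝[≠] (0 : ℂ)).NeBot := inferInstance
    have hmem : W ∩ ((L.lattice : Set ℂ) \ {0})ᶜ ∩ ((L'.lattice : Set ℂ) \ {0})ᶜ ∩ {0}ᶜ ∈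
        𝓝[≠] (0 : ℂ) := inter_mem (mem_nhdsWithin_of_mem_nhds hV) self_mem_nhdsWithin
    obtain ⟨z₀, hz₀⟩ := hne.nonempty_of_mem hmem
    exact ⟨z₀, hz₀.1, hz₀.2⟩
  have hz₀U : z₀ ∈ U := by
    rw [hU, Set.mem_compl_iff, Set.mem_union, not_or]
    refine ⟨fun hm => hz₀V.1.2 ⟨hm, hz₀ne⟩, fun hm => hz₀V.2 ⟨hm, hz₀ne⟩⟩
  have hz₀eq : ℘[L] =ᶠ[𝓝 z₀] ℘[L'] := by
    filter_upwards [hWo.mem_nhds hz₀V.1.1] with z hz using hW z hz
  have hEq : Set.EqOn ℘[L] ℘[L'] U :=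
    hf.eqOn_of_preconnected_of_eventuallyEq hg hUconn hz₀U hz₀eq
  -- poles
  intro l hl
  by_contra hl'
  have hord : meromorphicOrderAt ℘[L] l = -2 := L.order_weierstrassP l hl
  have han : AnalyticAt ℂ ℘[L'] l := L'.analyticOnNhd_weierstrassP l hl'
  have hnonneg : 0 ≤ meromorphicOrderAt ℘[L'] l := han.meromorphicOrderAt_nonneg
  have hcongr : ℘[L] =ᶠ[𝓝[≠] l] ℘[L'] := by
    have h1 : ((L.lattice : Set ℂ) \ {l})ᶜ ∩ (L'.lattice : Set ℂ)ᶜ ∈ 𝓝 l :=
      inter_mem (L.compl_lattice_sdiff_singleton_mem_nhds l)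
        (L'.isClosed_lattice.isOpen_compl.mem_nhds hl')
    filter_upwards [mem_nhdsWithin_of_mem_nhds h1, self_mem_nhdsWithin] with z hz hzne
    apply hEq
    rw [hU, Set.mem_compl_iff, Set.mem_union, not_or]
    exact ⟨fun hm => hz.1 ⟨hm, hzne⟩, hz.2⟩
  rw [meromorphicOrderAt_congr hcongr] at hord
  rw [hord] at hnonneg
  exact absurd hnonneg (by decide)

/-- **A lattice is determined by its Eisenstein sums.** -/
theorem jinj_lattice_eq_of_G_eq (L L' : PeriodPair) (h : ∀ n : ℕ, 3 ≤ n → L.G n = L'.G n) :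
    L.lattice = L'.lattice :=
  le_antisymm (jinj_lattice_le_of_eventuallyEq L L' (jinj_weierstrassP_eventuallyEq L L' h))
    (jinj_lattice_le_of_eventuallyEq L' L
      (jinj_weierstrassP_eventuallyEq L' L fun n hn => (h n hn).symm))

/-- `G_n(L) = ∑_{(a,b)} (a ω₁ + b ω₂)⁻ⁿ`. -/
theorem jinj_G_eq_tsum (L : PeriodPair) (n : ℕ) :
    L.G n = ∑' x : ℤ × ℤ, (((x.1 : ℂ) * L.ω₁ + (x.2 : ℂ) * L.ω₂) ^ n)⁻¹ := by
  rw [PeriodPair.G, ← L.latticeEquivProd.symm.toEquiv.tsum_eq]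
  refine tsum_congr fun x => ?_
  have := L.latticeEquiv_symm_apply x
  simp only [LinearEquiv.coe_toEquiv]
  rw [this]

end Fermat.Agent.ES.RC
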