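import Fermat.Agent.S28.ModUnit
import Fermat.Agent.S23.NormPoly
import Fermat.Agent.S23.DfunLemma
import Fermat.Prelude.Def_ModularCurve_X0ModL

/-!
# ESpkg-G1, piece (RC)(i): modular functions for `Γ₀(N)` lie in the formal function field

`IsModFun N f` (`f · Δ ^ m` is a modular form of weight `12 m` for `Γ₀(N)`) implies that the Laurent
expansion `laurentOf f` lies in `ℂ(j, u_N⁻¹)`, `u_N = Δ(q^N)/Δ(q)`:

* `rc_laurentOf_mem_adjoin` : `laurentOf f ∈ ℂ⟮jqModC ℂ, (uS ℂ N)⁻¹⟯`.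

Route: the Lagrange relation of S23 (`normPoly_lagrangeRel`) for `Θ = Δ^N/Δ(N·)`,
`F · D_Θ = ∑_j l_j Θ^(n-1-j)` with level-one coefficients `l_j = Δ^a · P_j(J)`.
-/

set_option autoImplicit false

noncomputable section

namespace Fermat.Agent.ES.RC

open UpperHalfPlane ModularForm Polynomial ModularCurve
open Fermat.Agent.S23 Fermat.Agent.S24 Fermat.Agent.S28
open scoped MatrixGroups ModularForm Manifold

local notation "Δ" => ModularForm.discriminant

/-! ### Generalities on `laurentOf` -/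

theorem rc_isMerInf_of_isMF {N : ℕ} [NeZero N] {κ : ℤ} {f : ℍ → ℂ} (hf : IsMF (G0 N) κ f) :
    IsMerInf f := IsHPB.isMerInf hf.isHPB

theorem rc_isMerInf_of_levelOne {κ : ℤ} {f : ℍ → ℂ} (hf : IsMF 𝒮ℒ κ f) : IsMerInf f :=
  rc_isMerInf_of_isMF (N := 1) hf.of_levelOne

theorem rc_isMerInf_pow {f : ℍ → ℂ} (hf : IsMerInf f) (n : ℕ) : IsMerInf (f ^ n) :=
  merInf.pow_mem (mem_merInf.mpr hf) n

theorem rc_isMerInf_sum {ι : Type*} (s : Finset ι) (F : ι → ℍ → ℂ) (hF : ∀ i ∈ s, IsMerInf (F i)) :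
    IsMerInf (∑ i ∈ s, F i) :=
  merInf.sum_mem hF

theorem rc_laurentOf_sum {ι : Type*} (s : Finset ι) (F : ι → ℍ → ℂ) (hF : ∀ i ∈ s, IsMerInf (F i)) :
    laurentOf (∑ i ∈ s, F i) = ∑ i ∈ s, laurentOf (F i) := by
  classical
  induction s using Finset.induction_on with
  | empty => simpa using laurentOf_zero
  | insert a s ha ih =>
    rw [Finset.sum_insert ha, Finset.sum_insert ha,
      laurentOf_add (hF a (Finset.mem_insert_self a s))
        (rc_isMerInf_sum s F fun i hi => hF i (Finset.mem_insert_of_mem hi)),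
      ih fun i hi => hF i (Finset.mem_insert_of_mem hi)]

/-- evaluation at a point, as an algebra homomorphism on `merInf`. -/
def rc_ev (τ : ℍ) : merInf →ₐ[ℂ] ℂ :=
  (Pi.evalAlgHom ℂ (fun _ : ℍ => ℂ) τ).comp merInf.val

theorem rc_ev_apply (τ : ℍ) (f : merInf) : rc_ev τ f = (f : ℍ → ℂ) τ := rfl

theorem rc_aeval_coe (g : merInf) (P : ℂ[X]) :
    ((Polynomial.aeval g P : merInf) : ℍ → ℂ) = fun τ => P.eval ((g : ℍ → ℂ) τ) := by
  funext τ
  have h := Polynomial.aeval_algHom_apply (rc_ev τ) g P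
  rw [rc_ev_apply, rc_ev_apply] at h
  rw [← h, Polynomial.coe_aeval_eq_eval]

theorem rc_isMerInf_eval {g : ℍ → ℂ} (hg : IsMerInf g) (P : ℂ[X]) :
    IsMerInf (fun τ => P.eval (g τ)) := by
  have h := (Polynomial.aeval (⟨g, hg⟩ : merInf) P).2
  rwa [rc_aeval_coe] at h

/-- `laurentOf (P ∘ g) = P (laurentOf g)` for a polynomial `P`. -/
theorem rc_laurentOf_eval {g : ℍ → ℂ} (hg : IsMerInf g) (P : ℂ[X]) :
    laurentOf (fun τ => P.eval (g τ)) = Polynomial.aeval (laurentOf g) P := by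
  have h := Polynomial.aeval_algHom_apply laurentExp (⟨g, hg⟩ : merInf) P
  rw [laurentExp_apply, laurentExp_apply, rc_aeval_coe] at h
  exact h.symm

/-- The Laurent expansion of a level-one modular form of weight `12 a` is `Δ^a · P(j)`. -/
theorem rc_laurentOf_levelOne (a : ℕ) {κ : ℤ} (hκ : κ = 12 * (a : ℤ)) {h : ℍ → ℂ}
    (hh : IsMF 𝒮ℒ κ h) :
    ∃ P : ℂ[X], laurentOf h = deltaL ^ a * Polynomial.aeval (jqModC ℂ) P := by
  obtain ⟨H, rfl⟩ := hh
  obtain ⟨P, -, hP⟩ := exists_poly_of_modularForm a κ hκ H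
  refine ⟨P, ?_⟩
  have e : (⇑H : ℍ → ℂ) = (Δ : ℍ → ℂ) ^ a * fun τ => P.eval (Jfun τ) := by
    funext τ
    simp only [Pi.mul_apply, Pi.pow_apply]
    exact hP τ
  rw [e, laurentOf_mul (rc_isMerInf_pow isMerInf_discriminant a) (rc_isMerInf_eval isMerInf_Jfun P),
    laurentOf_pow isMerInf_discriminant, laurentOf_discriminant,
    rc_laurentOf_eval isMerInf_Jfun, laurentOf_Jfun]

/-! ### The Lagrange relation on Laurent series -/

/-- pure algebra: collect the powers of `D`. -/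
theorem rc_collect {R : Type*} [CommRing R] (D v : R) (a b n : ℕ) (c x : ℕ → R)
    (hc : ∀ j, c j = D ^ (a + j * b) * x j) :
    ∑ j ∈ Finset.range n, c j * (D ^ b * v) ^ (n - 1 - j) =
      D ^ (a + (n - 1) * b) * ∑ j ∈ Finset.range n, x j * v ^ (n - 1 - j) := by
  rw [Finset.mul_sum]
  refine Finset.sum_congr rfl fun j hj => ?_
  have hjn : j < n := Finset.mem_range.mp hj
  rw [hc j, mul_pow, ← pow_mul]
  have h1 : n - 1 = j + (n - 1 - j) := by omega
  have h2 : a + (n - 1) * b = (a + j * b) + b * (n - 1 - j) := by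
    conv_lhs => rw [h1]
    ring
  rw [h2, pow_add]
  ring

theorem rc_aeval_mem {E : IntermediateField ℂ (LaurentSeries ℂ)} {x : LaurentSeries ℂ}
    (hx : x ∈ E) (P : ℂ[X]) : Polynomial.aeval x P ∈ E := by
  rw [Polynomial.aeval_eq_sum_range]
  refine E.sum_mem fun i _ => ?_
  exact E.smul_mem (pow_mem hx i)

theorem rc_sum_mem {E : IntermediateField ℂ (LaurentSeries ℂ)} {x v : LaurentSeries ℂ}
    (hx : x ∈ E) (hv : v ∈ E) (n : ℕ) (P : ℕ → ℂ[X]) :
    ∑ j ∈ Finset.range n, Polynomial.aeval x (P j) * v ^ (n - 1 - j) ∈ E :=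
  E.sum_mem fun j _ => E.mul_mem (rc_aeval_mem hx (P j)) (pow_mem hv _)

/-- The Laurent expansion of `Θ = Δ^N/Δ(N·)`. -/
theorem rc_laurentOf_thetaFun (N : ℕ) [NeZero N] :
    laurentOf (thetaFun N) = deltaL ^ (N - 1) * (uS ℂ N)⁻¹ := by
  have h := bridge_thetaL_mul N
  rw [← laurentOf_of_isHPB (bridge_isHPB_thetaFun N)] at h
  rw [uS_complex_inv, ← mul_assoc, ← pow_succ,
    Nat.sub_add_cancel (Nat.pos_of_ne_zero (NeZero.ne N)),
    eq_mul_inv_iff_mul_eq₀ (qExpand_deltaL_ne_zero N)]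
  exact h

/-- **(RC)(i), first form**: the Laurent expansion of a modular function for `Γ₀(N)` lies in
`ℂ(j, u_N⁻¹)`, `u_N = Δ(q^N)/Δ(q)`. -/
theorem rc_laurentOf_mem_adjoin (N : ℕ) [NeZero N] {f : ℍ → ℂ} (hf : IsModFun N f) :
    laurentOf f ∈
      IntermediateField.adjoin ℂ ({jqModC ℂ, (uS ℂ N)⁻¹} : Set (LaurentSeries ℂ)) := by
  classical
  set E := IntermediateField.adjoin ℂ ({jqModC ℂ, (uS ℂ N)⁻¹} : Set (LaurentSeries ℂ)) with hE
  have hjE : jqModC ℂ ∈ E := IntermediateField.subset_adjoin ℂ _ (by simp)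
  have hvE : (uS ℂ N)⁻¹ ∈ E := IntermediateField.subset_adjoin ℂ _ (by simp)
  have hfM : IsMerInf f := hf.isMerInf
  obtain ⟨m, F, hF⟩ := hf
  obtain ⟨Θ, hΘ⟩ := isMF_thetaFun N
  have hΘ0 : (qExpansion 1 Θ).coeff 0 = 1 := by rw [hΘ]; exact thetaFun_qExpansion_coeff_zero N
  have hΘz : ∀ γ : SL(2, ℤ), γ ∉ CongruenceSubgroup.Gamma0 N →
      IsZeroAtImInfty ((⇑Θ : ℍ → ℂ) ∣[thetaWeight N] γ) := by
    intro γ hγ
    rw [hΘ]
    exact thetaFun_slash_isZeroAtImInfty N γ hγ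
  have hLag := normPoly_lagrangeRel N (esymm_stmt N)
  obtain ⟨l, hl, hlrel⟩ := hLag (12 * (m : ℤ)) (thetaWeight N) F Θ
  obtain ⟨lam, hlam, hlamrel⟩ := hLag 0 (thetaWeight N) (1 : ModularForm (G0 N) 0) Θ
  set n := cosetCard N with hn
  have hD0 : Dfun Θ ≠ 0 := Dfun_ne_zero Θ hΘ0 hΘz
  have hN1 : 1 ≤ N := Nat.pos_of_ne_zero (NeZero.ne N)
  -- Laurent expansions of the level-one coefficients
  have hlL : ∀ j, ∃ P : ℂ[X],
      laurentOf (l j) = deltaL ^ (m + j * (N - 1)) * Polynomial.aeval (jqModC ℂ) P := fun j =>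
    rc_laurentOf_levelOne (m + j * (N - 1))
      (by unfold thetaWeight; push_cast [Nat.cast_sub hN1]; ring) (hl j)
  have hlamL : ∀ j, ∃ P : ℂ[X],
      laurentOf (lam j) = deltaL ^ (0 + j * (N - 1)) * Polynomial.aeval (jqModC ℂ) P := fun j =>
    rc_laurentOf_levelOne (0 + j * (N - 1))
      (by unfold thetaWeight; push_cast [Nat.cast_sub hN1]; ring) (hlam j)
  choose P hP using hlL
  choose Q hQ using hlamL
  -- the functions
  have hΘM : IsMerInf (thetaFun N) := IsHPB.isMerInf (bridge_isHPB_thetaFun N)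
  have hlM : ∀ j, IsMerInf (l j) := fun j => rc_isMerInf_of_levelOne (hl j)
  have hlamM : ∀ j, IsMerInf (lam j) := fun j => rc_isMerInf_of_levelOne (hlam j)
  have hfun2 : Dfun Θ = ∑ j ∈ Finset.range n, lam j * (thetaFun N) ^ (n - 1 - j) := by
    funext z
    have := hlamrel z
    rw [ModularForm.one_coe_eq_one, Pi.one_apply, one_mul] at this
    rw [this, Finset.sum_apply, hΘ]
    rfl
  have hfun1 : (f * (Δ : ℍ → ℂ) ^ m) * Dfun Θ =
      ∑ j ∈ Finset.range n, l j * (thetaFun N) ^ (n - 1 - j) := by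
    funext z
    have := hlrel z
    rw [hF] at this
    rw [Finset.sum_apply]
    simp only [Pi.mul_apply, Pi.pow_apply]
    rw [this, hΘ]
  have hDM : IsMerInf (Dfun Θ) := by
    rw [hfun2]
    exact rc_isMerInf_sum _ _ fun j _ => (hlamM j).mul (rc_isMerInf_pow hΘM _)
  -- Laurent side
  have hL2 : laurentOf (Dfun Θ) = deltaL ^ (0 + (n - 1) * (N - 1)) *
      ∑ j ∈ Finset.range n, Polynomial.aeval (jqModC ℂ) (Q j) * ((uS ℂ N)⁻¹) ^ (n - 1 - j) := by
    rw [hfun2, rc_laurentOf_sum _ _ fun j _ => (hlamM j).mul (rc_isMerInf_pow hΘM _)]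
    rw [← rc_collect deltaL ((uS ℂ N)⁻¹) 0 (N - 1) n (fun j => laurentOf (lam j)) _ hQ]
    refine Finset.sum_congr rfl fun j _ => ?_
    rw [laurentOf_mul (hlamM j) (rc_isMerInf_pow hΘM _), laurentOf_pow hΘM,
      rc_laurentOf_thetaFun]
  have hL1 : laurentOf ((f * (Δ : ℍ → ℂ) ^ m) * Dfun Θ) = deltaL ^ (m + (n - 1) * (N - 1)) *
      ∑ j ∈ Finset.range n, Polynomial.aeval (jqModC ℂ) (P j) * ((uS ℂ N)⁻¹) ^ (n - 1 - j) := by
    rw [hfun1, rc_laurentOf_sum _ _ fun j _ => (hlM j).mul (rc_isMerInf_pow hΘM _)]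
    rw [← rc_collect deltaL ((uS ℂ N)⁻¹) m (N - 1) n (fun j => laurentOf (l j)) _ hP]
    refine Finset.sum_congr rfl fun j _ => ?_
    rw [laurentOf_mul (hlM j) (rc_isMerInf_pow hΘM _), laurentOf_pow hΘM,
      rc_laurentOf_thetaFun]
  set A := ∑ j ∈ Finset.range n, Polynomial.aeval (jqModC ℂ) (Q j) * ((uS ℂ N)⁻¹) ^ (n - 1 - j)
    with hA
  set B := ∑ j ∈ Finset.range n, Polynomial.aeval (jqModC ℂ) (P j) * ((uS ℂ N)⁻¹) ^ (n - 1 - j)
    with hB
  have hAE : A ∈ E := rc_sum_mem hjE hvE n Q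
  have hBE : B ∈ E := rc_sum_mem hjE hvE n P
  have hΔm : IsMerInf ((Δ : ℍ → ℂ) ^ m) := rc_isMerInf_pow isMerInf_discriminant m
  have hA0 : A ≠ 0 := by
    intro h0
    apply hD0
    rw [← laurentOf_eq_zero_iff hDM, hL2, h0, mul_zero]
  have key : laurentOf f * A = B := by
    have h1 := hL1
    rw [laurentOf_mul (hfM.mul hΔm) hDM, laurentOf_mul hfM hΔm,
      laurentOf_pow isMerInf_discriminant, laurentOf_discriminant, hL2, zero_add, pow_add] at h1
    have hDc : deltaL ^ m * deltaL ^ ((n - 1) * (N - 1)) ≠ 0 :=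
      mul_ne_zero (pow_ne_zero _ deltaL_ne_zero) (pow_ne_zero _ deltaL_ne_zero)
    apply mul_left_cancel₀ hDc
    rw [← h1]
    ring
  have : laurentOf f = B * A⁻¹ := by
    rw [eq_mul_inv_iff_mul_eq₀ hA0]
    exact key
  rw [this]
  exact E.mul_mem hBE (E.inv_mem hAE)

end Fermat.Agent.ES.RC
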