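import Fermat.Agent.ES.RC.PlacePt

/-!
# ESpkg-G1 (RC)(ii), piece P-all, algebraic part

`F` a fraction field of `A = modFunAlg M`, `J = jMod M ∈ A`.
* `aeval_jMod_apply`, `aeval_jMod_ne_zero`, `transcendental_jF`;
* `rc_isRoot_normPoly` : every `b ∈ A` is a root of a monic polynomial of degree
  `cosetCard M` over `ℂ[J]`;
* `rc_exists_frac_poly` : every `x ∈ F` is `a / d(J)`, `a ∈ A`, `0 ≠ d ∈ ℂ[X]`;
* `rc_finiteDimensional` : `F` is finite over `ℂ(J)`.
-/

set_option autoImplicit false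
set_option linter.style.haveILetI false

noncomputable section

namespace Fermat.Agent.ES.RC

open UpperHalfPlane AlgebraicCurve ModularForm Polynomial IntermediateField Module
open Fermat.Agent.S23 Fermat.Agent.S24 Fermat.Agent.S28
open scoped MatrixGroups Manifold ModularForm

/-- An algebraic extension of bounded degree in characteristic zero is finite. -/
theorem rc_finiteDimensional_of_natDegree_le {K L : Type*} [Field K] [Field L] [Algebra K L]
    [CharZero K] (n : ℕ) (h : ∀ x : L, IsIntegral K x ∧ (minpoly K x).natDegree ≤ n) :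
    FiniteDimensional K L := by
  classical
  haveI : Algebra.IsAlgebraic K L := ⟨fun x => (h x).1.isAlgebraic⟩
  haveI : Algebra.IsSeparable K L := inferInstance
  obtain ⟨x, hx⟩ : ∃ x : L, ∀ y : L, (minpoly K y).natDegree ≤ (minpoly K x).natDegree := by
    by_contra hcon
    push Not at hcon
    have key : ∀ k : ℕ, ∃ y : L, k ≤ (minpoly K y).natDegree := by
      intro k
      induction k with
      | zero => exact ⟨0, Nat.zero_le _⟩
      | succ k ih =>
        obtain ⟨y, hy⟩ := ih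
        obtain ⟨z, hz⟩ := hcon y
        exact ⟨z, by omega⟩
    obtain ⟨y, hy⟩ := key (n + 1)
    have := (h y).2
    omega
  have htop : K⟮x⟯ = ⊤ := by
    rw [eq_top_iff]
    intro y _
    obtain ⟨z, hz⟩ := Field.primitive_element_inf_aux K x y
    have h1 : K⟮x⟯ ≤ K⟮z⟯ := by
      rw [← hz, adjoin_simple_le_iff]
      exact subset_adjoin K _ (by simp)
    haveI : FiniteDimensional K K⟮z⟯ := adjoin.finiteDimensional (h z).1
    have h2 : finrank K K⟮z⟯ ≤ finrank K K⟮x⟯ := by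
      rw [adjoin.finrank (h z).1, adjoin.finrank (h x).1]
      exact hx z
    have h3 : K⟮x⟯ = K⟮z⟯ := IntermediateField.eq_of_le_of_finrank_le h1 h2
    rw [h3, ← hz]
    exact subset_adjoin K _ (by simp)
  haveI : FiniteDimensional K K⟮x⟯ := adjoin.finiteDimensional (h x).1
  have h4 : FiniteDimensional K (⊤ : IntermediateField K L) := htop ▸ this
  exact (IntermediateField.topEquiv (F := K) (E := L)).toLinearEquiv.finiteDimensional

variable (M : ℕ) [NeZero M]

/-- `J` as an element of `modFunAlg M`. -/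
def jMod : modFunAlg M := ⟨Jfun, isModFun_Jfun M⟩

theorem jMod_coe : ((jMod M : modFunAlg M) : ℍ → ℂ) = Jfun := rfl

/-- Evaluation at a point of `ℍ`. -/
def evPt (τ : ℍ) : modFunAlg M →ₐ[ℂ] ℂ :=
  (Pi.evalAlgHom ℂ (fun _ : ℍ => ℂ) τ).comp (modFunAlg M).val

theorem evPt_apply (τ : ℍ) (f : modFunAlg M) : evPt M τ f = (f : ℍ → ℂ) τ := rfl

theorem aeval_jMod_apply (P : ℂ[X]) (τ : ℍ) :
    ((aeval (jMod M) P : modFunAlg M) : ℍ → ℂ) τ = P.eval (Jfun τ) := by
  have h := Polynomial.aeval_algHom_apply (evPt M τ) (jMod M) P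
  rw [evPt_apply, evPt_apply] at h
  rw [← h, Polynomial.coe_aeval_eq_eval]
  rfl

theorem aeval_jMod_ne_zero {P : ℂ[X]} (hP : P ≠ 0) : aeval (jMod M) P ≠ 0 := by
  intro h
  apply hP
  refine Polynomial.funext fun c => ?_
  obtain ⟨τ, hτ⟩ := Jfun_surjective c
  have h1 := congrFun (congrArg Subtype.val h) τ
  rw [aeval_jMod_apply, hτ] at h1
  rw [h1, Polynomial.eval_zero]
  rfl

/-- The `ℂ[X]`-algebra structure `P ↦ P(J)` on `modFunAlg M` (not an instance). -/
@[reducible] def polyAlg : Algebra ℂ[X] (modFunAlg M) := (aeval (jMod M)).toRingHom.toAlgebra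

theorem polyAlg_algebraMap (P : ℂ[X]) :
    letI := polyAlg M
    algebraMap ℂ[X] (modFunAlg M) P = aeval (jMod M) P := rfl

/-- Every modular function is a root of a monic polynomial of degree `cosetCard M` over `ℂ[J]`. -/
theorem rc_isRoot_normPoly (b : modFunAlg M) :
    ∃ Φ : (ℂ[X])[X], Φ.Monic ∧ Φ.natDegree = cosetCard M ∧
      Φ.eval₂ (aeval (jMod M)).toRingHom b = 0 := by
  obtain ⟨Φ, hmon, hdeg, hroot⟩ := IsModFun.exists_normPoly (N := M) b.2
  refine ⟨Φ, hmon, hdeg, ?_⟩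
  apply Subtype.ext
  funext τ
  have h1 : ((Φ.eval₂ (aeval (jMod M)).toRingHom b : modFunAlg M) : ℍ → ℂ) τ
      = evPt M τ (Φ.eval₂ (aeval (jMod M)).toRingHom b) := rfl
  rw [h1, ← AlgHom.coe_toRingHom (evPt M τ), Polynomial.hom_eval₂]
  have h2 : (((evPt M τ : modFunAlg M →ₐ[ℂ] ℂ) : modFunAlg M →+* ℂ).comp
      (aeval (jMod M)).toRingHom) = evalRingHom (Jfun τ) := by
    apply Polynomial.ringHom_ext
    · intro a
      simp
    · simp [evPt_apply, jMod_coe]
  rw [h2]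
  exact hroot τ

section Field

variable (F : Type*) [Field F] [Algebra ℂ F] [Algebra (modFunAlg M) F]
  [IsScalarTower ℂ (modFunAlg M) F] [IsFractionRing (modFunAlg M) F]

/-- `J` as an element of `F`. -/
def jF : F := algebraMap (modFunAlg M) F (jMod M)

theorem aeval_jF (P : ℂ[X]) : aeval (jF M F) P = algebraMap (modFunAlg M) F (aeval (jMod M) P) := by
  have h := Polynomial.aeval_algHom_apply (IsScalarTower.toAlgHom ℂ (modFunAlg M) F) (jMod M) P
  simpa [jF] using h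

theorem transcendental_jF : Transcendental ℂ (jF M F) := by
  rw [Transcendental, IsAlgebraic]
  push Not
  intro P hP h
  rw [aeval_jF] at h
  exact rc_algebraMap_ne_zero F (aeval_jMod_ne_zero M hP) h

/-- Every element of `F` is `a / d(J)`. -/
theorem rc_exists_frac_poly (x : F) :
    ∃ (a : modFunAlg M) (d : ℂ[X]), d ≠ 0 ∧
      x * algebraMap (modFunAlg M) F (aeval (jMod M) d) = algebraMap (modFunAlg M) F a := by
  letI := polyAlg M
  obtain ⟨a₀, b₀, hb₀, rfl⟩ := IsFractionRing.div_surjective (A := modFunAlg M) x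
  have hb0 : b₀ ≠ 0 := nonZeroDivisors.ne_zero hb₀
  have halg : IsAlgebraic ℂ[X] b₀ := by
    obtain ⟨Φ, hmon, -, hroot⟩ := rc_isRoot_normPoly M b₀
    exact ⟨Φ, hmon.ne_zero, hroot⟩
  obtain ⟨c, d, hd, h⟩ := halg.exists_smul_eq_mul a₀ hb₀
  refine ⟨c, d, hd, ?_⟩
  rw [Algebra.smul_def, polyAlg_algebraMap] at h
  have hb' : algebraMap (modFunAlg M) F b₀ ≠ 0 := rc_algebraMap_ne_zero F hb0
  rw [div_mul_eq_mul_div, div_eq_iff hb', ← map_mul, ← map_mul, mul_comm a₀, h, mul_comm]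

/-- Every element of `F` is algebraic over `ℂ(J)` of degree at most `cosetCard M`. -/
theorem rc_isIntegral_natDegree_le (x : F) :
    IsIntegral ℂ⟮jF M F⟯ x ∧ (minpoly ℂ⟮jF M F⟯ x).natDegree ≤ cosetCard M := by
  obtain ⟨a, d, hd, hx⟩ := rc_exists_frac_poly M F x
  obtain ⟨Φ, hmon, hdeg, hroot⟩ := rc_isRoot_normPoly M a
  -- the coefficient map `ℂ[X] → ℂ(J)`
  let ρ : ℂ[X] →+* ℂ⟮jF M F⟯ :=
    ((aeval (⟨jF M F, mem_adjoin_simple_self ℂ _⟩ : ℂ⟮jF M F⟯)) : ℂ[X] →ₐ[ℂ] ℂ⟮jF M F⟯).toRingHom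
  have hρ : ∀ P : ℂ[X], ((ρ P : ℂ⟮jF M F⟯) : F) = algebraMap (modFunAlg M) F (aeval (jMod M) P) := by
    intro P
    have h := Polynomial.aeval_algHom_apply (ℂ⟮jF M F⟯.val)
      (⟨jF M F, mem_adjoin_simple_self ℂ _⟩ : ℂ⟮jF M F⟯) P
    rw [← aeval_jF]
    exact h.symm
  have hcomp : (algebraMap ℂ⟮jF M F⟯ F).comp ρ =
      (algebraMap (modFunAlg M) F).comp (aeval (jMod M)).toRingHom := by
    ext P
    · simp [ρ, ← IsScalarTower.algebraMap_apply]
    · simp only [RingHom.coe_comp, Function.comp_apply]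
      exact hρ X
  -- `a` is integral of degree `≤ n`
  have haroot : (Φ.map ρ).eval₂ (algebraMap ℂ⟮jF M F⟯ F) (algebraMap (modFunAlg M) F a) = 0 := by
    rw [Polynomial.eval₂_map, hcomp, ← Polynomial.hom_eval₂, hroot, map_zero]
  have hmon' : (Φ.map ρ).Monic := hmon.map ρ
  have haint : IsIntegral ℂ⟮jF M F⟯ (algebraMap (modFunAlg M) F a) := ⟨Φ.map ρ, hmon', haroot⟩
  have hadeg : (minpoly ℂ⟮jF M F⟯ (algebraMap (modFunAlg M) F a)).natDegree ≤ cosetCard M := by
    have h1 := Polynomial.natDegree_le_of_dvd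
      (minpoly.dvd ℂ⟮jF M F⟯ (algebraMap (modFunAlg M) F a) haroot) hmon'.ne_zero
    rw [hmon.natDegree_map] at h1
    rw [← hdeg]
    exact h1
  -- `x ∈ ℂ(J)(a)`
  have hdne : algebraMap (modFunAlg M) F (aeval (jMod M) d) ≠ 0 :=
    rc_algebraMap_ne_zero F (aeval_jMod_ne_zero M hd)
  have hxa : x = algebraMap (modFunAlg M) F a * (algebraMap ℂ⟮jF M F⟯ F (ρ d))⁻¹ := by
    have : algebraMap ℂ⟮jF M F⟯ F (ρ d) = algebraMap (modFunAlg M) F (aeval (jMod M) d) := hρ d
    rw [this, ← hx, mul_assoc, mul_inv_cancel₀ hdne, mul_one]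
  have hxint : IsIntegral ℂ⟮jF M F⟯ x := by
    rw [hxa]
    exact haint.mul (isIntegral_algebraMap.inv)
  refine ⟨hxint, ?_⟩
  have hle : ℂ⟮jF M F⟯⟮x⟯ ≤ ℂ⟮jF M F⟯⟮algebraMap (modFunAlg M) F a⟯ := by
    rw [adjoin_simple_le_iff, hxa]
    refine mul_mem (mem_adjoin_simple_self _ _) (inv_mem ?_)
    exact IntermediateField.algebraMap_mem _ _
  haveI : FiniteDimensional ℂ⟮jF M F⟯ ℂ⟮jF M F⟯⟮algebraMap (modFunAlg M) F a⟯ :=
    adjoin.finiteDimensional haint
  have h2 := IntermediateField.finrank_le_of_le_right hle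
  rw [adjoin.finrank hxint, adjoin.finrank haint] at h2
  exact h2.trans hadeg

instance rc_finiteDimensional : FiniteDimensional ℂ⟮jF M F⟯ F :=
  rc_finiteDimensional_of_natDegree_le (cosetCard M) (rc_isIntegral_natDegree_le M F)

theorem rc_isAlgebraic : Algebra.IsAlgebraic ℂ⟮jF M F⟯ F := inferInstance

end Field

end Fermat.Agent.ES.RC
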