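import Fermat.Agent.ES.RC.PlaceAllAlg

/-!
# ESpkg-G1 (RC)(ii), piece P-all: symmetric functions of the conjugates of a modular function

For `a ∈ modFunAlg M` there are representatives `g q ∈ SL(2,ℤ)` (`q ∈ SL(2,ℤ)/Γ₀(M)`) and
polynomials `P j` with `P j (J) = e_j (a ∘ g q)_q`, `P 0 = 1` and
`Σ_j (-1)^j P_j(J) a^(n-j) = 0`  (`rc_conj_core`).  Consequently, if all conjugates vanish to
order `≥ k` at `τ₁`, then `P j (J)` vanishes to order `≥ j k` at `τ₁` (`rc_conj_ordAt`).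
-/

set_option autoImplicit false
set_option linter.style.haveILetI false
set_option linter.unusedSectionVars false

noncomputable section

namespace Fermat.Agent.ES.RC

open UpperHalfPlane AlgebraicCurve ModularForm Polynomial SlashInvariantForm
open Fermat.Agent.S23 Fermat.Agent.S24 Fermat.Agent.S28
open scoped MatrixGroups Manifold ModularForm

local notation "Δ" => ModularForm.discriminant

/-- The weight `12 m` slash of `f · Δ ^ m` by `γ ∈ SL(2,ℤ)` is `(f ∘ γ) · Δ ^ m`. -/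
theorem rc_slash_mul_disc (f : ℍ → ℂ) (m : ℕ) (γ : SL(2, ℤ)) (τ : ℍ) :
    ((fun z => f z * Δ z ^ m) ∣[(12 * m : ℤ)] γ) τ = f (γ • τ) * Δ τ ^ m := by
  rw [SL_slash_apply]
  have hγ : (γ : GL (Fin 2) ℝ) ∈ 𝒮ℒ := ⟨γ, rfl⟩
  have h := SlashInvariantForm.slash_action_eqn'' CuspForm.discriminant hγ τ
  have hd : denom (γ : GL (Fin 2) ℝ) τ ≠ 0 := denom_ne_zero _ _
  have h' : Δ (γ • τ) = denom (γ : GL (Fin 2) ℝ) τ ^ (12 : ℤ) * Δ τ := h
  rw [h', mul_pow, ← zpow_natCast (denom (γ : GL (Fin 2) ℝ) τ ^ (12 : ℤ)) m, ← zpow_mul, zpow_neg]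
  field_simp

variable {M : ℕ} [NeZero M]

/-- The translates of `a · Δ ^ m` are the `(a ∘ γ) · Δ ^ m`. -/
theorem rc_quotientFunc {a : ℍ → ℂ} {m : ℕ} (G : ModularForm (G0 M) (12 * (m : ℤ)))
    (hG : (⇑G : ℍ → ℂ) = fun z => a z * Δ z ^ m) (q : Coset M) :
    ∃ γ : SL(2, ℤ), ∀ τ : ℍ, quotientFunc G q τ = a (γ • τ) * Δ τ ^ m := by
  induction q using Quotient.inductionOn with
  | h r =>
    obtain ⟨r, γ, rfl⟩ := r
    refine ⟨γ⁻¹, fun τ => ?_⟩
    have h1 : quotientFunc G (⟦⟨Matrix.SpecialLinearGroup.mapGL ℝ γ, ⟨γ, rfl⟩⟩⟧ : Coset M)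
        = (G : ℍ → ℂ) ∣[(12 * (m : ℤ))] (Matrix.SpecialLinearGroup.mapGL ℝ γ)⁻¹ :=
      quotientFunc_mk G _
    rw [h1, hG]
    have h2 : (Matrix.SpecialLinearGroup.mapGL ℝ γ)⁻¹ = ((γ⁻¹ : SL(2, ℤ)) : GL (Fin 2) ℝ) := by
      rw [← map_inv]; rfl
    rw [h2, ← ModularForm.SL_slash]
    exact rc_slash_mul_disc a m γ⁻¹ τ

variable (M)

open scoped Classical in
/-- **Conjugates.** -/
theorem rc_conj_core (a : modFunAlg M) :
    ∃ (g : Coset M → SL(2, ℤ)) (P : ℕ → ℂ[X]), P 0 = 1 ∧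
      (∀ τ : ℍ, ∑ j ∈ Finset.range (cosetCard M + 1),
        (-1 : ℂ) ^ j * (P j).eval (Jfun τ) * (a : ℍ → ℂ) τ ^ (cosetCard M - j) = 0) ∧
      ∀ (j : ℕ) (τ : ℍ), (P j).eval (Jfun τ) =
        ∑ S ∈ Finset.powersetCard j (cosetFinset M), ∏ q ∈ S, (a : ℍ → ℂ) (g q • τ) := by
  obtain ⟨m, G, hG⟩ := a.2
  choose P hPdeg hP using normPoly_coeff_exists m G
  have hP0 : P 0 = 1 := normPoly_coeff_zero m G (P 0) (hPdeg 0) (hP 0)
  choose g hg using rc_quotientFunc G hG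
  refine ⟨g, P, hP0, fun τ => ?_, fun j τ => ?_⟩
  · have h := normPoly_relation m G P hP τ
    have hGτ : G τ = (a : ℍ → ℂ) τ * Δ τ ^ m := congrFun hG τ
    rwa [hGτ, mul_div_assoc, div_self (pow_ne_zero m (discriminant_ne_zero τ)), mul_one] at h
  · have h := hP j τ
    have hΔ : Δ τ ^ (m * j) ≠ 0 := pow_ne_zero _ (discriminant_ne_zero τ)
    have h2 : (∑ S ∈ Finset.powersetCard j (cosetFinset M), ∏ q ∈ S, quotientFunc G q τ)
        = Δ τ ^ (m * j) * ∑ S ∈ Finset.powersetCard j (cosetFinset M),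
            ∏ q ∈ S, (a : ℍ → ℂ) (g q • τ) := by
      rw [Finset.mul_sum]
      refine Finset.sum_congr rfl fun S hS => ?_
      have hcard : S.card = j := (Finset.mem_powersetCard.mp hS).2
      rw [Finset.prod_congr rfl fun q _ => hg q τ, Finset.prod_mul_distrib, Finset.prod_const,
        hcard, ← pow_mul, mul_comm]
    rw [h2] at h
    exact (mul_left_cancel₀ hΔ h).symm

end Fermat.Agent.ES.RC
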