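import Fermat.Agent.ES.RC.PlaceAllPt
import Fermat.Agent.ES.RC.CuspExact

/-!
# ESpkg-G1 (RC)(ii), piece P-all, the places at the cusps

`rc_place_cusp_of_ord_neg` : a place `v` of `F = Frac (modFunAlg M)` at which `J` has a pole is
the place at a cusp `g∞`.

Proof (mirror of `rc_place_pt_of_ord_nonneg` with `x = 1 / J`): if `v` is none of the places at
the cusps, weak approximation gives `h` with a pole at `v`, regular at the cusps; `h = a / d(J)`;
the conjugates of `a` have poles of order `≤ δ M` in `q_M` at `i∞` (`δ = deg d`), so the `j`-th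
coefficient of the norm polynomial of `a` is a polynomial in `J` of degree `≤ j δ`, and
`a / J ^ δ` is integral over `O_v`: contradiction.
-/

set_option autoImplicit false
set_option linter.style.haveILetI false
set_option linter.unusedSectionVars false

noncomputable section

namespace Fermat.Agent.ES.RC

open UpperHalfPlane AlgebraicCurve ModularForm Polynomial IntermediateField
open Fermat.Agent.S23 Fermat.Agent.S24 Fermat.Agent.S28
open scoped MatrixGroups Manifold ModularForm

/-! ### Generalities -/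

/-- `P(z) = (reflect N P)(1/z) · z ^ N` for `deg P ≤ N`. -/
theorem rc_aeval_eq_reflect {F : Type*} [Field F] [Algebra ℂ F] {z : F} (hz : z ≠ 0) (N : ℕ)
    (P : ℂ[X]) (hP : P.natDegree ≤ N) :
    aeval z P = aeval z⁻¹ (P.reflect N) * z ^ N := by
  letI := invertibleOfNonzero hz
  have h := Polynomial.eval₂_reflect_mul_pow (algebraMap ℂ F) z N P hP
  rw [invOf_eq_inv] at h
  rw [Polynomial.aeval_def, Polynomial.aeval_def, h]

/-- The order of `P(z)` at a pole of `z`. -/
theorem rc_place_ord_aeval_pole {F : Type*} [Field F] [Algebra ℂ F] (u : Place ℂ F) {z : F}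
    (hz0 : z ≠ 0) (hz : u.ord z < 0) (P : ℂ[X]) (hP : P ≠ 0) :
    aeval z P ≠ 0 ∧ u.ord (aeval z P) = (P.natDegree : ℤ) * u.ord z := by
  have hzi : 0 < u.ord z⁻¹ := by
    rw [u.ord_inv]
    omega
  have hc : (P.reverse).coeff 0 ≠ 0 := by
    rw [Polynomial.coeff_zero_reverse]
    exact Polynomial.leadingCoeff_ne_zero.mpr hP
  obtain ⟨h1, h2⟩ := place_ord_aeval_of_coeff_zero_ne u hzi P.reverse hc
  have h3 : aeval z P = aeval z⁻¹ P.reverse * z ^ P.natDegree :=
    rc_aeval_eq_reflect hz0 P.natDegree P le_rfl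
  refine ⟨?_, ?_⟩
  · rw [h3]
    exact mul_ne_zero h1 (pow_ne_zero _ hz0)
  · rw [h3, u.ord_mul h1 (pow_ne_zero _ hz0), h2, place_ord_pow, zero_add]

theorem rc_le_merOrd_sum {ι : Type*} (s : Finset ι) (f : ι → ℂ → ℂ)
    (hf : ∀ i ∈ s, MeromorphicAt (f i) 0) (c : WithTop ℤ)
    (h : ∀ i ∈ s, c ≤ meromorphicOrderAt (f i) 0) :
    MeromorphicAt (fun z => ∑ i ∈ s, f i z) 0 ∧
      c ≤ meromorphicOrderAt (fun z => ∑ i ∈ s, f i z) 0 := by
  classical
  induction s using Finset.induction_on with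
  | empty =>
    refine ⟨by simp, ?_⟩
    have h0 : meromorphicOrderAt (fun z : ℂ => ∑ i ∈ (∅ : Finset ι), f i z) 0 = ⊤ := by
      rw [meromorphicOrderAt_eq_top_iff]
      exact Filter.Eventually.of_forall fun z => by simp
    rw [h0]
    exact le_top
  | insert a s ha ih =>
    obtain ⟨ih1, ih2⟩ := ih (fun i hi => hf i (Finset.mem_insert_of_mem hi))
      (fun i hi => h i (Finset.mem_insert_of_mem hi))
    have h1 : (fun z => ∑ i ∈ insert a s, f i z) = f a + fun z => ∑ i ∈ s, f i z := by
      funext z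
      simp [Finset.sum_insert ha]
    rw [h1]
    have hfa := hf a (Finset.mem_insert_self a s)
    refine ⟨hfa.add ih1, le_trans ?_ (meromorphicOrderAt_add hfa ih1)⟩
    exact le_min (h a (Finset.mem_insert_self a s)) ih2

theorem rc_le_merOrd_prod {ι : Type*} (s : Finset ι) (f : ι → ℂ → ℂ)
    (hf : ∀ i ∈ s, MeromorphicAt (f i) 0) (k : ℤ)
    (h : ∀ i ∈ s, (k : WithTop ℤ) ≤ meromorphicOrderAt (f i) 0) :
    MeromorphicAt (fun z => ∏ i ∈ s, f i z) 0 ∧
      (((s.card : ℤ) * k : ℤ) : WithTop ℤ) ≤ meromorphicOrderAt (fun z => ∏ i ∈ s, f i z) 0 := by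
  classical
  induction s using Finset.induction_on with
  | empty =>
    refine ⟨by simp, ?_⟩
    have h0 : meromorphicOrderAt (fun z : ℂ => ∏ i ∈ (∅ : Finset ι), f i z) 0 = 0 := by
      simp only [Finset.prod_empty]
      rw [meromorphicOrderAt_const]
      simp
    rw [h0]
    simp
  | insert a s ha ih =>
    obtain ⟨ih1, ih2⟩ := ih (fun i hi => hf i (Finset.mem_insert_of_mem hi))
      (fun i hi => h i (Finset.mem_insert_of_mem hi))
    have h1 : (fun z => ∏ i ∈ insert a s, f i z) = f a * fun z => ∏ i ∈ s, f i z := by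
      funext z
      simp [Finset.prod_insert ha]
    rw [h1]
    have hfa := hf a (Finset.mem_insert_self a s)
    refine ⟨hfa.mul ih1, ?_⟩
    rw [meromorphicOrderAt_mul hfa ih1, Finset.card_insert_of_notMem ha]
    have h2 := h a (Finset.mem_insert_self a s)
    calc ((((s.card + 1 : ℕ) : ℤ) * k : ℤ) : WithTop ℤ)
        = (k : WithTop ℤ) + (((s.card : ℤ) * k : ℤ) : WithTop ℤ) := by
          rw [← WithTop.coe_add]
          congr 1
          push_cast
          ring
      _ ≤ _ := add_le_add h2 ih2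

variable (M : ℕ) [NeZero M]

/-- `M` is a period of every cusp of `Γ₀(M)`. -/
theorem rc_isCuspPeriod_level (g : SL(2, ℤ)) : IsCuspPeriod M M g := by
  refine ⟨Nat.pos_of_ne_zero (NeZero.ne M), ?_⟩
  rw [CongruenceSubgroup.Gamma0_mem, rc_conj_T_pow_apply]
  push_cast
  simp

section Field

variable (F : Type*) [Field F] [Algebra ℂ F] [Algebra (modFunAlg M) F]
  [IsScalarTower ℂ (modFunAlg M) F] [IsFractionRing (modFunAlg M) F]

theorem algebraMap_jSub_zero : algebraMap (modFunAlg M) F (jSub M 0) = jF M F := by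
  rw [algebraMap_jSub, map_zero, sub_zero]

/-- **Places at which `J` has a pole are cusps.** -/
theorem rc_place_cusp_of_ord_neg (v : Place ℂ F) (hv : v.ord (jF M F) < 0) :
    ∃ (g : SL(2, ℤ)) (h e : ℕ), IsCuspPeriod M h g ∧ 0 < e ∧ ∀ f : modFunAlg M, f ≠ 0 →
      ordCusp h g (f : ℍ → ℂ) = (e : ℤ) * v.ord (algebraMap (modFunAlg M) F f) := by
  classical
  have hMpos : 0 < M := Nat.pos_of_ne_zero (NeZero.ne M)
  have htr := transcendental_jF M F
  have hj0 : jF M F ≠ 0 := by
    intro h0
    apply htr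
    rw [h0]
    exact isAlgebraic_zero
  set x : F := (jF M F)⁻¹ with hx
  have hx0 : x ≠ 0 := inv_ne_zero hj0
  have hxj : jF M F * x = 1 := mul_inv_cancel₀ hj0
  have hvx : 0 < v.ord x := by
    rw [hx, v.ord_inv]
    omega
  have hper : ∀ g : SL(2, ℤ), IsCuspPeriod M M g := rc_isCuspPeriod_level M
  by_contra hcon
  push Not at hcon
  -- the places at the cusps
  have hcp : ∀ g : SL(2, ℤ), ∃ (w : Place ℂ F) (e : ℕ), 0 < e ∧
      w.toValuationSubring = (valCusp M F (hper g)).valuationSubring ∧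
      ∀ f : modFunAlg M, f ≠ 0 →
        ordCusp M g (f : ℍ → ℂ) = (e : ℤ) * w.ord (algebraMap (modFunAlg M) F f) :=
    fun g => exists_place_cusp M F (hper g)
  have hvne : ∀ (g : SL(2, ℤ)) (w : Place ℂ F),
      w.toValuationSubring = (valCusp M F (hper g)).valuationSubring → w ≠ v := by
    rintro g w hw rfl
    obtain ⟨w', e, he, hw', hord⟩ := hcp g
    have hww : w' = w := Place.ext (hw'.trans hw.symm)
    subst hww
    obtain ⟨f, hf, hne⟩ := hcon g M e (hper g) he
    exact hne (hord f hf)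
  -- the order of `J` at the cusps
  have hJcusp : ∀ g : SL(2, ℤ), ordCusp M g ((jMod M : modFunAlg M) : ℍ → ℂ) = -(M : ℤ) :=
    fun g => ordCusp_Jfun hMpos g
  have hjM0 : jMod M ≠ 0 := jElt_ne_zero M
  have hwj : ∀ (g : SL(2, ℤ)) (w : Place ℂ F) (e : ℕ), 0 < e →
      (∀ f : modFunAlg M, f ≠ 0 →
        ordCusp M g (f : ℍ → ℂ) = (e : ℤ) * w.ord (algebraMap (modFunAlg M) F f)) →
      w.ord (jF M F) < 0 := by
    intro g w e he hord
    have h1 := hord (jMod M) hjM0
    rw [hJcusp g] at h1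
    have he' : (0 : ℤ) < e := by exact_mod_cast he
    have hM' : (0 : ℤ) < M := by exact_mod_cast hMpos
    by_contra hge
    push Not at hge
    have : 0 ≤ (e : ℤ) * w.ord (algebraMap (modFunAlg M) F (jMod M)) := mul_nonneg he'.le hge
    omega
  -- transcendence and finiteness over `ℂ(x)`
  have hKeq : ℂ⟮x⟯ = ℂ⟮jF M F⟯ := by
    apply le_antisymm
    · rw [adjoin_simple_le_iff, hx]
      exact inv_mem (mem_adjoin_simple_self ℂ _)
    · rw [adjoin_simple_le_iff]
      have : jF M F = x⁻¹ := by rw [hx, inv_inv]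
      rw [this]
      exact inv_mem (mem_adjoin_simple_self ℂ _)
  have hxtr : Transcendental ℂ x := by
    intro halg
    apply htr
    have : jF M F = x⁻¹ := by rw [hx, inv_inv]
    rw [this]
    exact halg.inv
  haveI hfd : FiniteDimensional ℂ⟮x⟯ F := hKeq ▸ rc_finiteDimensional M F
  obtain ⟨V, hV, -⟩ := sum_ord_eq_finrank x hxtr
  set S : Finset (Place ℂ F) :=
    V.filter (fun u => ∃ g : SL(2, ℤ),
      u.toValuationSubring = (valCusp M F (hper g)).valuationSubring) with hS
  have hvS : v ∉ S := by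
    intro hmem
    obtain ⟨g, hg⟩ := (Finset.mem_filter.mp hmem).2
    exact hvne g v hg rfl
  obtain ⟨h, hvh, hSh⟩ := exists_ord_neg x hxtr v S hvx hvS
    (fun u hu => (hV u).mp (Finset.mem_filter.mp hu).1)
  have hh0 : h ≠ 0 := by
    rintro rfl
    simp at hvh
  -- `h = a / d(J)`
  obtain ⟨a, d, hd, hha⟩ := rc_exists_frac_poly M F h
  rw [← aeval_jF] at hha
  set δ : ℕ := d.natDegree with hδ
  have ha0 : a ≠ 0 := by
    rintro rfl
    rw [map_zero] at hha
    have hdne : aeval (jF M F) d ≠ 0 := by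
      rw [aeval_jF]
      exact rc_algebraMap_ne_zero F (aeval_jMod_ne_zero M hd)
    exact (mul_ne_zero hh0 hdne) hha
  have haF : algebraMap (modFunAlg M) F a ≠ 0 := rc_algebraMap_ne_zero F ha0
  -- regularity of `h` at all cusps
  have hreg : ∀ g : SL(2, ℤ), -((δ : ℤ) * M) ≤ ordCusp M g (a : ℍ → ℂ) := by
    intro g
    obtain ⟨w, e, he, hw, hord⟩ := hcp g
    have hwj' := hwj g w e he hord
    have hwx : 0 < w.ord x := by
      rw [hx, w.ord_inv]
      omega
    have hwS : w ∈ S := Finset.mem_filter.mpr ⟨(hV w).mpr hwx, g, hw⟩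
    have hwh := hSh w hwS
    obtain ⟨hdne, hwd⟩ := rc_place_ord_aeval_pole w hj0 hwj' d hd
    have h3 : w.ord (algebraMap (modFunAlg M) F a) = w.ord h + (δ : ℤ) * w.ord (jF M F) := by
      rw [← hha, w.ord_mul hh0 hdne, hwd]
    have h4 := hord (jMod M) hjM0
    rw [hJcusp g] at h4
    have h4' : (e : ℤ) * w.ord (jF M F) = -(M : ℤ) := h4.symm
    rw [hord a ha0, h3]
    have he' : (0 : ℤ) ≤ e := by exact_mod_cast he.le
    nlinarith [mul_nonneg he' hwh]
  -- the norm polynomial
  obtain ⟨g, P, hP0, hrel, hsym⟩ := rc_conj_core_c M 0 a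
  have hPdeg : ∀ j, (P j).natDegree ≤ j * δ := by
    intro j
    rcases eq_or_ne (P j) 0 with h0 | h0
    · rw [h0]; simp
    have hne : aeval (jSub M 0) (P j) ≠ 0 := aeval_jSub_ne_zero M 0 h0
    -- the analytic bound
    have han : (((-((j : ℤ) * ((δ : ℤ) * M)) : ℤ)) : WithTop ℤ) ≤
        meromorphicOrderAt (cuspFn M (fun τ =>
          ((aeval (jSub M 0) (P j) : modFunAlg M) : ℍ → ℂ) ((1 : SL(2, ℤ)) • τ))) 0 := by
      have e1 : cuspFn M (fun τ =>
          ((aeval (jSub M 0) (P j) : modFunAlg M) : ℍ → ℂ) ((1 : SL(2, ℤ)) • τ))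
          = fun z => ∑ S ∈ Finset.powersetCard j (cosetFinset M),
              ∏ q ∈ S, cuspFn M (fun τ => (a : ℍ → ℂ) (g q • τ)) z := by
        funext z
        rw [cuspFn_apply, one_smul, hsym j]
        rfl
      rw [e1]
      have hprod : ∀ S ∈ Finset.powersetCard j (cosetFinset M),
          MeromorphicAt (fun z => ∏ q ∈ S, cuspFn M (fun τ => (a : ℍ → ℂ) (g q • τ)) z) 0 ∧
          (((-((j : ℤ) * ((δ : ℤ) * M)) : ℤ)) : WithTop ℤ) ≤ meromorphicOrderAt
            (fun z => ∏ q ∈ S, cuspFn M (fun τ => (a : ℍ → ℂ) (g q • τ)) z) 0 := by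
        intro S hS
        have hcard : S.card = j := (Finset.mem_powersetCard.mp hS).2
        have h1 := rc_le_merOrd_prod S (fun q => cuspFn M (fun τ => (a : ℍ → ℂ) (g q • τ)))
          (fun q _ => rc_meromorphicAt_cuspFn_comp a.2 (hper (g q))) (-((δ : ℤ) * M))
          (fun q _ => by
            rw [← rc_coe_ordCusp M (hper (g q)) ha0]
            exact_mod_cast hreg (g q))
        refine ⟨h1.1, ?_⟩
        have h2 := h1.2
        rw [hcard] at h2
        have e2 : (j : ℤ) * -((δ : ℤ) * M) = -((j : ℤ) * ((δ : ℤ) * M)) := by ring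
        rwa [e2] at h2
      exact (rc_le_merOrd_sum _ _ (fun S hS => (hprod S hS).1) _ (fun S hS => (hprod S hS).2)).2
    rw [← rc_coe_ordCusp M (hper 1) hne] at han
    have han' : -((j : ℤ) * ((δ : ℤ) * M)) ≤
        ordCusp M 1 ((aeval (jSub M 0) (P j) : modFunAlg M) : ℍ → ℂ) := by
      exact_mod_cast han
    -- the algebraic value
    obtain ⟨w, e, he, hw, hord⟩ := hcp 1
    have hwj' := hwj 1 w e he hord
    obtain ⟨-, hwP⟩ := rc_place_ord_aeval_pole w hj0 hwj' (P j) h0
    have h4 := hord (jMod M) hjM0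
    rw [hJcusp 1] at h4
    have h4' : (e : ℤ) * w.ord (jF M F) = -(M : ℤ) := h4.symm
    rw [hord _ hne, algebraMap_aeval_jSub, algebraMap_jSub_zero, hwP] at han'
    have h5 : (e : ℤ) * (((P j).natDegree : ℤ) * w.ord (jF M F))
        = -(((P j).natDegree : ℤ) * M) := by
      rw [mul_left_comm, h4']; ring
    rw [h5] at han'
    have hM' : (0 : ℤ) < M := by exact_mod_cast hMpos
    have h6 : ((P j).natDegree : ℤ) * M ≤ ((j : ℤ) * δ) * M := by linarith
    have h7 : ((P j).natDegree : ℤ) ≤ (j : ℤ) * δ := le_of_mul_le_mul_right h6 hM'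
    exact_mod_cast h7
  -- the relation for `y = a / J ^ δ`
  set α : F := algebraMap (modFunAlg M) F a with hα
  set y : F := α * x ^ δ with hy
  have hαy : α = y * jF M F ^ δ := by
    rw [hy, mul_assoc, ← mul_pow, mul_comm x, hxj, one_pow, mul_one]
  have hxmem : x ∈ v.toValuationSubring := (place_mem_iff v hx0).mpr hvx.le
  have hrelF : ∑ j ∈ Finset.range (cosetCard M + 1),
      ((-1 : F) ^ j * aeval x ((P j).reflect (j * δ))) * y ^ (cosetCard M - j) = 0 := by
    have h1 := congrArg (algebraMap (modFunAlg M) F) hrel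
    rw [map_sum, map_zero] at h1
    have h2 : ∀ j ∈ Finset.range (cosetCard M + 1),
        algebraMap (modFunAlg M) F ((-1 : modFunAlg M) ^ j * aeval (jSub M 0) (P j) *
          a ^ (cosetCard M - j))
        = jF M F ^ (δ * cosetCard M) *
          (((-1 : F) ^ j * aeval x ((P j).reflect (j * δ))) * y ^ (cosetCard M - j)) := by
      intro j hj
      have hj' : j ≤ cosetCard M := Nat.lt_succ_iff.mp (Finset.mem_range.mp hj)
      rw [map_mul, map_mul, map_pow, map_pow, map_neg, map_one, algebraMap_aeval_jSub,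
        algebraMap_jSub_zero, ← hα, hαy, rc_aeval_eq_reflect hj0 (j * δ) (P j) (hPdeg j),
        ← hx, mul_pow, ← pow_mul]
      have e1 : δ * cosetCard M = j * δ + δ * (cosetCard M - j) := by
        have : cosetCard M = j + (cosetCard M - j) := by omega
        conv_lhs => rw [this]
        ring
      rw [e1, pow_add]
      ring
    rw [Finset.sum_congr rfl h2, ← Finset.mul_sum] at h1
    exact (mul_eq_zero.mp h1).resolve_left (pow_ne_zero _ hj0)
  have hymem : y ∈ v.toValuationSubring := by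
    refine rc_mem_of_relation v.toValuationSubring (cosetCard M)
      (fun j => (-1 : F) ^ j * aeval x ((P j).reflect (j * δ))) (by simp [hP0]) (fun j => ?_) y
      hrelF
    refine mul_mem (pow_mem (neg_mem (one_mem _)) j) (place_aeval_mem v hxmem _)
  -- conclusion
  have hc : (d.reverse).coeff 0 ≠ 0 := by
    rw [Polynomial.coeff_zero_reverse]
    exact Polynomial.leadingCoeff_ne_zero.mpr hd
  obtain ⟨hqx0, hqord⟩ := place_ord_aeval_of_coeff_zero_ne v hvx d.reverse hc
  have hdj : aeval (jF M F) d = aeval x d.reverse * jF M F ^ δ :=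
    rc_aeval_eq_reflect hj0 δ d le_rfl
  have hyq : y = h * aeval x d.reverse := by
    have e1 : α = h * (aeval x d.reverse * jF M F ^ δ) := by
      rw [← hdj]
      exact hha.symm
    calc y = α * x ^ δ := rfl
      _ = h * (aeval x d.reverse * jF M F ^ δ) * x ^ δ := by rw [← e1]
      _ = h * aeval x d.reverse * (jF M F * x) ^ δ := by rw [mul_pow]; ring
      _ = h * aeval x d.reverse := by rw [hxj, one_pow, mul_one]
  have hy0 : y ≠ 0 := by
    rw [hyq]; exact mul_ne_zero hh0 hqx0
  have hyord : v.ord y = v.ord h := by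
    rw [hyq, v.ord_mul hh0 hqx0, hqord, add_zero]
  have := (place_mem_iff v hy0).mp hymem
  omega

end Field

end Fermat.Agent.ES.RC
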