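import Fermat.Agent.ES.RC.PlaceAllConj
import Fermat.Agent.S24.Places
import Fermat.Agent.S24.Residue
import Fermat.Agent.S24.GaloisCount

/-!
# ESpkg-G1 (RC)(ii), piece P-all, finite places

`rc_place_pt_of_ord_nonneg` : a place `v` of `F = Frac (modFunAlg M)` at which `J` is regular is
the place at a point `τ ∈ ℍ`.

Proof: `J ≡ c` at `v`, `J τ₁ = c`.  If `v` is none of the places at the points of `J⁻¹(c)`, weak
approximation gives `h` with a pole at `v`, regular at those places; `h = a / d(J)`; the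
conjugates of `a` vanish to order `≥ r E` at `τ₁`, so the coefficients of the norm polynomial are
divisible by powers of `J - c` and `a / (J - c)^r` is integral over `O_v`: contradiction.
-/

set_option autoImplicit false
set_option linter.style.haveILetI false
set_option linter.unusedSectionVars false

noncomputable section

namespace Fermat.Agent.ES.RC

open UpperHalfPlane AlgebraicCurve ModularForm Polynomial IntermediateField
open Fermat.Agent.S23 Fermat.Agent.S24 Fermat.Agent.S28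
open scoped MatrixGroups Manifold ModularForm

/-! ### Generalities -/

/-- An element satisfying a monic relation with coefficients in a valuation ring lies in it. -/
theorem rc_mem_of_relation {F : Type*} [Field F] (O : ValuationSubring F) (n : ℕ) (c : ℕ → F)
    (hc0 : c 0 = 1) (hc : ∀ j, c j ∈ O) (y : F)
    (h : ∑ j ∈ Finset.range (n + 1), c j * y ^ (n - j) = 0) : y ∈ O := by
  by_contra hy
  have hyinv : y⁻¹ ∈ O := (O.mem_or_inv_mem y).resolve_left hy
  have hy0 : y ≠ 0 := fun h0 => hy (h0 ▸ O.zero_mem)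
  rw [Finset.sum_range_succ', hc0, one_mul, Nat.sub_zero] at h
  rcases Nat.eq_zero_or_pos n with hn | hn
  · subst hn
    simp at h
  have key : y = -∑ j ∈ Finset.range n, c (j + 1) * (y⁻¹) ^ j := by
    have h1 : (∑ j ∈ Finset.range n, c (j + 1) * y ^ (n - (j + 1)) + y ^ n) * (y⁻¹) ^ (n - 1) = 0 := by
      rw [h, zero_mul]
    rw [add_mul, Finset.sum_mul] at h1
    have h2 : y ^ n * (y⁻¹) ^ (n - 1) = y := by
      obtain ⟨k, rfl⟩ : ∃ k, n = k + 1 := ⟨n - 1, by omega⟩
      rw [Nat.add_sub_cancel, pow_succ, mul_assoc, mul_comm y, ← mul_assoc, ← mul_pow,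
        mul_inv_cancel₀ hy0, one_pow, one_mul]
    have h3 : ∀ j ∈ Finset.range n, c (j + 1) * y ^ (n - (j + 1)) * (y⁻¹) ^ (n - 1)
        = c (j + 1) * (y⁻¹) ^ j := by
      intro j hj
      have hj' : j < n := Finset.mem_range.mp hj
      have : n - 1 = (n - (j + 1)) + j := by omega
      rw [this, pow_add, mul_assoc, ← mul_assoc (y ^ (n - (j + 1))), ← mul_pow,
        mul_inv_cancel₀ hy0, one_pow, one_mul]
    rw [Finset.sum_congr rfl h3, h2] at h1
    exact eq_neg_of_add_eq_zero_right h1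
  apply hy
  rw [key]
  exact neg_mem (sum_mem fun j _ => mul_mem (hc _) (pow_mem hyinv _))

theorem rc_ordAt_zero (τ : ℍ) : ordAt τ (fun _ => (0 : ℂ)) = ⊤ := by
  rw [ordAt, analyticOrderAt_eq_top]
  exact Filter.Eventually.of_forall fun z => rfl

theorem rc_le_ordAt_sum {ι : Type*} (s : Finset ι) (f : ι → ℍ → ℂ) (τ : ℍ) (c : ℕ∞)
    (h : ∀ i ∈ s, c ≤ ordAt τ (f i)) : c ≤ ordAt τ (fun z => ∑ i ∈ s, f i z) := by
  classical
  induction s using Finset.induction_on with
  | empty => simp [rc_ordAt_zero]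
  | insert a s ha ih =>
    have h1 : (fun z => ∑ i ∈ insert a s, f i z) = f a + fun z => ∑ i ∈ s, f i z := by
      funext z
      simp [Finset.sum_insert ha]
    rw [h1]
    refine le_trans ?_ (le_ordAt_add _ _ τ)
    exact le_min (h a (Finset.mem_insert_self a s))
      (ih fun i hi => h i (Finset.mem_insert_of_mem hi))

theorem rc_le_ordAt_prod {ι : Type*} (s : Finset ι) (f : ι → ℍ → ℂ) (hf : ∀ i ∈ s, MDiff (f i))
    (τ : ℍ) (k : ℕ) (h : ∀ i ∈ s, (k : ℕ∞) ≤ ordAt τ (f i)) :
    MDiff (fun z => ∏ i ∈ s, f i z) ∧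
      ((s.card * k : ℕ) : ℕ∞) ≤ ordAt τ (fun z => ∏ i ∈ s, f i z) := by
  classical
  induction s using Finset.induction_on with
  | empty => exact ⟨by simpa using mdifferentiable_const, by simp⟩
  | insert a s ha ih =>
    obtain ⟨ih1, ih2⟩ := ih (fun i hi => hf i (Finset.mem_insert_of_mem hi))
      (fun i hi => h i (Finset.mem_insert_of_mem hi))
    have h1 : (fun z => ∏ i ∈ insert a s, f i z) = f a * fun z => ∏ i ∈ s, f i z := by
      funext z
      simp [Finset.prod_insert ha]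
    rw [h1]
    refine ⟨(hf a (Finset.mem_insert_self a s)).mul ih1, ?_⟩
    rw [ordAt_mul (hf a (Finset.mem_insert_self a s)) ih1, Finset.card_insert_of_notMem ha]
    have h2 := h a (Finset.mem_insert_self a s)
    calc (((s.card + 1) * k : ℕ) : ℕ∞) = (k : ℕ∞) + ((s.card * k : ℕ) : ℕ∞) := by
          push_cast; ring
      _ ≤ _ := add_le_add h2 ih2

theorem rc_mdiff_comp_smul {f : ℍ → ℂ} (hf : MDiff f) (γ : SL(2, ℤ)) :
    MDiff (fun τ => f (γ • τ)) :=
  hf.comp (UpperHalfPlane.mdifferentiable_smul (g := (γ : GL (Fin 2) ℝ)) (SL_val_det_pos γ))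

variable (M : ℕ) [NeZero M]

/-! ### Polynomials in `t = J - c` -/

theorem aeval_jSub_apply (c : ℂ) (P : ℂ[X]) (τ : ℍ) :
    ((aeval (jSub M c) P : modFunAlg M) : ℍ → ℂ) τ = P.eval (Jfun τ - c) := by
  have h := Polynomial.aeval_algHom_apply (evPt M τ) (jSub M c) P
  rw [evPt_apply, evPt_apply] at h
  rw [← h, Polynomial.coe_aeval_eq_eval]
  rfl

theorem jMod_eq_jSub_add (c : ℂ) : jMod M = jSub M c + algebraMap ℂ (modFunAlg M) c := by
  simp [jSub, jMod]

theorem aeval_jSub_comp (c : ℂ) (d : ℂ[X]) :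
    aeval (jSub M c) (d.comp (X + C c)) = aeval (jMod M) d := by
  rw [Polynomial.aeval_comp, map_add, aeval_X, aeval_C, ← jMod_eq_jSub_add]

theorem comp_ne_zero_of_ne_zero (c : ℂ) {d : ℂ[X]} (hd : d ≠ 0) : d.comp (X + C c) ≠ 0 := by
  intro h
  apply hd
  have h1 := congrArg (fun p : ℂ[X] => p.comp (X - C c)) h
  simpa [Polynomial.comp_assoc] using h1

theorem aeval_jSub_ne_zero (c : ℂ) {P : ℂ[X]} (hP : P ≠ 0) : aeval (jSub M c) P ≠ 0 := by
  have h1 : P = (P.comp (X - C c)).comp (X + C c) := by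
    simp [Polynomial.comp_assoc]
  have h2 : P.comp (X - C c) ≠ 0 := by
    intro h
    apply hP
    rw [h1, h]
    simp
  rw [h1, aeval_jSub_comp]
  exact aeval_jMod_ne_zero M h2

/-- Conjugates, centred at `c`. -/
theorem rc_conj_core_c (c : ℂ) (a : modFunAlg M) :
    ∃ (g : Coset M → SL(2, ℤ)) (P : ℕ → ℂ[X]), P 0 = 1 ∧
      (∑ j ∈ Finset.range (cosetCard M + 1),
        (-1 : modFunAlg M) ^ j * aeval (jSub M c) (P j) * a ^ (cosetCard M - j) = 0) ∧
      ∀ (j : ℕ), ((aeval (jSub M c) (P j) : modFunAlg M) : ℍ → ℂ) =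
        fun τ => ∑ S ∈ Finset.powersetCard j (cosetFinset M),
          ∏ q ∈ S, (a : ℍ → ℂ) (g q • τ) := by
  obtain ⟨g, P, hP0, hrel, hsym⟩ := rc_conj_core M a
  refine ⟨g, fun j => (P j).comp (X + C c), by simp [hP0], ?_, fun j => ?_⟩
  · apply Subtype.ext
    funext τ
    have h1 : ((∑ j ∈ Finset.range (cosetCard M + 1),
        (-1 : modFunAlg M) ^ j * aeval (jSub M c) ((P j).comp (X + C c)) *
          a ^ (cosetCard M - j) : modFunAlg M) : ℍ → ℂ) τ
        = evPt M τ (∑ j ∈ Finset.range (cosetCard M + 1),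
        (-1 : modFunAlg M) ^ j * aeval (jSub M c) ((P j).comp (X + C c)) *
          a ^ (cosetCard M - j)) := rfl
    rw [h1, map_sum]
    simp only [map_mul, map_pow, map_neg, map_one, aeval_jSub_comp]
    simp only [evPt_apply, aeval_jMod_apply]
    exact hrel τ
  · funext τ
    rw [aeval_jSub_comp, aeval_jMod_apply]
    exact hsym j τ

section Field

variable (F : Type*) [Field F] [Algebra ℂ F] [Algebra (modFunAlg M) F]
  [IsScalarTower ℂ (modFunAlg M) F] [IsFractionRing (modFunAlg M) F]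

theorem algebraMap_aeval_jSub (c : ℂ) (P : ℂ[X]) :
    algebraMap (modFunAlg M) F (aeval (jSub M c) P)
      = aeval (algebraMap (modFunAlg M) F (jSub M c)) P := by
  have h := Polynomial.aeval_algHom_apply (IsScalarTower.toAlgHom ℂ (modFunAlg M) F) (jSub M c) P
  simpa using h.symm

theorem algebraMap_jSub (c : ℂ) :
    algebraMap (modFunAlg M) F (jSub M c) = jF M F - algebraMap ℂ F c := by
  rw [jSub, map_sub, ← IsScalarTower.algebraMap_apply]
  rfl

/-- **Finite places are points.** -/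
theorem rc_place_pt_of_ord_nonneg (v : Place ℂ F) (hv : 0 ≤ v.ord (jF M F)) :
    ∃ (τ : ℍ) (e : ℕ), 0 < e ∧ ∀ f : modFunAlg M, f ≠ 0 →
      ordPt τ (f : ℍ → ℂ) = (e : ℤ) * v.ord (algebraMap (modFunAlg M) F f) := by
  classical
  have htr := transcendental_jF M F
  have hna : jF M F ∉ Set.range (algebraMap ℂ F) := by
    rintro ⟨c, hc⟩
    exact htr (hc ▸ isAlgebraic_algebraMap c)
  obtain ⟨c, hc⟩ := exists_ord_sub_pos (jF M F) htr (rc_isAlgebraic M F) v (jF M F) hv hna
  set x : F := algebraMap (modFunAlg M) F (jSub M c) with hx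
  have hxeq : x = jF M F - algebraMap ℂ F c := algebraMap_jSub M F c
  have hvx : 0 < v.ord x := by rw [hxeq]; exact hc
  have hx0 : x ≠ 0 := rc_algebraMap_ne_zero F (jSub_ne_zero M c)
  obtain ⟨τ₁, hτ₁⟩ := Jfun_surjective c
  by_contra hcon
  push Not at hcon
  -- the places at points
  have hpt : ∀ τ : ℍ, ∃ (w : Place ℂ F) (e : ℕ), 0 < e ∧
      w.toValuationSubring = (valPt M F τ).valuationSubring ∧
      ∀ f : modFunAlg M, f ≠ 0 →
        ordPt τ (f : ℍ → ℂ) = (e : ℤ) * w.ord (algebraMap (modFunAlg M) F f) :=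
    fun τ => exists_place_pt M F τ
  have hvne : ∀ (τ : ℍ) (w : Place ℂ F),
      w.toValuationSubring = (valPt M F τ).valuationSubring → w ≠ v := by
    rintro τ w hw rfl
    obtain ⟨w', e, he, hw', hord⟩ := hpt τ
    have hww : w' = w := Place.ext (hw'.trans hw.symm)
    subst hww
    obtain ⟨f, hf, hne⟩ := hcon τ e he
    exact hne (hord f hf)
  -- transcendence and finiteness over `ℂ(x)`
  have hKeq : ℂ⟮x⟯ = ℂ⟮jF M F⟯ := by
    apply le_antisymm
    · rw [adjoin_simple_le_iff, hxeq]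
      exact sub_mem (mem_adjoin_simple_self ℂ _) (IntermediateField.algebraMap_mem _ _)
    · rw [adjoin_simple_le_iff]
      have : jF M F = x + algebraMap ℂ F c := by rw [hxeq]; ring
      rw [this]
      exact add_mem (mem_adjoin_simple_self ℂ _) (IntermediateField.algebraMap_mem _ _)
  have hxtr : Transcendental ℂ x := by
    intro halg
    apply htr
    have : jF M F = x + algebraMap ℂ F c := by rw [hxeq]; ring
    rw [this]
    exact halg.add (isAlgebraic_algebraMap c)
  haveI hfd : FiniteDimensional ℂ⟮x⟯ F := hKeq ▸ rc_finiteDimensional M F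
  obtain ⟨V, hV, -⟩ := sum_ord_eq_finrank x hxtr
  set S : Finset (Place ℂ F) :=
    V.filter (fun u => ∃ τ, u.toValuationSubring = (valPt M F τ).valuationSubring) with hS
  have hvS : v ∉ S := by
    intro hmem
    obtain ⟨τ, hτ⟩ := (Finset.mem_filter.mp hmem).2
    exact hvne τ v hτ rfl
  obtain ⟨h, hvh, hSh⟩ := exists_ord_neg x hxtr v S hvx hvS
    (fun u hu => (hV u).mp (Finset.mem_filter.mp hu).1)
  have hh0 : h ≠ 0 := by
    rintro rfl
    simp at hvh
  -- `h = a / D(x)`
  obtain ⟨a, d, hd, hha⟩ := rc_exists_frac_poly M F h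
  set D : ℂ[X] := d.comp (X + C c) with hD
  have hD0 : D ≠ 0 := comp_ne_zero_of_ne_zero c hd
  have hhD : h * aeval x D = algebraMap (modFunAlg M) F a := by
    rw [hx, ← algebraMap_aeval_jSub, hD, aeval_jSub_comp]
    exact hha
  have hDx0 : aeval x D ≠ 0 := by
    rw [hx, ← algebraMap_aeval_jSub]
    exact rc_algebraMap_ne_zero F (aeval_jSub_ne_zero M c hD0)
  have ha0 : a ≠ 0 := by
    rintro rfl
    rw [map_zero] at hhD
    exact (mul_ne_zero hh0 hDx0) hhD
  have haF : algebraMap (modFunAlg M) F a ≠ 0 := rc_algebraMap_ne_zero F ha0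
  set r : ℕ := D.rootMultiplicity 0 with hr
  -- the order of `x` at the points over `c`
  have hordx : ∀ τ : ℍ, Jfun τ = c → 0 < ordPt τ (jSub M c : ℍ → ℂ) := by
    intro τ hτ
    have := ordPt_jSub_pos M τ
    rwa [hτ] at this
  -- regularity of `h` at all points over `c`
  have hreg : ∀ τ : ℍ, Jfun τ = c →
      (r : ℤ) * ordPt τ (jSub M c : ℍ → ℂ) ≤ ordPt τ (a : ℍ → ℂ) := by
    intro τ hτ
    obtain ⟨w, e, he, hw, hord⟩ := hpt τ
    have hwx : 0 < w.ord x := by
      have h1 := hord (jSub M c) (jSub_ne_zero M c)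
      have h2 := hordx τ hτ
      rw [h1] at h2
      have he' : (0 : ℤ) < e := by exact_mod_cast he
      exact (mul_pos_iff_of_pos_left he').mp h2
    have hwS : w ∈ S := Finset.mem_filter.mpr ⟨(hV w).mpr hwx, τ, hw⟩
    have hwh := hSh w hwS
    obtain ⟨-, hwD⟩ := place_ord_aeval w hwx D hD0
    have h3 : w.ord (algebraMap (modFunAlg M) F a) = w.ord h + (r : ℤ) * w.ord x := by
      rw [← hhD, w.ord_mul hh0 hDx0, hwD]
    rw [hord a ha0, hord (jSub M c) (jSub_ne_zero M c), h3]
    have he' : (0 : ℤ) ≤ e := by exact_mod_cast he.le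
    nlinarith [mul_nonneg he' hwh]
  -- the base point
  set E : ℕ := (ordAt τ₁ (jSub M c : ℍ → ℂ)).toNat with hE
  have hEpos : 0 < E := by
    have := hordx τ₁ hτ₁
    rw [ordPt] at this
    exact_mod_cast this
  have hEγ : ∀ γ : SL(2, ℤ), ordPt (γ • τ₁) (jSub M c : ℍ → ℂ) = E := by
    intro γ
    have h1 := ordAt_comp_smul (jSub M c : ℍ → ℂ) γ τ₁
    have h2 : (fun τ => (jSub M c : ℍ → ℂ) (γ • τ)) = (jSub M c : ℍ → ℂ) := by
      funext τ
      rw [jSub_apply, jSub_apply, Jfun_smul]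
    rw [h2] at h1
    rw [ordPt, ← h1]
  have hconj : ∀ γ : SL(2, ℤ), ((r * E : ℕ) : ℕ∞) ≤ ordAt (γ • τ₁) (a : ℍ → ℂ) := by
    intro γ
    have h1 := hreg (γ • τ₁) (by rw [Jfun_smul, hτ₁])
    rw [hEγ γ, ordPt] at h1
    rw [← rc_coe_ordPt M (γ • τ₁) ha0]
    exact_mod_cast h1
  -- the norm polynomial
  obtain ⟨g, P, hP0, hrel, hsym⟩ := rc_conj_core_c M c a
  have hPord : ∀ j, ((j * (r * E) : ℕ) : ℕ∞) ≤ ordAt τ₁ ((aeval (jSub M c) (P j) : modFunAlg M) : ℍ → ℂ) := by
    intro j
    rw [hsym j]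
    refine rc_le_ordAt_sum _ _ τ₁ _ fun S hS => ?_
    have hcard : S.card = j := (Finset.mem_powersetCard.mp hS).2
    have h1 := (rc_le_ordAt_prod S (fun q => fun τ => (a : ℍ → ℂ) (g q • τ))
      (fun q _ => rc_mdiff_comp_smul (rc_mdiff M a) (g q)) τ₁ (r * E)
      (fun q _ => by rw [ordAt_comp_smul]; exact hconj (g q))).2
    rwa [hcard] at h1
  obtain ⟨w₁, e₁, he₁, hw₁, hord₁⟩ := hpt τ₁
  have hw₁x : 0 < w₁.ord x := by
    have h1 := hord₁ (jSub M c) (jSub_ne_zero M c)
    have h2 := hordx τ₁ hτ₁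
    rw [h1] at h2
    have he' : (0 : ℤ) < e₁ := by exact_mod_cast he₁
    exact (mul_pos_iff_of_pos_left he').mp h2
  have hEe : (E : ℤ) = e₁ * w₁.ord x := by
    have h1 := hord₁ (jSub M c) (jSub_ne_zero M c)
    rw [ordPt] at h1
    exact h1
  have hdvd : ∀ j, (X : ℂ[X]) ^ (j * r) ∣ P j := by
    intro j
    rcases eq_or_ne (P j) 0 with h0 | h0
    · rw [h0]; exact dvd_zero _
    have hne : aeval (jSub M c) (P j) ≠ 0 := aeval_jSub_ne_zero M c h0
    have h1 := hPord j
    rw [← rc_coe_ordPt M τ₁ hne] at h1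
    have h2 : ((j * (r * E) : ℕ) : ℤ) ≤ ordPt τ₁ ((aeval (jSub M c) (P j) : modFunAlg M) : ℍ → ℂ) := by
      rw [ordPt]
      exact_mod_cast h1
    obtain ⟨-, h3⟩ := place_ord_aeval w₁ hw₁x (P j) h0
    rw [hord₁ _ hne, algebraMap_aeval_jSub, h3] at h2
    have h4 : ((j * r : ℕ) : ℤ) * E ≤ ((P j).rootMultiplicity 0 : ℤ) * E := by
      have : (e₁ : ℤ) * (((P j).rootMultiplicity 0 : ℤ) * w₁.ord x)
          = ((P j).rootMultiplicity 0 : ℤ) * E := by rw [hEe]; ring
      rw [← this]
      refine le_trans (le_of_eq ?_) h2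
      push_cast; ring
    have hE' : (0 : ℤ) < E := by exact_mod_cast hEpos
    have h5 : ((j * r : ℕ) : ℤ) ≤ ((P j).rootMultiplicity 0 : ℤ) := le_of_mul_le_mul_right h4 hE'
    have h6 : j * r ≤ (P j).rootMultiplicity 0 := by exact_mod_cast h5
    have := (Polynomial.le_rootMultiplicity_iff h0).mp h6
    simpa using this
  choose R hR using hdvd
  have hR0 : R 0 = 1 := by
    have := hR 0
    rw [hP0] at this
    simpa using this.symm
  -- the relation for `y = a / x ^ r`
  set α : F := algebraMap (modFunAlg M) F a with hα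
  set y : F := α / x ^ r with hy
  have hαy : α = y * x ^ r := by
    rw [hy, div_mul_cancel₀ _ (pow_ne_zero r hx0)]
  have hxmem : x ∈ v.toValuationSubring := (place_mem_iff v hx0).mpr hvx.le
  have hrelF : ∑ j ∈ Finset.range (cosetCard M + 1),
      ((-1 : F) ^ j * aeval x (R j)) * y ^ (cosetCard M - j) = 0 := by
    have h1 := congrArg (algebraMap (modFunAlg M) F) hrel
    rw [map_sum, map_zero] at h1
    have h2 : ∀ j ∈ Finset.range (cosetCard M + 1),
        algebraMap (modFunAlg M) F ((-1 : modFunAlg M) ^ j * aeval (jSub M c) (P j) *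
          a ^ (cosetCard M - j))
        = x ^ (r * cosetCard M) * (((-1 : F) ^ j * aeval x (R j)) * y ^ (cosetCard M - j)) := by
      intro j hj
      have hj' : j ≤ cosetCard M := Nat.lt_succ_iff.mp (Finset.mem_range.mp hj)
      rw [map_mul, map_mul, map_pow, map_pow, map_neg, map_one, algebraMap_aeval_jSub, ← hx,
        ← hα, hαy, hR j, map_mul, map_pow, aeval_X, mul_pow, ← pow_mul]
      have e1 : r * cosetCard M = j * r + r * (cosetCard M - j) := by
        have : cosetCard M = j + (cosetCard M - j) := by omega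
        conv_lhs => rw [this]
        ring
      rw [e1, pow_add]
      ring
    rw [Finset.sum_congr rfl h2, ← Finset.mul_sum] at h1
    exact (mul_eq_zero.mp h1).resolve_left (pow_ne_zero _ hx0)
  have hymem : y ∈ v.toValuationSubring := by
    refine rc_mem_of_relation v.toValuationSubring (cosetCard M)
      (fun j => (-1 : F) ^ j * aeval x (R j)) (by simp [hR0]) (fun j => ?_) y hrelF
    refine mul_mem (pow_mem (neg_mem (one_mem _)) j) (place_aeval_mem v hxmem (R j))
  -- conclusion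
  obtain ⟨q, hq, hqdvd⟩ := Polynomial.exists_eq_pow_rootMultiplicity_mul_and_not_dvd D hD0 0
  have hq0 : q.coeff 0 ≠ 0 := by
    intro h0
    apply hqdvd
    rw [map_zero, sub_zero]
    exact Polynomial.X_dvd_iff.mpr h0
  obtain ⟨hqx0, hqord⟩ := place_ord_aeval_of_coeff_zero_ne v hvx q hq0
  have hDq : aeval x D = x ^ r * aeval x q := by
    conv_lhs => rw [hq]
    simp [hr]
  have hyq : y = h * aeval x q := by
    rw [hy, ← hhD, hDq]
    field_simp
  have hy0 : y ≠ 0 := by
    rw [hyq]; exact mul_ne_zero hh0 hqx0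
  have hyord : v.ord y = v.ord h := by
    rw [hyq, v.ord_mul hh0 hqx0, hqord, add_zero]
  have := (place_mem_iff v hy0).mp hymem
  omega

end Field

end Fermat.Agent.ES.RC
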