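import Fermat.Agent.ES.RC.CuspVal

/-!
# ESpkg-G1 (RC)(ii), piece P-cusp: the place of `Frac (modFunAlg M)` at a cusp

* `exists_place_of_ordFun_neg` : variant of `exists_place_of_ordFun` for an order function which
  is negative somewhere (at a cusp every nonconstant element of `modFunAlg 1 = ℂ[J]` has a pole);
* `valCusp M F hp` : the valuation of `F` given by the order at the cusp `g∞` in `q_h`;
* `exists_place_cusp` : the place at the cusp, with its valuation ring;
* `stmtCusp : StmtCusp M F`.
-/

set_option autoImplicit false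

noncomputable section

namespace Fermat.Agent.ES.RC

open UpperHalfPlane AlgebraicCurve ModularForm WithZero
open Fermat.Agent.S23 Fermat.Agent.S24 Fermat.Agent.S28
open scoped MatrixGroups Manifold ModularForm

section Generic

variable {B : Type*} [CommRing B] [Nontrivial B]
variable (F : Type*) [Field F] [Algebra B F] [IsFractionRing B F]
variable {K : Type*} [Field K] [Algebra K B] [Algebra K F] [IsScalarTower K B F]

/-- **The place attached to an order function** which vanishes on the constants and is negative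
somewhere. -/
theorem exists_place_of_ordFun_neg (o : B → ℤ) (ho : IsOrdFun o)
    (hK : ∀ a : K, algebraMap K B a ≠ 0 → 0 ≤ o (algebraMap K B a))
    (hneg : ∃ x : B, x ≠ 0 ∧ o x < 0) :
    ∃ (w : Place K F) (e : ℕ), 0 < e ∧
      w.toValuationSubring = (ordFrac F o ho).valuationSubring ∧
      ∀ f : B, f ≠ 0 → o f = (e : ℤ) * w.ord (algebraMap B F f) := by
  obtain ⟨x, hx0, hx⟩ := hneg
  obtain ⟨w, e₀, he₀, hw, hord⟩ := exists_place_of_valuation (K := K) (ordFrac F o ho)
    (by
      intro a
      rw [IsScalarTower.algebraMap_apply K B F, ordFrac_algebraMap]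
      rcases eq_or_ne (algebraMap K B a) 0 with h | h
      · rw [h, map_zero]; exact zero_le_one
      · rw [ordVal_apply o ho h, ← WithZero.exp_zero, WithZero.exp_le_exp]
        have := hK a h
        omega)
    ⟨(algebraMap B F x)⁻¹, inv_ne_zero (rc_algebraMap_ne_zero F hx0), by
      rw [lt_one_iff_vord_pos _ (inv_ne_zero (rc_algebraMap_ne_zero F hx0)), vord_inv,
        vord_ordFrac_algebraMap F o ho hx0]
      omega⟩
  lift e₀ to ℕ using he₀.le
  refine ⟨w, e₀, by exact_mod_cast he₀, hw, fun f hf => ?_⟩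
  rw [← hord _ (rc_algebraMap_ne_zero F hf), vord_ordFrac_algebraMap F o ho hf]

end Generic

variable (M : ℕ) [NeZero M]

section Place

variable (F : Type*) [Field F] [Algebra ℂ F] [Algebra (modFunAlg M) F]
  [IsScalarTower ℂ (modFunAlg M) F] [IsFractionRing (modFunAlg M) F]

/-- The valuation of `F` given by the order at the cusp `g∞` in the parameter `q_h`. -/
def valCusp {h : ℕ} {g : SL(2, ℤ)} (hp : IsCuspPeriod M h g) : Valuation F ℤᵐ⁰ :=
  ordFrac F (fun f : modFunAlg M => ordCusp h g (f : ℍ → ℂ)) (isOrdFun_ordCusp M hp)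

/-- The place of `F` at the cusp `g∞`. -/
theorem exists_place_cusp {h : ℕ} {g : SL(2, ℤ)} (hp : IsCuspPeriod M h g) :
    ∃ (w : Place ℂ F) (e : ℕ), 0 < e ∧
      w.toValuationSubring = (valCusp M F hp).valuationSubring ∧
      ∀ f : modFunAlg M, f ≠ 0 →
        ordCusp h g (f : ℍ → ℂ) = (e : ℤ) * w.ord (algebraMap (modFunAlg M) F f) :=
  exists_place_of_ordFun_neg (K := ℂ) F (fun f : modFunAlg M => ordCusp h g (f : ℍ → ℂ))
    (isOrdFun_ordCusp M hp) (fun a _ => (ordCusp_algebraMap M h g a).ge)
    ⟨jElt M, jElt_ne_zero M, by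
      show ordCusp h g Jfun < 0
      rw [ordCusp_Jfun hp.1 g]
      have : (0 : ℤ) < h := by exact_mod_cast hp.1
      omega⟩

end Place

/-- **P-cusp.** -/
theorem stmtCusp (F : Type) [Field F] [Algebra ℂ F] [Algebra (modFunAlg M) F]
    [IsScalarTower ℂ (modFunAlg M) F] [IsFractionRing (modFunAlg M) F] : StmtCusp M F := by
  intro g h hp
  obtain ⟨w, e, he, -, hw⟩ := exists_place_cusp M F hp
  exact ⟨w, e, he, hw⟩

end Fermat.Agent.ES.RC
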