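import Fermat.Agent.S28.NormPoly
import Fermat.Agent.S24.OrderAt
import Fermat.Agent.S24.CuspAnalysis

/-!
# ESpkg-G1, piece (RC)(ii): places of `K_ℂ = Frac (modFunAlg M)` ↔ analytic orders — interface

`F` is any field of fractions of `modFunAlg M` (the holomorphic modular functions of level `Γ₀(M)`,
meromorphic at the cusps); by (RC)(i) (`Fermat.Agent.ES.RC.rc_isFractionRing`) this applies to
`K_ℂ = modularFunctionFieldFullC ℂ M`.

* `ordPt τ f`      : the order of vanishing of `f` at `τ ∈ ℍ` (an integer);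
* `IsCuspPeriod M h g` : `0 < h` and `g T^h g⁻¹ ∈ Γ₀(M)`, so `f ∘ g` is `h`-periodic for `f` of level `M`;
* `ordCusp h g f`  : the order of `f ∘ g` at `i∞` in the local parameter `q_h = exp (2πi z / h)`.

Statements (each is proved in its own file, see `NOTES/ES-RC2.md`):
* `StmtPt M F`       : every `τ` gives a place `v` with `ordPt τ f = e * v.ord f`, `0 < e`;
* `StmtPtExact M F`  : moreover `e` is the order of the multiplier of some `ε ∈ Γ₀(M)` fixing `τ`;
* `StmtCusp M F`     : every cusp `g∞` and period `h` give a place `v` with `ordCusp h g f = e * v.ord f`;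
* `StmtCuspExact M F`: for every `g` there is a period `h` with `ordCusp h g f = v.ord f`;
* `StmtAll M F`      : every place of `F / ℂ` is one of those.
-/

set_option autoImplicit false

noncomputable section

namespace Fermat.Agent.ES.RC

open UpperHalfPlane AlgebraicCurve
open Fermat.Agent.S24 Fermat.Agent.S28
open scoped MatrixGroups

/-- The (integer) order of vanishing of `f : ℍ → ℂ` at `τ` (`0` if `f` vanishes identically
near `τ`). -/
def ordPt (τ : ℍ) (f : ℍ → ℂ) : ℤ := ((ordAt τ f).toNat : ℤ)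

/-- `h` is a period of the cusp `g∞` of `Γ₀(M)`. -/
def IsCuspPeriod (M h : ℕ) (g : SL(2, ℤ)) : Prop :=
  0 < h ∧ g * ModularGroup.T ^ h * g⁻¹ ∈ CongruenceSubgroup.Gamma0 M

/-- The order of `f ∘ g` at `i∞` in the parameter `q_h` (`0` if not meromorphic or if `f = 0`). -/
def ordCusp (h : ℕ) (g : SL(2, ℤ)) (f : ℍ → ℂ) : ℤ :=
  (meromorphicOrderAt (cuspFn h (fun τ => f (g • τ))) 0).untop₀

section Statements

variable (M : ℕ) [NeZero M] (F : Type) [Field F] [Algebra ℂ F] [Algebra (modFunAlg M) F]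

/-- The order at `τ` is, on `modFunAlg M`, a positive multiple of the order at a place of `F`. -/
def StmtPt : Prop :=
  ∀ τ : ℍ, ∃ (v : Place ℂ F) (e : ℕ), 0 < e ∧ ∀ f : modFunAlg M, f ≠ 0 →
    ordPt τ (f : ℍ → ℂ) = (e : ℤ) * v.ord (algebraMap (modFunAlg M) F f)

/-- Exact form: the ramification index `e` is the order of the multiplier `denom ε τ ^ 2` of an
element `ε ∈ Γ₀(M)` fixing `τ` (so `e = 1` unless `τ` is an elliptic point of `Γ₀(M)`). -/
def StmtPtExact : Prop :=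
  ∀ τ : ℍ, ∃ (v : Place ℂ F) (e : ℕ) (ε : SL(2, ℤ)), ε ∈ CongruenceSubgroup.Gamma0 M ∧
    ε • τ = τ ∧ IsPrimitiveRoot (denom ε τ ^ 2) e ∧ ∀ f : modFunAlg M, f ≠ 0 →
      ordPt τ (f : ℍ → ℂ) = (e : ℤ) * v.ord (algebraMap (modFunAlg M) F f)

/-- The order at a cusp, in `q_h` for a period `h`, is a positive multiple of the order at a
place of `F`. -/
def StmtCusp : Prop :=
  ∀ (g : SL(2, ℤ)) (h : ℕ), IsCuspPeriod M h g → ∃ (v : Place ℂ F) (e : ℕ), 0 < e ∧
    ∀ f : modFunAlg M, f ≠ 0 →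
      ordCusp h g (f : ℍ → ℂ) = (e : ℤ) * v.ord (algebraMap (modFunAlg M) F f)

/-- Exact form: for the right period `h` (the width of the cusp), `q_h` is a uniformiser. -/
def StmtCuspExact : Prop :=
  ∀ g : SL(2, ℤ), ∃ (v : Place ℂ F) (h : ℕ), IsCuspPeriod M h g ∧
    ∀ f : modFunAlg M, f ≠ 0 →
      ordCusp h g (f : ℍ → ℂ) = v.ord (algebraMap (modFunAlg M) F f)

/-- Every place of `F` over `ℂ` is the order at a point of `ℍ` or at a cusp. -/
def StmtAll : Prop :=
  ∀ v : Place ℂ F,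
    (∃ (τ : ℍ) (e : ℕ), 0 < e ∧ ∀ f : modFunAlg M, f ≠ 0 →
      ordPt τ (f : ℍ → ℂ) = (e : ℤ) * v.ord (algebraMap (modFunAlg M) F f)) ∨
    (∃ (g : SL(2, ℤ)) (h e : ℕ), IsCuspPeriod M h g ∧ 0 < e ∧ ∀ f : modFunAlg M, f ≠ 0 →
      ordCusp h g (f : ℍ → ℂ) = (e : ℤ) * v.ord (algebraMap (modFunAlg M) F f))

end Statements

end Fermat.Agent.ES.RC
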