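import Fermat.Agent.S28.Bridge
import Fermat.Agent.S28.DerivLaurent
import Fermat.Agent.S23.ThetaSlash
import Fermat.Agent.ES.Kronecker
import Fermat.Agent.ES.RC.ModFunField
import Fermat.Agent.ES.RC.CuspVal

/-!
# ESpkg-G1, analytic seam of HKb, part 1: translation by a rational number

For `f` holomorphic on `ℍ`, `1`-periodic and meromorphic at `i∞` (`IsMerInf f`) and a rational
number `B / D`, the translate `τ ↦ f (τ + B / D)` is again in `merInf` and its Laurent expansion
is the rotation `kronRot ξ (laurentOf f)`, `ξ = exp (2πi B / D)`: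

* `rc_isMerInf_shift`, `rc_laurentOf_shift`.
-/

set_option autoImplicit false

noncomputable section

namespace Fermat.Agent.ES.RC

open UpperHalfPlane ModularForm Filter Asymptotics Complex
open Fermat.Agent.S23 Fermat.Agent.S28 Fermat.Agent.ES
open scoped Manifold Topology Real

local notation "Δ" => ModularForm.discriminant
local notation "𝕢" => Function.Periodic.qParam

/-! ### Composition with `τ ↦ (A τ + B) / D` -/

theorem rc_mapsTo_beta (A B D : ℤ) (hA : 0 < A) (hD : 0 < D) :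
    Set.MapsTo (fun w : ℂ => ((A : ℂ) * w + (B : ℂ)) / (D : ℂ)) {z | 0 < z.im} {z | 0 < z.im} := by
  intro w hw
  exact (P8_betaPt A B D hA hD ⟨w, hw⟩).im_pos

/-- `τ ↦ f ((A τ + B) / D)` is holomorphic if `f` is. -/
theorem rc_mdiff_comp_beta (A B D : ℤ) (hA : 0 < A) (hD : 0 < D) {f : ℍ → ℂ} (hf : MDiff f) :
    MDiff (fun z => f (P8_betaPt A B D hA hD z)) := by
  rw [UpperHalfPlane.mdifferentiable_iff] at hf ⊢
  have hmaps := rc_mapsTo_beta A B D hA hD
  have hcomp : DifferentiableOn ℂ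
      ((f ∘ ofComplex) ∘ (fun w : ℂ => ((A : ℂ) * w + (B : ℂ)) / (D : ℂ))) {z | 0 < z.im} :=
    hf.comp (by fun_prop) hmaps
  refine hcomp.congr ?_
  intro w hw
  have hw' : 0 < (((A : ℂ) * w + (B : ℂ)) / (D : ℂ)).im := hmaps hw
  simp only [Function.comp_apply]
  rw [ofComplex_apply_of_im_pos hw, ofComplex_apply_of_im_pos hw']
  rfl

theorem rc_isBounded_comp_beta (A B D : ℤ) (hA : 0 < A) (hD : 0 < D) {f : ℍ → ℂ}
    (hf : IsBoundedAtImInfty f) : IsBoundedAtImInfty (fun z => f (P8_betaPt A B D hA hD z)) :=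
  hf.comp_tendsto (P8_tendsto_betaPt A B D hA hD)

/-! ### Integer translations -/

/-- A `1`-periodic function is invariant under integer translations. -/
theorem rc_periodic_int {f : ℍ → ℂ} (hf : Function.Periodic (f ∘ ofComplex) 1) (z w : ℍ) (k : ℤ)
    (h : (w : ℂ) = (z : ℂ) + k) : f w = f z := by
  have h1 := (hf.int_mul k) (z : ℂ)
  simp only [Function.comp_apply, mul_one] at h1
  rw [← h, ofComplex_apply, ofComplex_apply] at h1
  exact h1

/-! ### The shift `τ ↦ τ + B / D` -/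

/-- The point `τ + B / D`. -/
def rcShift (B D : ℤ) (hD : 0 < D) (z : ℍ) : ℍ := P8_betaPt D B D hD hD z

theorem rc_coe_shift (B D : ℤ) (hD : 0 < D) (z : ℍ) :
    ((rcShift B D hD z : ℍ) : ℂ) = (z : ℂ) + (B : ℂ) / (D : ℂ) := by
  have hD' : (D : ℂ) ≠ 0 := by exact_mod_cast hD.ne'
  rw [rcShift, P8_coe_betaPt]
  field_simp

/-- The root of unity `exp (2πi B / D)`, as a unit of `ℂ`. -/
def rcRoot (B D : ℤ) : ℂˣ :=
  Units.mk0 (Complex.exp (2 * π * Complex.I * ((B : ℂ) / (D : ℂ)))) (Complex.exp_ne_zero _)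

theorem rc_coe_root (B D : ℤ) :
    ((rcRoot B D : ℂˣ) : ℂ) = Complex.exp (2 * π * Complex.I * ((B : ℂ) / (D : ℂ))) := rfl

theorem rc_qParam_shift (B D : ℤ) (hD : 0 < D) (z : ℍ) :
    𝕢 1 (rcShift B D hD z) = (rcRoot B D : ℂ) * 𝕢 1 z := by
  rw [rc_coe_root, Function.Periodic.qParam, Function.Periodic.qParam, rc_coe_shift,
    ← Complex.exp_add]
  congr 1
  push_cast
  ring

theorem rc_periodic_shift (B D : ℤ) (hD : 0 < D) {f : ℍ → ℂ}
    (hf : Function.Periodic (f ∘ ofComplex) 1) :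
    Function.Periodic ((fun z => f (rcShift B D hD z)) ∘ ofComplex) 1 := by
  intro w
  simp only [Function.comp_apply]
  by_cases hw : 0 < w.im
  · have hw1 : 0 < (w + 1).im := by simpa using hw
    rw [ofComplex_apply_of_im_pos hw, ofComplex_apply_of_im_pos hw1]
    refine rc_periodic_int hf _ _ 1 ?_
    rw [rc_coe_shift, rc_coe_shift]
    push_cast
    show w + 1 + (B : ℂ) / (D : ℂ) = w + (B : ℂ) / (D : ℂ) + 1
    ring
  · have hw1 : ¬ 0 < (w + 1).im := by simpa using hw
    rw [ofComplex_apply_of_im_nonpos (not_lt.mp hw), ofComplex_apply_of_im_nonpos (not_lt.mp hw1)]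

/-- `τ ↦ g (τ + B / D)` is in `HPB` if `g` is. -/
theorem rc_isHPB_shift (B D : ℤ) (hD : 0 < D) {g : ℍ → ℂ} (hg : IsHPB g) :
    IsHPB (fun z => g (rcShift B D hD z)) :=
  ⟨rc_mdiff_comp_beta D B D hD hD hg.1, rc_periodic_shift B D hD hg.2.1,
    rc_isBounded_comp_beta D B D hD hD hg.2.2⟩

/-- The `q`-expansion of `τ ↦ g (τ + B / D)` is the rotated `q`-expansion of `g`. -/
theorem rc_qExpansion_shift_coeff (B D : ℤ) (hD : 0 < D) {g : ℍ → ℂ} (hg : IsHPB g) (n : ℕ) :
    (qExpansion 1 (fun z => g (rcShift B D hD z))).coeff n =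
      (rcRoot B D : ℂ) ^ n * (qExpansion 1 g).coeff n := by
  have hs := rc_isHPB_shift B D hD hg
  have hcont : Continuous (fun z => g (rcShift B D hD z)) := hs.1.continuous
  refine (UpperHalfPlane.qExpansion_coeff_unique
    (c := fun n => (rcRoot B D : ℂ) ^ n * (qExpansion 1 g).coeff n)
    (ContinuousMap.mk (fun z => g (rcShift B D hD z)) hcont)
    one_pos hs.analyticAt ?_ n).symm
  intro τ
  have h1 := UpperHalfPlane.hasSum_qExpansion (h := 1) one_pos hg.2.1 hg.1 hg.2.2
    (rcShift B D hD τ)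
  rw [rc_qParam_shift] at h1
  change HasSum (fun m ↦ ((rcRoot B D : ℂ) ^ m * (qExpansion 1 g).coeff m) •
    𝕢 1 τ ^ m) (g (rcShift B D hD τ))
  convert h1 using 2 with m
  simp only [smul_eq_mul, mul_pow]
  ring

/-- Laurent form, for `g` in `HPB`. -/
theorem rc_laurentOf_shift_of_isHPB (B D : ℤ) (hD : 0 < D) {g : ℍ → ℂ} (hg : IsHPB g) :
    laurentOf (fun z => g (rcShift B D hD z)) = kronRot (rcRoot B D) (laurentOf g) := by
  rw [laurentOf_of_isHPB (rc_isHPB_shift B D hD hg), laurentOf_of_isHPB hg]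
  ext k
  rw [kronRot_coeff]
  rcases lt_or_ge k 0 with hk | hk
  · rw [ModularCurve.ofPowerSeries_coeff_of_neg _ hk,
      ModularCurve.ofPowerSeries_coeff_of_neg _ hk, mul_zero]
  · obtain ⟨n, rfl⟩ := Int.eq_ofNat_of_zero_le hk
    rw [HahnSeries.ofPowerSeries_apply_coeff, HahnSeries.ofPowerSeries_apply_coeff,
      rc_qExpansion_shift_coeff B D hD hg]
    simp [zpow_natCast]

/-! ### Two-sided control of `Δ` at `i∞` -/

theorem rc_discriminant_isBigO_exp :
    (Δ : ℍ → ℂ) =O[atImInfty] fun τ : ℍ => Real.exp (-2 * π * τ.im) :=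
  P8_discriminant_isBigO_exp

theorem rc_inv_discriminant_comp_beta_isBigO (A B D : ℤ) (hA : 0 < A) (hD : 0 < D) :
    (fun z : ℍ => (Δ (P8_betaPt A B D hA hD z))⁻¹) =O[atImInfty]
      (fun z : ℍ => (Real.exp (-2 * π * ((A : ℝ) / (D : ℝ) * z.im)))⁻¹) := by
  have h2 : (fun z : ℍ => Real.exp (-2 * π * (P8_betaPt A B D hA hD z).im)) =O[atImInfty]
      (fun z : ℍ => Δ (P8_betaPt A B D hA hD z)) :=
    exp_isBigO_discriminant.comp_tendsto (P8_tendsto_betaPt A B D hA hD)
  have h3 := h2.inv_rev (Eventually.of_forall fun z h => absurd h (Real.exp_pos _).ne')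
  refine h3.congr' (Eventually.of_forall fun z => rfl) (Eventually.of_forall fun z => ?_)
  simp only
  rw [P8_im_betaPt]

/-- `Δ(τ) / Δ(τ + B / D)` is bounded at `i∞`. -/
theorem rc_isBounded_disc_div_shift (B D : ℤ) (hD : 0 < D) :
    IsBoundedAtImInfty (fun z : ℍ => Δ z * (Δ (rcShift B D hD z))⁻¹) := by
  have h1 := rc_discriminant_isBigO_exp
  have h2 := rc_inv_discriminant_comp_beta_isBigO D B D hD hD
  have h3 := h1.mul h2
  refine h3.congr' (Eventually.of_forall fun z => rfl) (Eventually.of_forall fun z => ?_)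
  have hD' : (D : ℝ) ≠ 0 := by exact_mod_cast hD.ne'
  simp only [Pi.one_apply]
  rw [div_self hD', one_mul]
  exact mul_inv_cancel₀ (Real.exp_pos _).ne'

/-! ### The shift on `merInf` -/

theorem rc_shift_mul_eq {f : ℍ → ℂ} (m : ℕ) (B D : ℤ) (hD : 0 < D) (z : ℍ) :
    f (rcShift B D hD z) * Δ z ^ m =
      (f (rcShift B D hD z) * Δ (rcShift B D hD z) ^ m) *
        (Δ z * (Δ (rcShift B D hD z))⁻¹) ^ m := by
  have h := discriminant_ne_zero (rcShift B D hD z)
  rw [mul_pow, inv_pow]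
  field_simp

/-- `τ ↦ f (τ + B / D)` is in `merInf` if `f` is. -/
theorem rc_isMerInf_shift (B D : ℤ) (hD : 0 < D) {f : ℍ → ℂ} (hf : IsMerInf f) :
    IsMerInf (fun z => f (rcShift B D hD z)) := by
  obtain ⟨m, hm⟩ := hf
  refine ⟨m, ?_, ?_, ?_⟩
  · exact (rc_mdiff_comp_beta D B D hD hD (IsMerInf.mdiff ⟨m, hm⟩)).mul
      (mdiff_discriminant_pow m)
  · have h1 := rc_periodic_shift B D hD (f := fun z => f z * Δ z ^ m) hm.2.1
    have h2 : Function.Periodic ((fun z : ℍ => Δ z) ∘ ofComplex) 1 :=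
      bridge_isHPB_discriminant.2.1
    have h3 := rc_periodic_shift B D hD h2
    intro w
    have e1 := h1 w
    have e2 := h2 w
    have e3 := h3 w
    simp only [Function.comp_apply] at e1 e2 e3 ⊢
    rw [e2]
    have hΔ := discriminant_ne_zero (rcShift B D hD (ofComplex w))
    have hΔ' := discriminant_ne_zero (rcShift B D hD (ofComplex (w + 1)))
    rw [e3] at e1 hΔ'
    have : f (rcShift B D hD (ofComplex (w + 1))) = f (rcShift B D hD (ofComplex w)) :=
      mul_right_cancel₀ (pow_ne_zero m hΔ) e1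
    rw [this]
  · have h1 := rc_isBounded_comp_beta D B D hD hD hm.2.2
    have h2 := rc_isBounded_pow (rc_isBounded_disc_div_shift B D hD) m
    have h3 := h1.mul h2
    refine h3.congr' (Eventually.of_forall fun z => ?_) (Eventually.of_forall fun z => rfl)
    exact (rc_shift_mul_eq m B D hD z).symm

theorem rc_kronRot_injective (c : ℂˣ) : Function.Injective (kronRot c : LaurentSeries ℂ →+* _) :=
  (kronRot c).injective

/-- **Rotation**: the Laurent expansion of `τ ↦ f (τ + B / D)` is `kronRot ξ (laurentOf f)`,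
`ξ = exp (2πi B / D)`. -/
theorem rc_laurentOf_shift (B D : ℤ) (hD : 0 < D) {f : ℍ → ℂ} (hf : IsMerInf f) :
    laurentOf (fun z => f (rcShift B D hD z)) = kronRot (rcRoot B D) (laurentOf f) := by
  obtain ⟨m, hm⟩ := hf
  have hf : IsMerInf f := ⟨m, hm⟩
  have hfs := rc_isMerInf_shift B D hD hf
  have hΔs : IsHPB (fun z => Δ (rcShift B D hD z)) :=
    rc_isHPB_shift B D hD bridge_isHPB_discriminant
  have hΔsm : IsMerInf (fun z => Δ (rcShift B D hD z) ^ m) :=
    rc_isMerInf_pow (IsHPB.isMerInf hΔs) m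
  -- the product `f Δ^m`, shifted
  have e1 := rc_laurentOf_shift_of_isHPB B D hD hm
  have e2 : laurentOf (fun z => f (rcShift B D hD z) * Δ (rcShift B D hD z) ^ m) =
      laurentOf (fun z => f (rcShift B D hD z)) *
        laurentOf (fun z => Δ (rcShift B D hD z)) ^ m := by
    have := laurentOf_mul hfs hΔsm
    rw [show (fun z => Δ (rcShift B D hD z) ^ m) = (fun z => Δ (rcShift B D hD z)) ^ m from rfl,
      laurentOf_pow (IsHPB.isMerInf hΔs)] at this
    exact this
  have e3 : laurentOf (fun z => Δ (rcShift B D hD z)) = kronRot (rcRoot B D) deltaL := by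
    rw [rc_laurentOf_shift_of_isHPB B D hD bridge_isHPB_discriminant, laurentOf_discriminant]
  have e4 : laurentOf (fun z => f z * Δ z ^ m) = laurentOf f * deltaL ^ m :=
    laurentOf_mul_deltaL_pow hm ▸ (laurentOf_of_isHPB hm)
  have hne : kronRot (rcRoot B D) deltaL ^ m ≠ 0 :=
    pow_ne_zero m (fun h => deltaL_ne_zero (rc_kronRot_injective _ (by rw [h, map_zero])))
  apply mul_right_cancel₀ hne
  rw [← e3, ← e2, e1, e4, map_mul, map_pow, e3]

end Fermat.Agent.ES.RC
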